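/-
Program G (S28, Igusa), chapter IG/VAL, helper8 (chapter lead): INTERFACE.

Blueprint: `IG_BLUEPRINT.md` §1 (a)–(d) and §3, in the VALUATION-FREE form (helper18 / helper8):
the order `C0 = O_v[x_d : d ∣ N] ⊂ FF_N` with its coefficientwise reduction `red : C0 → k((q))`.

Notation: `ℓ` prime, `k = ZMod ℓ`, `ℤℓ = GaloisRep.ratLocalizedAt ℓ`, `FF N = modularFunctionFieldFull N`
(`⊂ ℚ((q))`), `LC ℓ N = modularFunctionFieldFullC (ZMod ℓ) N` (`⊂ k((q))`), `x_d = j(q^d)`.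

CONTENTS
* `resℓ : ℤℓ →+* ZMod ℓ`, `xd`, `xdC`, `Qj`, `kj`, `Ov` (the DVR `ℤℓ[j]_(ℓ)` as a subring of `FF N`).
* INPUT Prop-defs: `DegLe` (AN), `FrickeAut` (AN); from `IG/PR/Interface20` (helper20):
  `P0 p` (AN, both modular relations), `TheoremP p`, `CofactorIrred p`, `PrimeLevelDegree p` (PR).
  `XdIntegral` is derived INSIDE VAL from `P0` (block B2).
* VAL deliverables as Prop-defs / structures: `Irr`, `RedPackage`, `FrickeRed`, `IrrStepDvd`,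
  `IrrStepNdvd`, `ChartKer`, `ChartDomain` (per chart), and the final target
  `Fermat.Agent.IG.Interface4.ChartDomain N ℓ` (helper4's top-level interface).
Nothing is proved here except that the definitions make sense.
-/
import Mathlib
import Fermat.Prelude.Def_ModularCurve_IgusaScheme
import Fermat.Prelude.Def_ModularCurve_X0ModL
import Fermat.Agent.IG.Interface4
import Fermat.Agent.IG.PR.Interface20

set_option autoImplicit false

noncomputable section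

namespace Fermat.Agent.IG.VAL.ValInterface8

open ModularCurve ModularCurve.IgusaScheme Polynomial
open Fermat.Agent.IG

/-! ### Basic objects -/

section Basic

variable (ℓ : ℕ) [Fact ℓ.Prime]

/-- The denominator of an element of `ℤ_(ℓ)` is a unit mod `ℓ`. -/
theorem den_ne_zero (x : ↥(GaloisRep.ratLocalizedAt ℓ)) : (((x : ℚ).den : ℕ) : ZMod ℓ) ≠ 0 := by
  intro h
  rw [ZMod.natCast_eq_zero_iff] at h
  have hx : (x : ℚ).den.Coprime ℓ := x.2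
  exact (Fact.out : ℓ.Prime).one_lt.ne' (Nat.Coprime.eq_one_of_dvd hx.symm h)

/-- The residue map `ℤ_(ℓ) → 𝔽_ℓ`. -/
def resℓ : ↥(GaloisRep.ratLocalizedAt ℓ) →+* ZMod ℓ where
  toFun x := ((x : ℚ) : ZMod ℓ)
  map_one' := by simp
  map_mul' x y := Rat.cast_mul_of_ne_zero (den_ne_zero ℓ x) (den_ne_zero ℓ y)
  map_zero' := by simp
  map_add' x y := Rat.cast_add_of_ne_zero (den_ne_zero ℓ x) (den_ne_zero ℓ y)

theorem resℓ_apply (x : ↥(GaloisRep.ratLocalizedAt ℓ)) : resℓ ℓ x = ((x : ℚ) : ZMod ℓ) := rfl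

end Basic

/-- `FF N = ℚ(x_d : d ∣ N)`, as a type. -/
abbrev FF (N : ℕ) : Type := ↥(modularFunctionFieldFull N)

/-- `L_N = k(x̃_d : d ∣ N) ⊂ k((q))`, `k = ZMod ℓ`. -/
abbrev LC (ℓ N : ℕ) [Fact ℓ.Prime] : IntermediateField (ZMod ℓ) (LaurentSeries (ZMod ℓ)) :=
  modularFunctionFieldFullC (ZMod ℓ) N

/-- `x_d = j(q^d)` as an element of `FF N` (`d ∣ N`). -/
def xd (N d : ℕ) [NeZero d] (hd : d ∣ N) : FF N := ⟨qExpand ℚ d jq, jqd_mem_full N hd⟩

/-- `x̃_d = j̃(q^d)` with coefficients in any commutative ring. -/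
abbrev xdC (K : Type) [CommRing K] (d : ℕ) [NeZero d] : LaurentSeries K := qExpand K d (jqModC K)

/-- `ℚ(j) ⊂ ℚ((q))`. -/
abbrev Qj : IntermediateField ℚ (LaurentSeries ℚ) := IntermediateField.adjoin ℚ {jq}

/-- `k(j̃) ⊂ k((q))`. -/
abbrev kj (ℓ : ℕ) [Fact ℓ.Prime] : IntermediateField (ZMod ℓ) (LaurentSeries (ZMod ℓ)) :=
  IntermediateField.adjoin (ZMod ℓ) {jqModC (ZMod ℓ)}

/-! ### The DVR `O_v = ℤℓ[j]_(ℓ)` inside `FF N` -/

section OvDef

variable (ℓ : ℕ) [Fact ℓ.Prime] (N : ℕ) [NeZero N]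

/-- `O_v = { f(j)/h(j) : f, h ∈ ℤℓ[X], h mod ℓ ≠ 0 } ⊂ FF N`. -/
def Ov : Subring (FF N) where
  carrier := {x | ∃ f h : (↥(GaloisRep.ratLocalizedAt ℓ))[X], h.map (resℓ ℓ) ≠ 0 ∧
    x * aeval (jFull N) h = aeval (jFull N) f}
  mul_mem' := by
    rintro x y ⟨f, h, hh, hx⟩ ⟨f', h', hh', hy⟩
    refine ⟨f * f', h * h', ?_, ?_⟩
    · rw [Polynomial.map_mul]; exact mul_ne_zero hh hh'
    · rw [map_mul, map_mul, ← hx, ← hy]; ring
  one_mem' := ⟨1, 1, by simp, by simp⟩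
  add_mem' := by
    rintro x y ⟨f, h, hh, hx⟩ ⟨f', h', hh', hy⟩
    refine ⟨f * h' + f' * h, h * h', ?_, ?_⟩
    · rw [Polynomial.map_mul]; exact mul_ne_zero hh hh'
    · rw [map_add, map_mul, map_mul, map_mul, ← hx, ← hy]; ring
  zero_mem' := ⟨0, 1, by simp, by simp⟩
  neg_mem' := by
    rintro x ⟨f, h, hh, hx⟩
    exact ⟨-f, h, hh, by rw [map_neg, ← hx]; ring⟩

theorem mem_Ov_iff (x : FF N) : x ∈ Ov ℓ N ↔
    ∃ f h : (↥(GaloisRep.ratLocalizedAt ℓ))[X], h.map (resℓ ℓ) ≠ 0 ∧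
      x * aeval (jFull N) h = aeval (jFull N) f := Iff.rfl

end OvDef

/-! ### INPUTS from the other chapters (shapes consumed by VAL) -/

section Inputs

variable (ℓ : ℕ) [Fact ℓ.Prime] (N : ℕ) [NeZero N]

/-- **(AN-deg)** `[FF_N : ℚ(j)] ≤ ψ(N)` in family form: any `ℚ(j)`-linearly independent family of
elements of `FF N` has at most `ψ(N)` members. -/
def DegLe : Prop :=
  ∀ (n : ℕ) (c : Fin n → LaurentSeries ℚ), (∀ i, c i ∈ modularFunctionFieldFull N) →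
    LinearIndependent ↥Qj c → n ≤ dedekindPsi N

/-- **(int)** every `x_d`, `d ∣ N`, is integral over `ℤ[j]` (derived in VAL from `P0`, block B2). -/
def XdIntegral : Prop :=
  ∀ (d : ℕ) (_ : NeZero d), d ∣ N →
    IsIntegral ↥(Algebra.adjoin ℤ ({jq} : Set (LaurentSeries ℚ))) (qExpand ℚ d jq)

/-- **(AN-W)** the Fricke involution `W_N : x_d ↦ x_{N/d}` of `FF N`. -/
def FrickeAut : Prop :=
  ∃ W : FF N ≃ₐ[ℚ] FF N, ∀ (d e : ℕ) (_ : NeZero d) (_ : NeZero e) (hde : d * e = N),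
    W (xd N d (Dvd.intro _ hde)) = xd N e (Dvd.intro_left _ hde)

end Inputs

/-! ### VAL deliverables -/

section Deliverables

variable (ℓ : ℕ) [Fact ℓ.Prime] (N : ℕ) [NeZero N]

/-- **(IRR_N)** `ψ(N) ≤ [L_N : k(j̃)]` in family form: there are `ψ(N)` elements of `L_N`, linearly
independent over `k(j̃)`. -/
def Irr : Prop :=
  ∃ c : Fin (dedekindPsi N) → LaurentSeries (ZMod ℓ), (∀ i, c i ∈ LC ℓ N) ∧
    LinearIndependent ↥(kj ℓ) c

/-- **The reduction package at level `N`** (blueprint §1 (a),(b), valuation-free):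
`C0 = O_v[x_d : d ∣ N]` with its reduction `red`; `red` is onto `L_N` with kernel `ℓ C0`; `C0` is
local (elements with nonzero reduction are units), integrally closed in `FF N`, integral over
`O_v`. -/
structure RedPackage : Type where
  C0 : Subalgebra ↥(GaloisRep.ratLocalizedAt ℓ) (FF N)
  red : ↥C0 →+* LaurentSeries (ZMod ℓ)
  red_algebraMap : ∀ c : ↥(GaloisRep.ratLocalizedAt ℓ),
    red (algebraMap ↥(GaloisRep.ratLocalizedAt ℓ) ↥C0 c) = HahnSeries.C (resℓ ℓ c)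
  xd_mem : ∀ (d : ℕ) (_ : NeZero d) (hd : d ∣ N), xd N d hd ∈ C0
  red_xd : ∀ (d : ℕ) (_ : NeZero d) (hd : d ∣ N),
    red ⟨xd N d hd, xd_mem d ‹_› hd⟩ = xdC (ZMod ℓ) d
  range_red : ∀ y : LaurentSeries (ZMod ℓ), y ∈ LC ℓ N ↔ ∃ γ : ↥C0, red γ = y
  ker_red : ∀ γ : ↥C0, red γ = 0 → ∃ δ : ↥C0, γ = (ℓ : ↥C0) * δ
  isUnit_of_red_ne_zero : ∀ γ : ↥C0, red γ ≠ 0 → IsUnit γ
  integrallyClosed : ∀ x : FF N, IsIntegral ↥C0 x → x ∈ C0
  Ov_le : Ov ℓ N ≤ C0.toSubring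
  integral_Ov : ∀ γ : ↥C0, IsIntegral ↥(Ov ℓ N) (γ : FF N)

/-- **(W̃)** the second embedding `ι′ : L_N → k((q))`, `x̃_d ↦ x̃_{N/d}`. -/
def FrickeRed : Prop :=
  ∃ ι' : ↥(LC ℓ N) →ₐ[ZMod ℓ] LaurentSeries (ZMod ℓ),
    ∀ (d e : ℕ) (_ : NeZero d) (_ : NeZero e) (hde : d * e = N),
      ι' ⟨xdC (ZMod ℓ) d, jqModCd_mem_full (ZMod ℓ) N (Dvd.intro _ hde)⟩ = xdC (ZMod ℓ) e

/-- **§3, case `p ∣ M`** (`N = pM`): from the second embedding `ι′` of `L_M`, the modular equation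
`P0 p` and the irreducibility criterion `CofactorIrred p`:
`Φ̃_p(X, x̃_M) = (X - x̃_{M/p}) Ψ̃`, `ι′(Ψ̃)` = cofactor of `Φ̃_p(X, j̃(q))` by `X - j̃(q^p)`, irreducible;
so `[L_M(x̃_N) : L_M] = p`. -/
def IrrStepDvd (p M : ℕ) [NeZero M] [NeZero p] : Prop :=
  haveI : NeZero (p * M) := ⟨Nat.mul_ne_zero (NeZero.ne p) (NeZero.ne M)⟩
  p.Prime → p ≠ ℓ → p ∣ M → PR.Interface20.P0 p → PR.Interface20.CofactorIrred p →
    Irr ℓ M → FrickeRed ℓ M → Irr ℓ (p * M)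

/-- **§3, case `p ∤ M`** (`N = pM`): `[L_M(x̃_N) : L_M] = p + 1` (root-free form of the blueprint:
(SPLIT) from the two relations of `P0 r`, `r ∣ M` prime, by counting roots; the cofactor of
`Φ̃_p(X, x̃_M)` by `X - x̃_N` is irreducible over `k̄((q))` by `CofactorIrred p` since `p ∤ M`). -/
def IrrStepNdvd (p M : ℕ) [NeZero M] [NeZero p] : Prop :=
  haveI : NeZero (p * M) := ⟨Nat.mul_ne_zero (NeZero.ne p) (NeZero.ne M)⟩
  p.Prime → p ≠ ℓ → ¬ p ∣ M → ¬ ℓ ∣ M →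
    (∀ r : ℕ, r.Prime → r ∣ M → ∀ _ : NeZero r, PR.Interface20.P0 r) →
    PR.Interface20.P0 p → PR.Interface20.CofactorIrred p → PR.Interface20.PrimeLevelDegree p →
    Irr ℓ M → Irr ℓ (p * M)

/-- **§1 (c)** for a chart `A_S = chartAlg N ℓ S` contained in `C0`: `A_S ∩ ℓ C0 = ℓ A_S`. -/
def ChartKer (P : RedPackage ℓ N) (S : Set (FF N)) : Prop :=
  ∃ hle : chartAlg N ℓ S ≤ P.C0, ∀ a : ↥(chartAlg N ℓ S), P.red ⟨a, hle a.2⟩ = 0 →
    ∃ b : ↥(chartAlg N ℓ S), a = (ℓ : ↥(chartAlg N ℓ S)) * b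

/-- **§1 (d): the deliverable to IG/SCH**: `A_S ⊗_{ℤℓ} K` is a domain for every field `K` of
characteristic `ℓ`. -/
def ChartDomain (S : Set (FF N)) : Prop :=
  ∀ (K : Type) [Field K] [CharP K ℓ] [Algebra ↥(GaloisRep.ratLocalizedAt ℓ) K],
    IsDomain (TensorProduct ↥(GaloisRep.ratLocalizedAt ℓ) ↥(chartAlg N ℓ S) K)

/-- **The final deliverable of IG/VAL** (= `Interface4.ChartDomain N ℓ`, helper4's top-level
interface) from the inputs of the other chapters. -/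
def ValMain : Prop :=
  ¬ ℓ ∣ N →
    (∀ M : ℕ, M ∣ N → ∀ _ : NeZero M, DegLe M) →
    (∀ M : ℕ, M ∣ N → ∀ _ : NeZero M, FrickeAut M) →
    (∀ r : ℕ, r.Prime → r ∣ N → ∀ _ : NeZero r,
      PR.Interface20.P0 r ∧ PR.Interface20.CofactorIrred r ∧ PR.Interface20.PrimeLevelDegree r) →
    Fermat.Agent.IG.Interface4.ChartDomain N ℓ

end Deliverables

end Fermat.Agent.IG.VAL.ValInterface8
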