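/-
Program G (S28, Igusa), chapter IG/VAL, helper8: the Prop-def `UB ℓ M` (the IRR-independent UPPER
bound `[L_M : k(j̃)] ≤ ψ(M)`, family form), shared by IG/VAL (which proves it) and IG/PR (which
consumes it in `irr_of_ub`).  Definition only.
-/
import Mathlib
import Fermat.Agent.IG.VAL.ValInterface8

set_option autoImplicit false

namespace Fermat.Agent.IG.VAL.UBDef8

open ModularCurve Fermat.Agent.IG.VAL.ValInterface8

/-- **(UB_M)**: every family of elements of `L_M = modularFunctionFieldFullC (ZMod ℓ) M` which is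
linearly independent over `k(j̃)` has at most `ψ(M)` members. -/
def UB (ℓ M : ℕ) [Fact ℓ.Prime] [NeZero M] : Prop :=
  ∀ (n : ℕ) (c : Fin n → LaurentSeries (ZMod ℓ)), (∀ i, c i ∈ LC ℓ M) →
    LinearIndependent ↥(kj ℓ) c → n ≤ dedekindPsi M

end Fermat.Agent.IG.VAL.UBDef8
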