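/-
Program G (S28, Igusa), chapter IG/VAL, helper18.

ABSTRACT LINEAR ALGEBRA behind the C0 package (blueprint §1 (a),(b), valuation-free form).

`Ω ⊇ K` fields, `G ⊂ Ω` a subring with a ring hom `ρ : G → Λ` (`Λ` a field) such that
* elements of `G` with nonzero residue are units of `G`  (`G` is local with maximal ideal `ker ρ`),
* `G ∩ K` is a valuation ring of `K`,
* `ρ (G ∩ K) ⊂ κ` for a subfield `κ` of `Λ`.
If `e₁,…,eₙ ∈ G ∩ E` have `κ`-linearly independent residues and every `K`-independent family in `E`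
has at most `n` members, then `(eᵢ)` is a `K`-basis of `E` and every `b ∈ G ∩ E` is a combination of
the `eᵢ` with coefficients in `G ∩ K`.  (So `G ∩ E` is a free `G ∩ K`-module with basis `e`.)
-/
import Mathlib

set_option autoImplicit false
set_option linter.unusedSectionVars false

noncomputable section

namespace Fermat.Agent.IG.VAL.BasisRep18

variable {K Ω Λ κ : Type*} [Field K] [Field Ω] [Algebra K Ω] [Field Λ] [Field κ] [Algebra κ Λ]
  (G : Subring Ω) (ρ : G →+* Λ)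

/-- The valuation subring `G ∩ K` of `K`. -/
def cutVS (hval : ∀ c : K, algebraMap K Ω c ∈ G ∨ (algebraMap K Ω c)⁻¹ ∈ G) :
    ValuationSubring K where
  carrier := {c | algebraMap K Ω c ∈ G}
  mul_mem' := fun {a b} ha hb => by
    show algebraMap K Ω (a * b) ∈ G
    rw [map_mul]; exact mul_mem ha hb
  one_mem' := by
    show algebraMap K Ω 1 ∈ G
    rw [map_one]; exact one_mem G
  add_mem' := fun {a b} ha hb => by
    show algebraMap K Ω (a + b) ∈ G
    rw [map_add]; exact add_mem ha hb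
  zero_mem' := by
    show algebraMap K Ω 0 ∈ G
    rw [map_zero]; exact zero_mem G
  neg_mem' := fun {a} ha => by
    show algebraMap K Ω (-a) ∈ G
    rw [map_neg]; exact neg_mem ha
  mem_or_inv_mem' := fun c => by
    rcases hval c with h | h
    · exact Or.inl h
    · right
      show algebraMap K Ω c⁻¹ ∈ G
      rw [map_inv₀]; exact h

theorem mem_cutVS_iff (hval : ∀ c : K, algebraMap K Ω c ∈ G ∨ (algebraMap K Ω c)⁻¹ ∈ G) (c : K) :
    c ∈ cutVS G hval ↔ algebraMap K Ω c ∈ G := Iff.rfl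

variable {G ρ}

/-- residue argument: a relation `t * x = ∑ gᵢ eᵢ` in `G` with `ρ t = 0` and `gᵢ ∈ G ∩ K` forces all
`ρ gᵢ = 0`. -/
theorem residues_eq_zero
    (hκ : ∀ (c : K) (hc : algebraMap K Ω c ∈ G), ρ ⟨_, hc⟩ ∈ (algebraMap κ Λ).range)
    {n : ℕ} {e : Fin n → G} (hind : LinearIndependent κ (fun i => ρ (e i)))
    (g : Fin n → K) (hg : ∀ i, algebraMap K Ω (g i) ∈ G) (t x : G) (ht : ρ t = 0)
    (h : (t : Ω) * x = ∑ i, g i • (e i : Ω)) : ∀ i, ρ ⟨_, hg i⟩ = 0 := by
  have hG : t * x = ∑ i, (⟨_, hg i⟩ : G) * e i := by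
    apply Subtype.ext
    rw [Subring.coe_mul, h, AddSubmonoidClass.coe_finsetSum]
    refine Finset.sum_congr rfl fun i _ => ?_
    rw [Algebra.smul_def]; rfl
  have h0 : ∑ i, ρ ⟨_, hg i⟩ * ρ (e i) = 0 := by
    have h' : ρ (t * x) = 0 := by rw [map_mul, ht, zero_mul]
    rw [hG, map_sum] at h'
    simpa only [map_mul] using h'
  choose a ha using fun i => hκ (g i) (hg i)
  have h1 : ∑ i, a i • ρ (e i) = 0 := by
    rw [← h0]
    refine Finset.sum_congr rfl fun i _ => ?_
    rw [Algebra.smul_def, ha]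
  have h2 := Fintype.linearIndependent_iff.mp hind a h1
  intro i
  rw [← ha i, h2 i, map_zero]

theorem exists_coeffs
    (hunit : ∀ g : G, ρ g ≠ 0 → ((g : Ω))⁻¹ ∈ G)
    (hval : ∀ c : K, algebraMap K Ω c ∈ G ∨ (algebraMap K Ω c)⁻¹ ∈ G)
    (hκ : ∀ (c : K) (hc : algebraMap K Ω c ∈ G), ρ ⟨_, hc⟩ ∈ (algebraMap κ Λ).range)
    (E : Set Ω) (n : ℕ)
    (hdeg : ∀ (m : ℕ) (c : Fin m → Ω), (∀ i, c i ∈ E) → LinearIndependent K c → m ≤ n)
    (e : Fin n → G) (heE : ∀ i, (e i : Ω) ∈ E)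
    (hind : LinearIndependent κ (fun i => ρ (e i)))
    (b : G) (hb : (b : Ω) ∈ E) :
    ∃ g : Fin n → K, (∀ i, algebraMap K Ω (g i) ∈ G) ∧ (b : Ω) = ∑ i, g i • (e i : Ω) := by
  classical
  set O := cutVS G hval with hO
  set v := O.valuation with hv
  have hvO : ∀ c : K, v c ≤ 1 ↔ algebraMap K Ω c ∈ G := fun c =>
    (ValuationSubring.valuation_le_one_iff O c).trans (mem_cutVS_iff G hval c)
  have hone : ρ (⟨algebraMap K Ω 1, (hvO 1).mp (by rw [map_one])⟩ : G) ≠ 0 := by
    have : (⟨algebraMap K Ω 1, (hvO 1).mp (by rw [map_one])⟩ : G) = 1 :=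
      Subtype.ext (map_one _)
    rw [this, map_one]; exact one_ne_zero
  -- scaling: given g with maximal valuation at i₀ (g i₀ ≠ 0), the family g i / g i₀ is in O
  have hscale : ∀ (g : Fin n → K) (i₀ : Fin n), g i₀ ≠ 0 → (∀ i, v (g i) ≤ v (g i₀)) →
      ∀ i, algebraMap K Ω ((g i₀)⁻¹ * g i) ∈ G := by
    intro g i₀ h0 hmax i
    rw [← hvO, map_mul, map_inv₀]
    have hpos : 0 < v (g i₀) := by
      rw [zero_lt_iff]; exact (Valuation.ne_zero_iff v).mpr h0
    calc (v (g i₀))⁻¹ * v (g i) ≤ (v (g i₀))⁻¹ * v (g i₀) := by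
          exact mul_le_mul_right (hmax i) _
      _ = 1 := inv_mul_cancel₀ hpos.ne'
  -- Claim 1: the `e i` are `K`-linearly independent
  have hli : LinearIndependent K (fun i => (e i : Ω)) := by
    rw [Fintype.linearIndependent_iff]
    intro g hg0
    by_contra hne
    push Not at hne
    obtain ⟨i₁, hi₁⟩ := hne
    obtain ⟨i₀, -, hmax⟩ := Finset.exists_max_image Finset.univ (fun i => v (g i)) ⟨i₁, Finset.mem_univ _⟩
    have hmax' : ∀ i, v (g i) ≤ v (g i₀) := fun i => hmax i (Finset.mem_univ _)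
    have hi₀ : g i₀ ≠ 0 := by
      intro h
      have := hmax' i₁
      rw [h, map_zero] at this
      exact (Valuation.ne_zero_iff v).mpr hi₁ (le_antisymm this zero_le)
    have hd := hscale g i₀ hi₀ hmax'
    have hrel : ((0 : G) : Ω) * (1 : G) = ∑ i, ((g i₀)⁻¹ * g i) • (e i : Ω) := by
      rw [Subring.coe_zero, zero_mul]
      have : ∑ i, ((g i₀)⁻¹ * g i) • (e i : Ω) = (g i₀)⁻¹ • ∑ i, g i • (e i : Ω) := by
        rw [Finset.smul_sum]
        exact Finset.sum_congr rfl fun i _ => mul_smul _ _ _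
      rw [this, hg0, smul_zero]
    have hres := residues_eq_zero hκ hind _ hd 0 1 (map_zero ρ) hrel i₀
    apply hone
    convert hres using 2
    apply Subtype.ext
    show algebraMap K Ω 1 = algebraMap K Ω ((g i₀)⁻¹ * g i₀)
    rw [inv_mul_cancel₀ hi₀]
  -- Claim 2: `b` is in the span
  have hspan : (b : Ω) ∈ Submodule.span K (Set.range fun i => (e i : Ω)) := by
    by_contra hnot
    have hcons : LinearIndependent K (Fin.cons (b : Ω) (fun i => (e i : Ω)) : Fin (n + 1) → Ω) :=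
      linearIndependent_finCons.mpr ⟨hli, hnot⟩
    have := hdeg (n + 1) _ (fun i => by
      refine Fin.cases ?_ (fun j => ?_) i
      · simpa using hb
      · simpa using heE j) hcons
    omega
  obtain ⟨g, hg⟩ := (Submodule.mem_span_range_iff_exists_fun K).mp hspan
  refine ⟨g, ?_, hg.symm⟩
  -- Claim 3: the coefficients are in `O`
  by_cases hn : n = 0
  · subst hn; intro i; exact i.elim0
  obtain ⟨i₀, -, hmax⟩ := Finset.exists_max_image Finset.univ (fun i => v (g i))
    ⟨⟨0, Nat.pos_of_ne_zero hn⟩, Finset.mem_univ _⟩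
  have hmax' : ∀ i, v (g i) ≤ v (g i₀) := fun i => hmax i (Finset.mem_univ _)
  by_cases hle : v (g i₀) ≤ 1
  · intro i; exact (hvO _).mp ((hmax' i).trans hle)
  exfalso
  push Not at hle
  have hi₀ : g i₀ ≠ 0 := by
    intro h; rw [h, map_zero] at hle; exact not_lt.mpr zero_le hle
  have hd := hscale g i₀ hi₀ hmax'
  have htO : algebraMap K Ω (g i₀)⁻¹ ∈ G := by
    rw [← hvO, map_inv₀]
    exact (inv_le_one₀ (lt_trans zero_lt_one hle)).mpr hle.le
  have htρ : ρ ⟨_, htO⟩ = 0 := by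
    by_contra hne
    have := hunit ⟨_, htO⟩ hne
    have h2 : algebraMap K Ω (g i₀) ∈ G := by
      simpa [map_inv₀] using this
    exact not_le.mpr hle ((hvO _).mpr h2)
  have hrel : ((⟨_, htO⟩ : G) : Ω) * b = ∑ i, ((g i₀)⁻¹ * g i) • (e i : Ω) := by
    have : ∑ i, ((g i₀)⁻¹ * g i) • (e i : Ω) = (g i₀)⁻¹ • ∑ i, g i • (e i : Ω) := by
      rw [Finset.smul_sum]
      exact Finset.sum_congr rfl fun i _ => mul_smul _ _ _
    rw [this, hg, Algebra.smul_def]
  have hres := residues_eq_zero hκ hind _ hd ⟨_, htO⟩ b htρ hrel i₀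
  apply hone
  convert hres using 2
  apply Subtype.ext
  show algebraMap K Ω 1 = algebraMap K Ω ((g i₀)⁻¹ * g i₀)
  rw [inv_mul_cancel₀ hi₀]

end Fermat.Agent.IG.VAL.BasisRep18
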