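/-
Program G (S28, Igusa), chapter IG/VAL, helper18.

`Zl := GaloisRep.ratLocalizedAt ℓ` (the ℓ-integral rationals), its reduction `Zl →+* ZMod ℓ`,
and the two coefficient maps on Laurent series
  `embQ : LaurentSeries Zl →+* LaurentSeries ℚ`   (injective)
  `redL : LaurentSeries Zl →+* LaurentSeries (ZMod ℓ)`  (kernel = multiples of ℓ)
together with the compatibility with the `x_d = j(q^d)` of the prelude and the extraction of
the ℓ-content of a nonzero Laurent series over `Zl`.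
-/
import Fermat.Prelude.Def_ModularCurve_IgusaScheme
import Fermat.Prelude.Def_ModularCurve_X0ModL

set_option autoImplicit false
set_option linter.unusedSectionVars false

noncomputable section

open HahnSeries ModularCurve

namespace Fermat.Agent.IG.VAL.ZlRed18

variable (ℓ : ℕ) [hℓ : Fact ℓ.Prime]

/-- The ℓ-integral rationals. -/
abbrev Zl : Type := ↥(GaloisRep.ratLocalizedAt ℓ)

theorem mem_Zl_iff (q : ℚ) : q ∈ GaloisRep.ratLocalizedAt ℓ ↔ q.den.Coprime ℓ := Iff.rfl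

theorem den_ne_zero_zmod {q : ℚ} (hq : q ∈ GaloisRep.ratLocalizedAt ℓ) : (q.den : ZMod ℓ) ≠ 0 := by
  intro h
  rw [ZMod.natCast_eq_zero_iff] at h
  have hc : q.den.Coprime ℓ := hq
  have := Nat.Coprime.eq_one_of_dvd hc.symm h
  exact hℓ.out.one_lt.ne' this

/-- Reduction mod ℓ of an ℓ-integral rational. -/
def redZl : Zl ℓ →+* ZMod ℓ where
  toFun q := ((q : ℚ) : ZMod ℓ)
  map_one' := by simp
  map_zero' := by simp
  map_mul' a b := by
    show (((a * b : Zl ℓ) : ℚ) : ZMod ℓ) = _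
    rw [Subring.coe_mul]
    exact Rat.cast_mul_of_ne_zero (den_ne_zero_zmod ℓ a.2) (den_ne_zero_zmod ℓ b.2)
  map_add' a b := by
    show (((a + b : Zl ℓ) : ℚ) : ZMod ℓ) = _
    rw [Subring.coe_add]
    exact Rat.cast_add_of_ne_zero (den_ne_zero_zmod ℓ a.2) (den_ne_zero_zmod ℓ b.2)

theorem redZl_apply (q : Zl ℓ) : redZl ℓ q = ((q : ℚ) : ZMod ℓ) := rfl

theorem redZl_surjective : Function.Surjective (redZl ℓ) := by
  intro x
  obtain ⟨n, rfl⟩ := ZMod.natCast_zmod_surjective x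
  exact ⟨(n : Zl ℓ), map_natCast (redZl ℓ) n⟩

/-- The prime `ℓ` as an element of `Zl`. -/
def ellZ : Zl ℓ := (ℓ : Zl ℓ)

theorem coe_ellZ : ((ellZ ℓ : Zl ℓ) : ℚ) = (ℓ : ℚ) := by
  simp [ellZ]

theorem redZl_ellZ : redZl ℓ (ellZ ℓ) = 0 := by
  rw [ellZ, map_natCast]; exact ZMod.natCast_self ℓ

theorem ellZ_ne_zero : ellZ ℓ ≠ 0 := by
  intro h
  have := congrArg (Subtype.val) h
  rw [coe_ellZ] at this
  exact (Nat.cast_ne_zero.mpr hℓ.out.ne_zero) this

/-- The kernel of `redZl` consists of the multiples of `ℓ`. -/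
theorem redZl_eq_zero_iff (q : Zl ℓ) : redZl ℓ q = 0 ↔ ∃ q' : Zl ℓ, q = ellZ ℓ * q' := by
  constructor
  · intro h
    rw [redZl_apply, Rat.cast_def, div_eq_zero_iff] at h
    have hnum : ((q : ℚ).num : ZMod ℓ) = 0 := h.resolve_right (den_ne_zero_zmod ℓ q.2)
    rw [ZMod.intCast_zmod_eq_zero_iff_dvd] at hnum
    obtain ⟨m, hm⟩ := hnum
    have hmem : (Rat.divInt m ((q : ℚ).den : ℤ)) ∈ GaloisRep.ratLocalizedAt ℓ := by
      show (Rat.divInt m ((q : ℚ).den : ℤ)).den.Coprime ℓ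
      have hd : ((Rat.divInt m ((q : ℚ).den : ℤ)).den : ℤ) ∣ ((q : ℚ).den : ℤ) := Rat.den_dvd _ _
      have hd' : (Rat.divInt m ((q : ℚ).den : ℤ)).den ∣ (q : ℚ).den := by exact_mod_cast hd
      exact Nat.Coprime.coprime_dvd_left hd' q.2
    refine ⟨⟨_, hmem⟩, Subtype.ext ?_⟩
    rw [Subring.coe_mul, coe_ellZ]
    have hden : ((q : ℚ).den : ℚ) ≠ 0 := by exact_mod_cast (q : ℚ).den_pos.ne'
    show (q : ℚ) = (ℓ : ℚ) * Rat.divInt m ((q : ℚ).den : ℤ)
    rw [Rat.divInt_eq_div]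
    conv_lhs => rw [← Rat.num_div_den (q : ℚ), hm]
    push_cast
    field_simp
  · rintro ⟨q', rfl⟩
    rw [map_mul, redZl_ellZ, zero_mul]

/-! ### ℓ-adic valuation on `Zl` as a termination measure -/

theorem padicValRat_nonneg (q : Zl ℓ) : 0 ≤ padicValRat ℓ (q : ℚ) := by
  rw [padicValRat]
  have hc : (q : ℚ).den.Coprime ℓ := q.2
  have : padicValNat ℓ (q : ℚ).den = 0 := by
    apply padicValNat.eq_zero_of_not_dvd
    intro hd
    have := Nat.Coprime.eq_one_of_dvd hc.symm hd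
    exact hℓ.out.one_lt.ne' this
  rw [this]
  simp

/-- measure: the ℓ-adic valuation of an element of `Zl`, as a natural number. -/
def valZ (q : Zl ℓ) : ℕ := (padicValRat ℓ (q : ℚ)).toNat

theorem valZ_mul_ellZ {q' : Zl ℓ} (hq' : q' ≠ 0) : valZ ℓ (ellZ ℓ * q') = valZ ℓ q' + 1 := by
  have h0 : (q' : ℚ) ≠ 0 := fun h => hq' (Subtype.ext h)
  have hl0 : (ℓ : ℚ) ≠ 0 := Nat.cast_ne_zero.mpr hℓ.out.ne_zero
  rw [valZ, valZ, Subring.coe_mul, coe_ellZ, padicValRat.mul hl0 h0, padicValRat.self hℓ.out.one_lt]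
  have := padicValRat_nonneg ℓ q'
  omega

/-! ### The coefficient maps -/

/-- `Zl((q)) → ℚ((q))`. -/
def embQ : LaurentSeries (Zl ℓ) →+* LaurentSeries ℚ :=
  coeffMap (GaloisRep.ratLocalizedAt ℓ).subtype

/-- `Zl((q)) → 𝔽_ℓ((q))`, coefficientwise reduction. -/
def redL : LaurentSeries (Zl ℓ) →+* LaurentSeries (ZMod ℓ) :=
  coeffMap (redZl ℓ)

@[simp] theorem embQ_coeff (a : LaurentSeries (Zl ℓ)) (k : ℤ) :
    (embQ ℓ a).coeff k = ((a.coeff k : Zl ℓ) : ℚ) := rfl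

@[simp] theorem redL_coeff (a : LaurentSeries (Zl ℓ)) (k : ℤ) :
    (redL ℓ a).coeff k = redZl ℓ (a.coeff k) := rfl

theorem embQ_injective : Function.Injective (embQ ℓ) := by
  intro a b h
  ext k
  have := congrArg (fun x => HahnSeries.coeff x k) h
  simpa using this

theorem embQ_eq_zero_iff (a : LaurentSeries (Zl ℓ)) : embQ ℓ a = 0 ↔ a = 0 := by
  rw [← map_zero (embQ ℓ)]; exact (embQ_injective ℓ).eq_iff

/-- `ℓ` as a Laurent series over `Zl`. -/
def ellL : LaurentSeries (Zl ℓ) := HahnSeries.C (ellZ ℓ)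

theorem ellL_mul_coeff (a : LaurentSeries (Zl ℓ)) (k : ℤ) :
    (ellL ℓ * a).coeff k = ellZ ℓ * a.coeff k := by
  rw [ellL, HahnSeries.C_mul_eq_smul, HahnSeries.coeff_smul, smul_eq_mul]

theorem coeffMap_C {R S : Type*} [CommRing R] [CommRing S] (f : R →+* S) (r : R) :
    coeffMap f (HahnSeries.C r) = HahnSeries.C (f r) := by
  rw [HahnSeries.C_apply, HahnSeries.C_apply, coeffMap_single]

theorem embQ_C (r : Zl ℓ) : embQ ℓ (HahnSeries.C r) = HahnSeries.C (r : ℚ) := coeffMap_C _ r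

theorem redL_C (r : Zl ℓ) : redL ℓ (HahnSeries.C r) = HahnSeries.C (redZl ℓ r) := coeffMap_C _ r

theorem embQ_ellL : embQ ℓ (ellL ℓ) = HahnSeries.C (ℓ : ℚ) := by
  rw [ellL, embQ_C, coe_ellZ]

theorem embQ_ellL' : embQ ℓ (ellL ℓ) = (ℓ : LaurentSeries ℚ) := by
  rw [embQ_ellL, map_natCast]

theorem redL_ellL : redL ℓ (ellL ℓ) = 0 := by
  rw [ellL, redL_C, redZl_ellZ, map_zero]

theorem ellL_ne_zero : ellL ℓ ≠ 0 := by
  intro h
  have := congrArg (fun x => HahnSeries.coeff x 0) h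
  simp only [ellL, HahnSeries.C_apply, HahnSeries.coeff_single_same, HahnSeries.coeff_zero] at this
  exact ellZ_ne_zero ℓ this

/-- "division by ℓ" on `Zl` (zero on non-multiples). -/
def divEll (q : Zl ℓ) : Zl ℓ :=
  open Classical in if h : ∃ q' : Zl ℓ, q = ellZ ℓ * q' then h.choose else 0

theorem ellZ_mul_divEll {q : Zl ℓ} (h : redZl ℓ q = 0) : ellZ ℓ * divEll ℓ q = q := by
  have h' := (redZl_eq_zero_iff ℓ q).mp h
  rw [divEll, dif_pos h']
  exact h'.choose_spec.symm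

theorem divEll_zero : divEll ℓ 0 = 0 := by
  have h : redZl ℓ (0 : Zl ℓ) = 0 := map_zero _
  have := ellZ_mul_divEll ℓ h
  exact (mul_eq_zero.mp this).resolve_left (ellZ_ne_zero ℓ)

/-- The kernel of `redL` consists of the multiples of `ℓ`. -/
theorem redL_eq_zero_iff (a : LaurentSeries (Zl ℓ)) :
    redL ℓ a = 0 ↔ ∃ a' : LaurentSeries (Zl ℓ), a = ellL ℓ * a' := by
  constructor
  · intro h
    refine ⟨a.map (⟨divEll ℓ, divEll_zero ℓ⟩ : ZeroHom (Zl ℓ) (Zl ℓ)), ?_⟩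
    refine HahnSeries.ext (funext fun k => ?_)
    rw [ellL_mul_coeff, HahnSeries.map_coeff]
    have hk : redZl ℓ (a.coeff k) = 0 := by
      have := congrArg (fun x => HahnSeries.coeff x k) h
      simpa using this
    exact (ellZ_mul_divEll ℓ hk).symm
  · rintro ⟨a', rfl⟩
    rw [map_mul, redL_ellL, zero_mul]

/-- Extraction of the ℓ-content: a nonzero Laurent series over `Zl` is `ℓ^i` times a series with
nonzero reduction. -/
theorem exists_eq_pow_mul (a : LaurentSeries (Zl ℓ)) (ha : a ≠ 0) :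
    ∃ (i : ℕ) (a₀ : LaurentSeries (Zl ℓ)), a = ellL ℓ ^ i * a₀ ∧ redL ℓ a₀ ≠ 0 := by
  obtain ⟨k, hk⟩ : ∃ k, a.coeff k ≠ 0 := by
    by_contra hcon
    push Not at hcon
    exact ha (HahnSeries.ext (funext hcon))
  induction hn : valZ ℓ (a.coeff k) using Nat.strong_induction_on generalizing a with
  | _ n ih =>
    by_cases hr : redL ℓ a = 0
    · obtain ⟨a', rfl⟩ := (redL_eq_zero_iff ℓ a).mp hr
      rw [ellL_mul_coeff] at hk hn
      have hk' : a'.coeff k ≠ 0 := fun h => hk (by rw [h, mul_zero])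
      have ha' : a' ≠ 0 := fun h => hk' (by rw [h]; rfl)
      rw [valZ_mul_ellZ ℓ hk'] at hn
      obtain ⟨i, a₀, h1, h2⟩ := ih (valZ ℓ (a'.coeff k)) (by omega) a' ha' hk' rfl
      exact ⟨i + 1, a₀, by rw [h1, pow_succ]; ring, h2⟩
    · exact ⟨0, a, by rw [pow_zero, one_mul], hr⟩

/-! ### Compatibility with `x_d = j(q^d)` -/

theorem embQ_jqModC : embQ ℓ (jqModC (Zl ℓ)) = jqModC ℚ := coeffMap_jqModC _

theorem redL_jqModC : redL ℓ (jqModC (Zl ℓ)) = jqModC (ZMod ℓ) := coeffMap_jqModC _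

theorem embQ_qExpand (d : ℕ) [NeZero d] (a : LaurentSeries (Zl ℓ)) :
    embQ ℓ (qExpand (Zl ℓ) d a) = qExpand ℚ d (embQ ℓ a) := coeffMap_qExpand _ d a

theorem redL_qExpand (d : ℕ) [NeZero d] (a : LaurentSeries (Zl ℓ)) :
    redL ℓ (qExpand (Zl ℓ) d a) = qExpand (ZMod ℓ) d (redL ℓ a) := coeffMap_qExpand _ d a

/-- `x_d = j(q^d)` over `Zl`. -/
def xZ (d : ℕ) [NeZero d] : LaurentSeries (Zl ℓ) := qExpand (Zl ℓ) d (jqModC (Zl ℓ))

theorem embQ_xZ (d : ℕ) [NeZero d] : embQ ℓ (xZ ℓ d) = qExpand ℚ d (jqModC ℚ) := by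
  rw [xZ, embQ_qExpand, embQ_jqModC]

theorem redL_xZ (d : ℕ) [NeZero d] : redL ℓ (xZ ℓ d) = qExpand (ZMod ℓ) d (jqModC (ZMod ℓ)) := by
  rw [xZ, redL_qExpand, redL_jqModC]

end Fermat.Agent.IG.VAL.ZlRed18
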