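/-
Program G (S28, Igusa), chapter IG/VAL, helper18.

The "Gauss ring" `O_g ⊂ ℚ((q))`: all `f` with `f * s = a` for ℓ-integral Laurent series `a, s`
(`a, s ∈ Zl((q))`) such that `s` has nonzero reduction mod ℓ.  It is the localisation of
`Zl((q))` at the prime `(ℓ)`, realised inside `ℚ((q))`, together with its residue map
`gaussRed : O_g →+* 𝔽_ℓ((q))` (NOT coefficientwise: elements of `O_g` may have unbounded
ℓ-denominators).  No valuation is used.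
-/
import Fermat.Agent.IG.VAL.ZlRed18

set_option autoImplicit false
set_option linter.unusedSectionVars false

noncomputable section

open HahnSeries ModularCurve

namespace Fermat.Agent.IG.VAL.GaussRing18

open Fermat.Agent.IG.VAL.ZlRed18

variable (ℓ : ℕ) [hℓ : Fact ℓ.Prime]

/-- `f * s = a` with `a, s` ℓ-integral and `s` of nonzero reduction. -/
def IsRep (f : LaurentSeries ℚ) (a s : LaurentSeries (Zl ℓ)) : Prop :=
  redL ℓ s ≠ 0 ∧ f * embQ ℓ s = embQ ℓ a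

variable {ℓ}

theorem IsRep.s_ne_zero {f : LaurentSeries ℚ} {a s : LaurentSeries (Zl ℓ)} (h : IsRep ℓ f a s) :
    s ≠ 0 := fun h0 => h.1 (by rw [h0, map_zero])

theorem IsRep.embQ_s_ne_zero {f : LaurentSeries ℚ} {a s : LaurentSeries (Zl ℓ)}
    (h : IsRep ℓ f a s) : embQ ℓ s ≠ 0 := fun h0 => h.s_ne_zero ((embQ_eq_zero_iff ℓ s).mp h0)

theorem IsRep.eq_div {f : LaurentSeries ℚ} {a s : LaurentSeries (Zl ℓ)} (h : IsRep ℓ f a s) :
    f = embQ ℓ a / embQ ℓ s := by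
  rw [eq_div_iff h.embQ_s_ne_zero]; exact h.2

theorem IsRep.add {f g : LaurentSeries ℚ} {a s b t : LaurentSeries (Zl ℓ)}
    (h : IsRep ℓ f a s) (h' : IsRep ℓ g b t) : IsRep ℓ (f + g) (a * t + b * s) (s * t) := by
  refine ⟨by rw [map_mul]; exact mul_ne_zero h.1 h'.1, ?_⟩
  rw [map_mul, map_add, map_mul, map_mul, ← h.2, ← h'.2]; ring

theorem IsRep.mul {f g : LaurentSeries ℚ} {a s b t : LaurentSeries (Zl ℓ)}
    (h : IsRep ℓ f a s) (h' : IsRep ℓ g b t) : IsRep ℓ (f * g) (a * b) (s * t) := by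
  refine ⟨by rw [map_mul]; exact mul_ne_zero h.1 h'.1, ?_⟩
  rw [map_mul, map_mul, ← h.2, ← h'.2]; ring

theorem IsRep.neg {f : LaurentSeries ℚ} {a s : LaurentSeries (Zl ℓ)}
    (h : IsRep ℓ f a s) : IsRep ℓ (-f) (-a) s :=
  ⟨h.1, by rw [map_neg, ← h.2]; ring⟩

theorem isRep_embQ (a : LaurentSeries (Zl ℓ)) : IsRep ℓ (embQ ℓ a) a 1 :=
  ⟨by rw [map_one]; exact one_ne_zero, by rw [map_one, mul_one]⟩

/-- two representations of the same element have the same reduction quotient. -/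
theorem IsRep.red_div_eq {f : LaurentSeries ℚ} {a s b t : LaurentSeries (Zl ℓ)}
    (h : IsRep ℓ f a s) (h' : IsRep ℓ f b t) : redL ℓ a / redL ℓ s = redL ℓ b / redL ℓ t := by
  rw [div_eq_div_iff h.1 h'.1]
  have : embQ ℓ (a * t) = embQ ℓ (b * s) := by
    rw [map_mul, map_mul, ← h.2, ← h'.2]; ring
  have := embQ_injective ℓ this
  rw [← map_mul, ← map_mul, this]

variable (ℓ)

/-- The Gauss ring `O_g` as a subring of `ℚ((q))`. -/
def gaussRing : Subring (LaurentSeries ℚ) where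
  carrier := {f | ∃ a s, IsRep ℓ f a s}
  mul_mem' := by
    rintro f g ⟨a, s, h⟩ ⟨b, t, h'⟩
    exact ⟨_, _, h.mul h'⟩
  one_mem' := ⟨1, 1, by simpa using isRep_embQ (ℓ := ℓ) 1⟩
  add_mem' := by
    rintro f g ⟨a, s, h⟩ ⟨b, t, h'⟩
    exact ⟨_, _, h.add h'⟩
  zero_mem' := ⟨0, 1, by simpa using isRep_embQ (ℓ := ℓ) 0⟩
  neg_mem' := by
    rintro f ⟨a, s, h⟩
    exact ⟨_, _, h.neg⟩

theorem mem_gaussRing_iff (f : LaurentSeries ℚ) : f ∈ gaussRing ℓ ↔ ∃ a s, IsRep ℓ f a s := Iff.rfl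

theorem embQ_mem (a : LaurentSeries (Zl ℓ)) : embQ ℓ a ∈ gaussRing ℓ := ⟨a, 1, isRep_embQ a⟩

/-- underlying function of the residue map. -/
def gaussRedFun (f : gaussRing ℓ) : LaurentSeries (ZMod ℓ) :=
  redL ℓ f.2.choose / redL ℓ f.2.choose_spec.choose

theorem gaussRedFun_eq {f : gaussRing ℓ} {a s : LaurentSeries (Zl ℓ)} (h : IsRep ℓ (f : LaurentSeries ℚ) a s) :
    gaussRedFun ℓ f = redL ℓ a / redL ℓ s :=
  IsRep.red_div_eq f.2.choose_spec.choose_spec h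

/-- The residue map of the Gauss ring. -/
def gaussRed : gaussRing ℓ →+* LaurentSeries (ZMod ℓ) where
  toFun := gaussRedFun ℓ
  map_one' := by
    have h : IsRep ℓ ((1 : gaussRing ℓ) : LaurentSeries ℚ) 1 1 := by
      simpa using isRep_embQ (ℓ := ℓ) 1
    rw [gaussRedFun_eq ℓ h, map_one, div_one]
  map_zero' := by
    have h : IsRep ℓ ((0 : gaussRing ℓ) : LaurentSeries ℚ) 0 1 := by
      simpa using isRep_embQ (ℓ := ℓ) 0
    rw [gaussRedFun_eq ℓ h, map_zero, zero_div]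
  map_mul' f g := by
    obtain ⟨a, s, h⟩ := f.2
    obtain ⟨b, t, h'⟩ := g.2
    have hm : IsRep ℓ ((f * g : gaussRing ℓ) : LaurentSeries ℚ) (a * b) (s * t) := h.mul h'
    rw [gaussRedFun_eq ℓ hm, gaussRedFun_eq ℓ h, gaussRedFun_eq ℓ h', map_mul, map_mul,
      mul_div_mul_comm]
  map_add' f g := by
    obtain ⟨a, s, h⟩ := f.2
    obtain ⟨b, t, h'⟩ := g.2
    have hm : IsRep ℓ ((f + g : gaussRing ℓ) : LaurentSeries ℚ) (a * t + b * s) (s * t) := h.add h'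
    rw [gaussRedFun_eq ℓ hm, gaussRedFun_eq ℓ h, gaussRedFun_eq ℓ h', map_mul, map_add, map_mul,
      map_mul, div_add_div _ _ h.1 h'.1, mul_comm (redL ℓ b) (redL ℓ s)]

theorem gaussRed_eq {f : gaussRing ℓ} {a s : LaurentSeries (Zl ℓ)}
    (h : IsRep ℓ (f : LaurentSeries ℚ) a s) : gaussRed ℓ f = redL ℓ a / redL ℓ s :=
  gaussRedFun_eq ℓ h

theorem gaussRed_embQ (a : LaurentSeries (Zl ℓ)) : gaussRed ℓ ⟨embQ ℓ a, embQ_mem ℓ a⟩ = redL ℓ a := by
  rw [gaussRed_eq ℓ (f := ⟨embQ ℓ a, embQ_mem ℓ a⟩) (isRep_embQ a), map_one, div_one]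

theorem natCast_mem (n : ℕ) : (n : LaurentSeries ℚ) ∈ gaussRing ℓ := _root_.natCast_mem (gaussRing ℓ) n

/-- `ℓ` as an element of the Gauss ring. -/
def ellG : gaussRing ℓ := ⟨(ℓ : LaurentSeries ℚ), natCast_mem ℓ ℓ⟩

theorem gaussRed_ellG : gaussRed ℓ (ellG ℓ) = 0 := by
  have h : IsRep ℓ ((ellG ℓ : gaussRing ℓ) : LaurentSeries ℚ) (ellL ℓ) 1 := by
    have := isRep_embQ (ℓ := ℓ) (ellL ℓ)
    rwa [embQ_ellL'] at this
  rw [gaussRed_eq ℓ h, redL_ellL, zero_div]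

/-- The kernel of the residue map is generated by `ℓ`. -/
theorem gaussRed_eq_zero_iff (f : gaussRing ℓ) :
    gaussRed ℓ f = 0 ↔ ∃ g : gaussRing ℓ, f = ellG ℓ * g := by
  constructor
  · intro h0
    obtain ⟨a, s, h⟩ := f.2
    rw [gaussRed_eq ℓ h, div_eq_zero_iff] at h0
    have ha : redL ℓ a = 0 := h0.resolve_right h.1
    obtain ⟨a', rfl⟩ := (redL_eq_zero_iff ℓ a).mp ha
    have hg : IsRep ℓ (embQ ℓ a' / embQ ℓ s) a' s :=
      ⟨h.1, div_mul_cancel₀ _ h.embQ_s_ne_zero⟩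
    refine ⟨⟨_, a', s, hg⟩, Subtype.ext ?_⟩
    show (f : LaurentSeries ℚ) = (ℓ : LaurentSeries ℚ) * (embQ ℓ a' / embQ ℓ s)
    rw [h.eq_div, map_mul, embQ_ellL', mul_div_assoc]
  · rintro ⟨g, rfl⟩
    rw [map_mul, gaussRed_ellG, zero_mul]

/-- Elements with nonzero residue are units of the Gauss ring. -/
theorem inv_mem_of_gaussRed_ne_zero (f : gaussRing ℓ) (hf : gaussRed ℓ f ≠ 0) :
    (f : LaurentSeries ℚ)⁻¹ ∈ gaussRing ℓ := by
  obtain ⟨a, s, h⟩ := f.2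
  rw [gaussRed_eq ℓ h] at hf
  have ha : redL ℓ a ≠ 0 := fun h0 => hf (by rw [h0, zero_div])
  have ha0 : embQ ℓ a ≠ 0 := fun h0 => ha (by rw [(embQ_eq_zero_iff ℓ a).mp h0, map_zero])
  refine ⟨s, a, ha, ?_⟩
  rw [h.eq_div, inv_div, div_mul_cancel₀ _ ha0]

theorem gaussRed_inv (f : gaussRing ℓ) (hf : gaussRed ℓ f ≠ 0) :
    gaussRed ℓ ⟨_, inv_mem_of_gaussRed_ne_zero ℓ f hf⟩ = (gaussRed ℓ f)⁻¹ := by
  apply eq_inv_of_mul_eq_one_left
  rw [← map_mul]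
  have : (⟨_, inv_mem_of_gaussRed_ne_zero ℓ f hf⟩ : gaussRing ℓ) * f = 1 := by
    apply Subtype.ext
    show (f : LaurentSeries ℚ)⁻¹ * (f : LaurentSeries ℚ) = 1
    have hf0 : (f : LaurentSeries ℚ) ≠ 0 := by
      intro h0
      apply hf
      have : f = 0 := Subtype.ext h0
      rw [this, map_zero]
    exact inv_mul_cancel₀ hf0
  rw [this, map_one]

/-! ### The field of fractions of `Zl((q))` inside `ℚ((q))` and the valuation property -/

/-- `Frac (Zl((q)))` realised inside `ℚ((q))`, as an intermediate field of `ℚ((q)) / ℚ`. -/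
def fracField : IntermediateField ℚ (LaurentSeries ℚ) where
  carrier := {f | ∃ a b : LaurentSeries (Zl ℓ), b ≠ 0 ∧ f * embQ ℓ b = embQ ℓ a}
  mul_mem' := by
    rintro f g ⟨a, s, hs, h⟩ ⟨b, t, ht, h'⟩
    exact ⟨a * b, s * t, mul_ne_zero hs ht, by rw [map_mul, map_mul, ← h, ← h']; ring⟩
  one_mem' := ⟨1, 1, one_ne_zero, by simp⟩
  add_mem' := by
    rintro f g ⟨a, s, hs, h⟩ ⟨b, t, ht, h'⟩
    exact ⟨a * t + b * s, s * t, mul_ne_zero hs ht,
      by rw [map_mul, map_add, map_mul, map_mul, ← h, ← h']; ring⟩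
  zero_mem' := ⟨0, 1, one_ne_zero, by simp⟩
  algebraMap_mem' := by
    intro c
    refine ⟨(c.num : LaurentSeries (Zl ℓ)), (c.den : LaurentSeries (Zl ℓ)), ?_, ?_⟩
    · intro h0
      have := congrArg (embQ ℓ) h0
      rw [map_natCast, map_zero, ← map_natCast (algebraMap ℚ (LaurentSeries ℚ)),
        map_eq_zero_iff _ (algebraMap ℚ (LaurentSeries ℚ)).injective] at this
      exact (Nat.cast_ne_zero.mpr c.den_pos.ne') this
    · rw [map_natCast, map_intCast, ← map_natCast (algebraMap ℚ (LaurentSeries ℚ)),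
        ← map_intCast (algebraMap ℚ (LaurentSeries ℚ)), ← map_mul, Rat.mul_den_eq_num]
  inv_mem' := by
    rintro f ⟨a, s, hs, h⟩
    by_cases hf : f = 0
    · subst hf; exact ⟨0, 1, one_ne_zero, by simp⟩
    · have ha : a ≠ 0 := by
        rintro rfl
        rw [map_zero] at h
        have hs' : embQ ℓ s ≠ 0 := fun h0 => hs ((embQ_eq_zero_iff ℓ s).mp h0)
        exact hf ((mul_eq_zero.mp h).resolve_right hs')
      refine ⟨s, a, ha, ?_⟩
      have hs' : embQ ℓ s ≠ 0 := fun h0 => hs ((embQ_eq_zero_iff ℓ s).mp h0)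
      rw [← h, mul_comm f, mul_comm, mul_assoc, mul_inv_cancel₀ hf, mul_one]

theorem mem_fracField_iff (f : LaurentSeries ℚ) :
    f ∈ fracField ℓ ↔ ∃ a b : LaurentSeries (Zl ℓ), b ≠ 0 ∧ f * embQ ℓ b = embQ ℓ a := Iff.rfl

theorem embQ_mem_fracField (a : LaurentSeries (Zl ℓ)) : embQ ℓ a ∈ fracField ℓ :=
  ⟨a, 1, one_ne_zero, by simp⟩

theorem gaussRing_le_fracField : gaussRing ℓ ≤ (fracField ℓ).toSubring := by
  rintro f ⟨a, s, h⟩
  exact ⟨a, s, h.s_ne_zero, h.2⟩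

theorem xd_mem_fracField (d : ℕ) [NeZero d] : qExpand ℚ d (jqModC ℚ) ∈ fracField ℓ := by
  rw [← embQ_xZ ℓ d]; exact embQ_mem_fracField ℓ _

theorem xd_mem_gaussRing (d : ℕ) [NeZero d] : qExpand ℚ d (jqModC ℚ) ∈ gaussRing ℓ := by
  rw [← embQ_xZ ℓ d]; exact embQ_mem ℓ _

theorem gaussRed_xd (d : ℕ) [NeZero d] :
    gaussRed ℓ ⟨qExpand ℚ d (jqModC ℚ), xd_mem_gaussRing ℓ d⟩ = qExpand (ZMod ℓ) d (jqModC (ZMod ℓ)) := by
  have h : IsRep ℓ (qExpand ℚ d (jqModC ℚ)) (xZ ℓ d) 1 := by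
    have := isRep_embQ (ℓ := ℓ) (xZ ℓ d)
    rwa [embQ_xZ] at this
  rw [gaussRed_eq ℓ (f := ⟨qExpand ℚ d (jqModC ℚ), xd_mem_gaussRing ℓ d⟩) h, map_one, div_one,
    redL_xZ]

/-- The full modular function field of any level lies in `Frac Zl((q))`. -/
theorem full_le_fracField (N : ℕ) : modularFunctionFieldFull N ≤ fracField ℓ := by
  rw [modularFunctionFieldFull, IntermediateField.adjoin_le_iff]
  rintro x ⟨d, hd, -, rfl⟩
  exact xd_mem_fracField ℓ d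

/-- Valuation property: a nonzero element of `Frac Zl((q))` is `ℓ^(i-j)` times a unit of the
Gauss ring. -/
theorem exists_unit_rep {f : LaurentSeries ℚ} (hf : f ∈ fracField ℓ) (h0 : f ≠ 0) :
    ∃ (i j : ℕ) (u : gaussRing ℓ), gaussRed ℓ u ≠ 0 ∧
      f * (ℓ : LaurentSeries ℚ) ^ j = (ℓ : LaurentSeries ℚ) ^ i * (u : LaurentSeries ℚ) := by
  obtain ⟨a, b, hb, h⟩ := hf
  have hb' : embQ ℓ b ≠ 0 := fun hh => hb ((embQ_eq_zero_iff ℓ b).mp hh)
  have ha : a ≠ 0 := by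
    rintro rfl
    rw [map_zero] at h
    exact h0 ((mul_eq_zero.mp h).resolve_right hb')
  obtain ⟨i, a₀, rfl, ha₀⟩ := exists_eq_pow_mul ℓ a ha
  obtain ⟨j, b₀, rfl, hb₀⟩ := exists_eq_pow_mul ℓ b hb
  have hb₀' : embQ ℓ b₀ ≠ 0 := fun hh => hb₀ (by rw [(embQ_eq_zero_iff ℓ b₀).mp hh, map_zero])
  have hu : IsRep ℓ (embQ ℓ a₀ / embQ ℓ b₀) a₀ b₀ := ⟨hb₀, div_mul_cancel₀ _ hb₀'⟩
  refine ⟨i, j, ⟨_, a₀, b₀, hu⟩, ?_, ?_⟩
  · rw [gaussRed_eq ℓ (f := ⟨_, a₀, b₀, hu⟩) hu]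
    exact div_ne_zero ha₀ hb₀
  · show f * (ℓ : LaurentSeries ℚ) ^ j = (ℓ : LaurentSeries ℚ) ^ i * (embQ ℓ a₀ / embQ ℓ b₀)
    rw [map_mul, map_mul, map_pow, map_pow, embQ_ellL'] at h
    rw [mul_div_assoc', eq_div_iff hb₀', ← h]; ring

theorem ell_ne_zero : (ℓ : LaurentSeries ℚ) ≠ 0 := by
  rw [← map_natCast (algebraMap ℚ (LaurentSeries ℚ)), Ne,
    map_eq_zero_iff _ (algebraMap ℚ (LaurentSeries ℚ)).injective]
  exact Nat.cast_ne_zero.mpr hℓ.out.ne_zero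

/-- The Gauss ring is a valuation ring of `Frac Zl((q))`. -/
theorem mem_or_inv_mem {f : LaurentSeries ℚ} (hf : f ∈ fracField ℓ) :
    f ∈ gaussRing ℓ ∨ f⁻¹ ∈ gaussRing ℓ := by
  by_cases h0 : f = 0
  · left; rw [h0]; exact zero_mem _
  obtain ⟨i, j, u, hu, h⟩ := exists_unit_rep ℓ hf h0
  have hl := ell_ne_zero ℓ
  rcases le_total j i with hji | hij
  · left
    obtain ⟨k, rfl⟩ := Nat.exists_eq_add_of_le hji
    have : f = (ℓ : LaurentSeries ℚ) ^ k * (u : LaurentSeries ℚ) := by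
      have hj : (ℓ : LaurentSeries ℚ) ^ j ≠ 0 := pow_ne_zero _ hl
      apply mul_right_cancel₀ hj
      rw [h, _root_.pow_add]; ring
    rw [this]
    exact mul_mem (pow_mem (natCast_mem ℓ ℓ) k) u.2
  · right
    obtain ⟨k, rfl⟩ := Nat.exists_eq_add_of_le hij
    have hu0 : (u : LaurentSeries ℚ) ≠ 0 := by
      intro hh
      apply hu
      have : u = 0 := Subtype.ext hh
      rw [this, map_zero]
    have : f⁻¹ = (ℓ : LaurentSeries ℚ) ^ k * (u : LaurentSeries ℚ)⁻¹ := by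
      have hi : (ℓ : LaurentSeries ℚ) ^ i ≠ 0 := pow_ne_zero _ hl
      have hk : (ℓ : LaurentSeries ℚ) ^ k ≠ 0 := pow_ne_zero _ hl
      rw [_root_.pow_add] at h
      have hf' : f * (ℓ : LaurentSeries ℚ) ^ k = (u : LaurentSeries ℚ) := by
        apply mul_left_cancel₀ hi
        rw [← h]; ring
      rw [← hf', mul_inv, mul_comm f⁻¹, ← mul_assoc, mul_inv_cancel₀ hk, one_mul]
    rw [this]
    exact mul_mem (pow_mem (natCast_mem ℓ ℓ) k) (inv_mem_of_gaussRed_ne_zero ℓ u hu)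

/-- The Gauss valuation ring of an intermediate field `E ⊂ Frac Zl((q))`. -/
def gaussVS (E : IntermediateField ℚ (LaurentSeries ℚ)) (hE : E ≤ fracField ℓ) :
    ValuationSubring E where
  carrier := {f | (f : LaurentSeries ℚ) ∈ gaussRing ℓ}
  mul_mem' := fun {a b} ha hb => by
    show ((a * b : E) : LaurentSeries ℚ) ∈ gaussRing ℓ
    exact mul_mem ha hb
  one_mem' := one_mem (gaussRing ℓ)
  add_mem' := fun {a b} ha hb => by
    show ((a + b : E) : LaurentSeries ℚ) ∈ gaussRing ℓ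
    exact add_mem ha hb
  zero_mem' := zero_mem (gaussRing ℓ)
  neg_mem' := fun {a} ha => by
    show ((-a : E) : LaurentSeries ℚ) ∈ gaussRing ℓ
    exact neg_mem ha
  mem_or_inv_mem' := fun f => mem_or_inv_mem ℓ (hE f.2)

theorem mem_gaussVS_iff (E : IntermediateField ℚ (LaurentSeries ℚ)) (hE : E ≤ fracField ℓ)
    (f : E) : f ∈ gaussVS ℓ E hE ↔ (f : LaurentSeries ℚ) ∈ gaussRing ℓ := by
  show f ∈ (gaussVS ℓ E hE).carrier ↔ _
  rfl

/-- The residue map on the Gauss valuation ring of `E`. -/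
def gaussVSRed (E : IntermediateField ℚ (LaurentSeries ℚ)) (hE : E ≤ fracField ℓ) :
    gaussVS ℓ E hE →+* LaurentSeries (ZMod ℓ) :=
  (gaussRed ℓ).comp
    { toFun := fun f => ⟨((f : E) : LaurentSeries ℚ), (mem_gaussVS_iff ℓ E hE f).mp f.2⟩
      map_one' := rfl
      map_mul' := fun _ _ => rfl
      map_zero' := rfl
      map_add' := fun _ _ => rfl }

theorem gaussVSRed_apply (E : IntermediateField ℚ (LaurentSeries ℚ)) (hE : E ≤ fracField ℓ)
    (f : gaussVS ℓ E hE) :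
    gaussVSRed ℓ E hE f =
      gaussRed ℓ ⟨((f : E) : LaurentSeries ℚ), (mem_gaussVS_iff ℓ E hE f).mp f.2⟩ := rfl

end Fermat.Agent.IG.VAL.GaussRing18
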