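/-
Program G (S28, Igusa), chapter IG/VAL, helper18: the C0 package, part I (IRR-free).

`C0 ℓ N ⊂ FF N` := the elements of `FF N` lying in the Gauss ring `GaussRing18.gaussRing ℓ`
(= `O_v[x_d : d ∣ N]` once (IRR_N) is known), `red ℓ N : C0 ℓ N →+* 𝔽_ℓ((q))` its residue map.
IRR-free facts: `red_algebraMap`, `xd_mem`, `red_xd`, `ker_red`, `isUnit_of_red_ne_zero`,
`integrallyClosed`, `LC_le_range_red`, and the upper bound **(UB)** `[L_M : k(j̃)] ≤ ψ(M)`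
from `DegLe M` (family forms of `ValInterface8`).
-/
import Fermat.Agent.IG.VAL.GaussRing18
import Fermat.Agent.IG.VAL.BasisRep18
import Fermat.Agent.IG.VAL.ValInterface8

set_option autoImplicit false
set_option linter.unusedSectionVars false

noncomputable section

open HahnSeries ModularCurve ModularCurve.IgusaScheme

namespace Fermat.Agent.IG.VAL.C0Package18

open Fermat.Agent.IG.VAL.ZlRed18 Fermat.Agent.IG.VAL.GaussRing18 Fermat.Agent.IG.VAL.ValInterface8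

variable (ℓ : ℕ) [hℓ : Fact ℓ.Prime] (N : ℕ) [NeZero N]

theorem coe_algebraMap_Zl (c : Zl ℓ) :
    ((algebraMap (Zl ℓ) (FF N) c : FF N) : LaurentSeries ℚ) = embQ ℓ (HahnSeries.C c) := by
  rw [embQ_C]
  have h1 : algebraMap (Zl ℓ) (FF N) c = algebraMap ℚ (FF N) (algebraMap (Zl ℓ) ℚ c) := rfl
  have h2 : algebraMap (Zl ℓ) ℚ c = (c : ℚ) := rfl
  rw [h1, h2, eq_ratCast, SubfieldClass.coe_ratCast, ← eq_ratCast (algebraMap ℚ (LaurentSeries ℚ)),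
    algebraMap_laurentSeries_eq_single, HahnSeries.C_apply]

/-- `C0 = FF N ∩ (Gauss ring)`. -/
def C0 : Subalgebra (Zl ℓ) (FF N) where
  carrier := {x | (x : LaurentSeries ℚ) ∈ gaussRing ℓ}
  mul_mem' := fun {a b} ha hb => by
    show ((a * b : FF N) : LaurentSeries ℚ) ∈ gaussRing ℓ
    exact mul_mem ha hb
  one_mem' := one_mem (gaussRing ℓ)
  add_mem' := fun {a b} ha hb => by
    show ((a + b : FF N) : LaurentSeries ℚ) ∈ gaussRing ℓ
    exact add_mem ha hb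
  zero_mem' := zero_mem (gaussRing ℓ)
  algebraMap_mem' := fun c => by
    show ((algebraMap (Zl ℓ) (FF N) c : FF N) : LaurentSeries ℚ) ∈ gaussRing ℓ
    rw [coe_algebraMap_Zl]
    exact embQ_mem ℓ _

theorem mem_C0_iff (x : FF N) : x ∈ C0 ℓ N ↔ (x : LaurentSeries ℚ) ∈ gaussRing ℓ := Iff.rfl

/-- the inclusion `C0 → gaussRing`. -/
def toGauss : ↥(C0 ℓ N) →+* ↥(gaussRing ℓ) where
  toFun γ := ⟨((γ : FF N) : LaurentSeries ℚ), γ.2⟩
  map_one' := rfl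
  map_mul' _ _ := rfl
  map_zero' := rfl
  map_add' _ _ := rfl

/-- The residue map of `C0`. -/
def red : ↥(C0 ℓ N) →+* LaurentSeries (ZMod ℓ) := (gaussRed ℓ).comp (toGauss ℓ N)

theorem red_apply (γ : ↥(C0 ℓ N)) :
    red ℓ N γ = gaussRed ℓ ⟨((γ : FF N) : LaurentSeries ℚ), γ.2⟩ := rfl

theorem resℓ_eq_redZl : resℓ ℓ = redZl ℓ := rfl

theorem red_algebraMap (c : Zl ℓ) :
    red ℓ N (algebraMap (Zl ℓ) ↥(C0 ℓ N) c) = HahnSeries.C (resℓ ℓ c) := by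
  rw [red_apply]
  have h : (⟨(((algebraMap (Zl ℓ) ↥(C0 ℓ N) c : ↥(C0 ℓ N)) : FF N) : LaurentSeries ℚ),
      (algebraMap (Zl ℓ) ↥(C0 ℓ N) c).2⟩ : gaussRing ℓ) = ⟨embQ ℓ (HahnSeries.C c), embQ_mem ℓ _⟩ :=
    Subtype.ext (coe_algebraMap_Zl ℓ N c)
  rw [h, gaussRed_embQ, redL_C]
  rfl

theorem xd_mem (d : ℕ) [NeZero d] (hd : d ∣ N) : xd N d hd ∈ C0 ℓ N :=
  xd_mem_gaussRing ℓ d

theorem red_xd (d : ℕ) [NeZero d] (hd : d ∣ N) :
    red ℓ N ⟨xd N d hd, xd_mem ℓ N d hd⟩ = xdC (ZMod ℓ) d :=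
  gaussRed_xd ℓ d

theorem coe_natCast_FF (n : ℕ) : (((n : FF N) : FF N) : LaurentSeries ℚ) = (n : LaurentSeries ℚ) := by
  simp

theorem ker_red (γ : ↥(C0 ℓ N)) (h : red ℓ N γ = 0) : ∃ δ : ↥(C0 ℓ N), γ = (ℓ : ↥(C0 ℓ N)) * δ := by
  rw [red_apply] at h
  obtain ⟨g, hg⟩ := (gaussRed_eq_zero_iff ℓ _).mp h
  have hg' : ((γ : FF N) : LaurentSeries ℚ) = (ℓ : LaurentSeries ℚ) * (g : LaurentSeries ℚ) :=
    congrArg Subtype.val hg
  have hl : (ℓ : FF N) ≠ 0 := Nat.cast_ne_zero.mpr hℓ.out.ne_zero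
  have hmem : ((γ : FF N) / (ℓ : FF N)) ∈ C0 ℓ N := by
    show (((γ : FF N) / (ℓ : FF N) : FF N) : LaurentSeries ℚ) ∈ gaussRing ℓ
    have : (((γ : FF N) / (ℓ : FF N) : FF N) : LaurentSeries ℚ) = (g : LaurentSeries ℚ) := by
      rw [IntermediateField.coe_div, hg', coe_natCast_FF, mul_div_assoc, mul_comm,
        div_mul_cancel₀ _ (ell_ne_zero ℓ)]
    rw [this]; exact g.2
  refine ⟨⟨_, hmem⟩, Subtype.ext ?_⟩
  show (γ : FF N) = ((ℓ : ↥(C0 ℓ N)) : FF N) * ((γ : FF N) / (ℓ : FF N))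
  rw [show ((ℓ : ↥(C0 ℓ N)) : FF N) = (ℓ : FF N) by simp, mul_div_cancel₀ _ hl]

theorem inv_mem_of_red_ne_zero (γ : ↥(C0 ℓ N)) (h : red ℓ N γ ≠ 0) : ((γ : FF N))⁻¹ ∈ C0 ℓ N := by
  show ((((γ : FF N))⁻¹ : FF N) : LaurentSeries ℚ) ∈ gaussRing ℓ
  rw [IntermediateField.coe_inv]
  exact inv_mem_of_gaussRed_ne_zero ℓ ⟨_, γ.2⟩ h

theorem ne_zero_of_red_ne_zero (γ : ↥(C0 ℓ N)) (h : red ℓ N γ ≠ 0) : (γ : FF N) ≠ 0 := by
  intro h0
  apply h
  have : γ = 0 := Subtype.ext h0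
  rw [this, map_zero]

theorem isUnit_of_red_ne_zero (γ : ↥(C0 ℓ N)) (h : red ℓ N γ ≠ 0) : IsUnit γ := by
  have h0 := ne_zero_of_red_ne_zero ℓ N γ h
  refine ⟨⟨γ, ⟨_, inv_mem_of_red_ne_zero ℓ N γ h⟩, ?_, ?_⟩, rfl⟩
  · exact Subtype.ext (mul_inv_cancel₀ h0)
  · exact Subtype.ext (inv_mul_cancel₀ h0)

theorem red_inv (γ : ↥(C0 ℓ N)) (h : red ℓ N γ ≠ 0) :
    red ℓ N ⟨_, inv_mem_of_red_ne_zero ℓ N γ h⟩ = (red ℓ N γ)⁻¹ := by
  apply eq_inv_of_mul_eq_one_left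
  rw [← map_mul]
  have : (⟨_, inv_mem_of_red_ne_zero ℓ N γ h⟩ : ↥(C0 ℓ N)) * γ = 1 :=
    Subtype.ext (inv_mul_cancel₀ (ne_zero_of_red_ne_zero ℓ N γ h))
  rw [this, map_one]

/-- The Gauss valuation subring of `FF N` (same carrier as `C0`). -/
def VN : ValuationSubring (FF N) := gaussVS ℓ (modularFunctionFieldFull N) (full_le_fracField ℓ N)

theorem mem_VN_iff (x : FF N) : x ∈ VN ℓ N ↔ x ∈ C0 ℓ N := mem_gaussVS_iff ℓ _ _ x

/-- `C0` is integrally closed in `FF N`. -/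
theorem integrallyClosed (x : FF N) (hx : IsIntegral ↥(C0 ℓ N) x) : x ∈ C0 ℓ N := by
  let φ : ↥(C0 ℓ N) →+* ↥(VN ℓ N) :=
    { toFun := fun γ => ⟨(γ : FF N), (mem_VN_iff ℓ N _).mpr γ.2⟩
      map_one' := rfl
      map_mul' := fun _ _ => rfl
      map_zero' := rfl
      map_add' := fun _ _ => rfl }
  have hx' : IsIntegral ↥(VN ℓ N) x := by
    have := hx.map_of_comp_eq φ (RingHom.id (FF N)) (by ext; rfl)
    simpa using this
  obtain ⟨y, hy⟩ := IsIntegrallyClosed.isIntegral_iff.mp hx'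
  rw [← hy]
  exact (mem_VN_iff ℓ N _).mp y.2

/-! ### The range of `red` is a field containing `L_N` -/

/-- the range of `red`, as an intermediate field of `𝔽_ℓ((q)) / 𝔽_ℓ`. -/
def rangeField : IntermediateField (ZMod ℓ) (LaurentSeries (ZMod ℓ)) where
  carrier := Set.range (red ℓ N)
  mul_mem' := by
    rintro _ _ ⟨a, rfl⟩ ⟨b, rfl⟩
    exact ⟨a * b, (red ℓ N).map_mul a b⟩
  one_mem' := ⟨1, (red ℓ N).map_one⟩
  add_mem' := by
    rintro _ _ ⟨a, rfl⟩ ⟨b, rfl⟩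
    exact ⟨a + b, (red ℓ N).map_add a b⟩
  zero_mem' := ⟨0, (red ℓ N).map_zero⟩
  algebraMap_mem' := fun c => by
    obtain ⟨c', rfl⟩ := redZl_surjective ℓ c
    refine ⟨algebraMap (Zl ℓ) ↥(C0 ℓ N) c', ?_⟩
    rw [red_algebraMap, algebraMap_laurentSeries_eq_single, HahnSeries.C_apply]
    rfl
  inv_mem' := by
    rintro _ ⟨a, rfl⟩
    by_cases h : red ℓ N a = 0
    · rw [h, inv_zero]; exact ⟨0, (red ℓ N).map_zero⟩
    · exact ⟨_, red_inv ℓ N a h⟩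

theorem mem_rangeField_iff (y : LaurentSeries (ZMod ℓ)) :
    y ∈ rangeField ℓ N ↔ ∃ γ : ↥(C0 ℓ N), red ℓ N γ = y := Iff.rfl

/-- `L_N ⊂ red(C0)`. -/
theorem LC_le_rangeField : LC ℓ N ≤ rangeField ℓ N := by
  rw [LC, modularFunctionFieldFullC, IntermediateField.adjoin_le_iff]
  rintro x ⟨d, hd, hdN, rfl⟩
  exact ⟨⟨xd N d hdN, xd_mem ℓ N d hdN⟩, red_xd ℓ N d hdN⟩

theorem exists_red_eq {y : LaurentSeries (ZMod ℓ)} (hy : y ∈ LC ℓ N) :
    ∃ γ : ↥(C0 ℓ N), red ℓ N γ = y := LC_le_rangeField ℓ N hy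

/-! ### Residue-independent families are `K`-independent (abstract), and (UB) -/

section Abstract

variable {K Ω Λ κ : Type*} [Field K] [Field Ω] [Algebra K Ω] [Field Λ] [Field κ] [Algebra κ Λ]
  {G : Subring Ω} {ρ : G →+* Λ}

open BasisRep18 in
theorem linearIndependent_of_residues
    (hval : ∀ c : K, algebraMap K Ω c ∈ G ∨ (algebraMap K Ω c)⁻¹ ∈ G)
    (hκ : ∀ (c : K) (hc : algebraMap K Ω c ∈ G), ρ ⟨_, hc⟩ ∈ (algebraMap κ Λ).range)
    {n : ℕ} (e : Fin n → G) (hind : LinearIndependent κ (fun i => ρ (e i))) :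
    LinearIndependent K (fun i => (e i : Ω)) := by
  classical
  set O := cutVS G hval with hO
  set v := O.valuation with hv
  have hvO : ∀ c : K, v c ≤ 1 ↔ algebraMap K Ω c ∈ G := fun c =>
    (ValuationSubring.valuation_le_one_iff O c).trans (mem_cutVS_iff G hval c)
  have hone : ρ (⟨algebraMap K Ω 1, (hvO 1).mp (by rw [map_one])⟩ : G) ≠ 0 := by
    have : (⟨algebraMap K Ω 1, (hvO 1).mp (by rw [map_one])⟩ : G) = 1 :=
      Subtype.ext (map_one _)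
    rw [this, map_one]; exact one_ne_zero
  rw [Fintype.linearIndependent_iff]
  intro g hg0
  by_contra hne
  push Not at hne
  obtain ⟨i₁, hi₁⟩ := hne
  obtain ⟨i₀, -, hmax⟩ :=
    Finset.exists_max_image Finset.univ (fun i => v (g i)) ⟨i₁, Finset.mem_univ _⟩
  have hmax' : ∀ i, v (g i) ≤ v (g i₀) := fun i => hmax i (Finset.mem_univ _)
  have hi₀ : g i₀ ≠ 0 := by
    intro h
    have := hmax' i₁
    rw [h, map_zero] at this
    exact (Valuation.ne_zero_iff v).mpr hi₁ (le_antisymm this zero_le)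
  have hd : ∀ i, algebraMap K Ω ((g i₀)⁻¹ * g i) ∈ G := by
    intro i
    rw [← hvO, map_mul, map_inv₀]
    have hpos : 0 < v (g i₀) := by
      rw [zero_lt_iff]; exact (Valuation.ne_zero_iff v).mpr hi₀
    calc (v (g i₀))⁻¹ * v (g i) ≤ (v (g i₀))⁻¹ * v (g i₀) := by
          exact mul_le_mul_right (hmax' i) _
      _ = 1 := inv_mul_cancel₀ hpos.ne'
  have hrel : ((0 : G) : Ω) * (1 : G) = ∑ i, ((g i₀)⁻¹ * g i) • (e i : Ω) := by
    rw [Subring.coe_zero, zero_mul]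
    have : ∑ i, ((g i₀)⁻¹ * g i) • (e i : Ω) = (g i₀)⁻¹ • ∑ i, g i • (e i : Ω) := by
      rw [Finset.smul_sum]
      exact Finset.sum_congr rfl fun i _ => mul_smul _ _ _
    rw [this, hg0, smul_zero]
  have hres := residues_eq_zero hκ hind _ hd 0 1 (map_zero ρ) hrel i₀
  apply hone
  convert hres using 2
  apply Subtype.ext
  show algebraMap K Ω 1 = algebraMap K Ω ((g i₀)⁻¹ * g i₀)
  rw [inv_mul_cancel₀ hi₀]

end Abstract

/-- **(ResQj)** the residue field of the Gauss valuation on `ℚ(j)` is `k(j̃)`: residues of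
elements of `ℚ(j)` lying in the Gauss ring are in `k(j̃)`. (Leaf: ℓ-content of polynomials.) -/
def ResQj : Prop :=
  ∀ c ∈ Qj, ∀ hc : c ∈ gaussRing ℓ, gaussRed ℓ ⟨c, hc⟩ ∈ kj ℓ

theorem Qj_le_fracField : Qj ≤ fracField ℓ := by
  rw [Qj, IntermediateField.adjoin_le_iff]
  rintro x hx
  rw [Set.mem_singleton_iff] at hx
  subst hx
  have := xd_mem_fracField ℓ 1
  rwa [qExpand_one_apply, jqModC_rat] at this

theorem hval_Qj (c : ↥Qj) : algebraMap ↥Qj (LaurentSeries ℚ) c ∈ gaussRing ℓ ∨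
    (algebraMap ↥Qj (LaurentSeries ℚ) c)⁻¹ ∈ gaussRing ℓ :=
  mem_or_inv_mem ℓ (Qj_le_fracField ℓ c.2)

theorem hκ_of_resQj (hres : ResQj ℓ) (c : ↥Qj)
    (hc : algebraMap ↥Qj (LaurentSeries ℚ) c ∈ gaussRing ℓ) :
    gaussRed ℓ ⟨_, hc⟩ ∈ (algebraMap ↥(kj ℓ) (LaurentSeries (ZMod ℓ))).range :=
  ⟨⟨_, hres (c : LaurentSeries ℚ) c.2 hc⟩, rfl⟩

/-- **(UB)**: `[L_M : k(j̃)] ≤ ψ(M)` in family form (helper20's `UB ℓ M`), from `DegLe M`. -/
theorem ub (hres : ResQj ℓ) (M : ℕ) [NeZero M] (hdeg : DegLe M)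
    (n : ℕ) (c : Fin n → LaurentSeries (ZMod ℓ)) (hc : ∀ i, c i ∈ LC ℓ M)
    (hind : LinearIndependent ↥(kj ℓ) c) : n ≤ dedekindPsi M := by
  choose γ hγ using fun i => exists_red_eq ℓ M (hc i)
  let e : Fin n → ↥(gaussRing ℓ) := fun i => toGauss ℓ M (γ i)
  have he : (fun i => gaussRed ℓ (e i)) = c := funext fun i => hγ i
  have hind' : LinearIndependent ↥(kj ℓ) (fun i => gaussRed ℓ (e i)) := by rw [he]; exact hind
  have hli := linearIndependent_of_residues (K := ↥Qj) (hval_Qj ℓ) (hκ_of_resQj ℓ hres) e hind'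
  exact hdeg n (fun i => ((e i : gaussRing ℓ) : LaurentSeries ℚ)) (fun i => (γ i : FF M).2) hli

end Fermat.Agent.IG.VAL.C0Package18
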