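/-
Program G (S28, Igusa), chapter IG/VAL, helper8: the UPPER BOUND `UBDef8.UB ℓ M`, UNCONDITIONAL
(`[L_M : k(j̃)] ≤ ψ(M)` in family form, for every level `M` and every prime `ℓ`), i.e. the
hypothesis `hub` of IG/PR's `irr_of_ub`.

`C0Package18.ub` (helper18) + `OvBasics22.gaussRed_mem_kj` (helper22, (OV1)) +
`DegLeVal23.degLe` (helper23, (DEG)).
-/
import Mathlib
import Fermat.Agent.IG.VAL.UBDef8
import Fermat.Agent.IG.VAL.C0Package18
import Fermat.Agent.IG.VAL.OvBasics22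
import Fermat.Agent.IG.AN.DegLeVal23

set_option autoImplicit false

namespace Fermat.Agent.IG.VAL.UBFinal8

open Fermat.Agent.IG.VAL Fermat.Agent.IG.AN

variable (ℓ : ℕ) [Fact ℓ.Prime]

/-- (OV1) in helper18's shape. -/
theorem resQj : C0Package18.ResQj ℓ := fun _ hc hg => OvBasics22.gaussRed_mem_kj ℓ hc hg

/-- **(UB_M)**, unconditional. -/
theorem ub (M : ℕ) [NeZero M] : UBDef8.UB ℓ M :=
  fun n c hc hind => C0Package18.ub ℓ (resQj ℓ) M (DegLeVal23.degLe M) n c hc hind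

/-- The hypothesis `hub` of `irr_of_ub`. -/
theorem ub_all (N : ℕ) : ∀ M : ℕ, M ∣ N → ∀ _ : NeZero M, UBDef8.UB ℓ M :=
  fun M _ _ => ub ℓ M

end Fermat.Agent.IG.VAL.UBFinal8
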