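/-
Program G (S28, Igusa), chapter IG/VAL, blueprint §1(c) — fraction form of the abstract integral
descent `IntegralDescent21.isIntegral_of_isIntegral_smul` (helper21).

`R` an integrally closed domain inside a field `F`, `π ∈ R` a prime element, `O'` a subring of `F`
all of whose elements are fractions `r / s` with `r, s ∈ R`, `π ∤ s`.  Then for `b ∈ F`:
`b` integral over `O'` and `π • b` integral over `R`  ⟹  `b` integral over `R`.
(No fraction field / localisation has to be set up by the user.)
-/
import Mathlib
import Fermat.Agent.IG.VAL.IntegralDescent21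

set_option autoImplicit false

open Polynomial

namespace Fermat.Agent.IG.VAL.IntegralDescentFrac21

open Fermat.Agent.IG.VAL.IntegralDescent21

section Fractions

variable {R F : Type*} [CommRing R] [IsDomain R] [IsIntegrallyClosed R] [Field F] [Algebra R F]
  [FaithfulSMul R F]

/-- Integrality over a subring `O'` of `F` passes to any ring `O` whose image contains `O'`. -/
theorem isIntegral_of_subring_le_range {O F : Type*} [CommRing O] [CommRing F] [Algebra O F]
    (O' : Subring F) (h : O' ≤ (algebraMap O F).range) {b : F} (hb : IsIntegral O' b) :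
    IsIntegral O b := by
  classical
  obtain ⟨p, hmonic, hroot⟩ := hb
  set p' : F[X] := p.map O'.subtype with hp'
  have hp'monic : p'.Monic := hmonic.map _
  have hlifts : p' ∈ Polynomial.lifts (algebraMap O F) :=
    (Polynomial.lifts_iff_coeff_lifts _).mpr fun i => by
      rw [hp', coeff_map]; exact h (p.coeff i).2
  obtain ⟨q, hq, -, hqmonic⟩ := Polynomial.lifts_and_natDegree_eq_and_monic hlifts hp'monic
  refine ⟨q, hqmonic, ?_⟩
  rw [Polynomial.eval₂_eq_eval_map, hq, hp', Polynomial.eval_map]
  exact hroot

attribute [local instance] FractionRing.liftAlgebra in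
/-- **§1(c), fraction form.**  `R` an integrally closed domain inside a field `F`, `π ∈ R` prime,
`O'` a subring of `F` all of whose elements are fractions `r / s` with `r, s ∈ R`, `π ∤ s`.
Then `b` integral over `O'` and `π • b` integral over `R` ⟹ `b` integral over `R`. -/
theorem isIntegral_of_isIntegral_fractions {π : R} (hπ : Prime π) (O' : Subring F)
    (hO' : ∀ x ∈ O', ∃ r s : R, ¬ π ∣ s ∧ x * algebraMap R F s = algebraMap R F r)
    {b : F} (hb : IsIntegral O' b) (hπb : IsIntegral R (π • b)) : IsIntegral R b := by
  have hP : (Ideal.span {π}).IsPrime := (Ideal.span_singleton_prime hπ.ne_zero).mpr hπ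
  let : Algebra (Localization.AtPrime (Ideal.span {π})) F :=
    ((algebraMap (FractionRing R) F).comp
      (algebraMap (Localization.AtPrime (Ideal.span {π})) (FractionRing R))).toAlgebra
  have : IsScalarTower (Localization.AtPrime (Ideal.span {π})) (FractionRing R) F :=
    IsScalarTower.of_algebraMap_eq' rfl
  have : IsScalarTower R (Localization.AtPrime (Ideal.span {π})) F :=
    IsScalarTower.of_algebraMap_eq fun x => by
      rw [IsScalarTower.algebraMap_apply (Localization.AtPrime (Ideal.span {π})) (FractionRing R) F,
        ← IsScalarTower.algebraMap_apply R (Localization.AtPrime (Ideal.span {π})) (FractionRing R),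
        ← IsScalarTower.algebraMap_apply R (FractionRing R) F]
  have : IsIntegrallyClosed (Localization.AtPrime (Ideal.span {π})) :=
    isIntegrallyClosed_of_isLocalization _ (Ideal.span {π}).primeCompl
      (Ideal.primeCompl_le_nonZeroDivisors _)
  have hbO : IsIntegral (Localization.AtPrime (Ideal.span {π})) b := by
    refine isIntegral_of_subring_le_range O' ?_ hb
    intro x hx
    obtain ⟨r, s, hs, hxs⟩ := hO' x hx
    have hsmem : s ∈ (Ideal.span {π}).primeCompl := fun h => hs (Ideal.mem_span_singleton.mp h)
    refine ⟨IsLocalization.mk' _ r ⟨s, hsmem⟩, ?_⟩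
    have hs0 : algebraMap R F s ≠ 0 := by
      intro h0
      apply hs
      have : s = 0 := FaithfulSMul.algebraMap_injective R F (by rw [h0, map_zero])
      rw [this]; exact dvd_zero _
    apply mul_right_cancel₀ hs0
    rw [hxs, IsScalarTower.algebraMap_apply R (Localization.AtPrime (Ideal.span {π})) F s,
      ← map_mul, IsLocalization.mk'_spec, ← IsScalarTower.algebraMap_apply]
  refine isIntegral_of_isIntegral_smul (K0 := FractionRing R)
    (O := Localization.AtPrime (Ideal.span {π})) hπ.ne_zero
    (descentHyp_of_isLocalization_atPrime hπ) ?_ hbO hπb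
  rintro _ ⟨r, rfl⟩
  exact ⟨algebraMap R _ r, (IsScalarTower.algebraMap_apply R _ (FractionRing R) r).symm⟩

end Fractions

end Fermat.Agent.IG.VAL.IntegralDescentFrac21
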