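/-
Program G (S28, Igusa), chapter IG/VAL, block V5 (helper15): integrality of the `x_d = j(q^d)`.

From the modular equations `PR.Interface20.P0 r` at the primes `r ∣ N` (identities in `ℤ((q))`):
every `x_d`, `d ∣ N`, is integral over `ℤ[j]` -- over ANY commutative coefficient ring `K`
(apply `qExpand K d ∘ coeffMap (ℤ → K)` to `Φ_r(x_r ; x_1) = 0` to get `Φ_r(x_{dr} ; x_d) = 0`,
chain over the prime factors of `d`, transitivity of integrality).

MAIN RESULTS
* `isIntegral_of_eval₂_eq_zero` : abstract step (`x` integral over `R`, `Φ ∈ ℤ[Y][X]` monic,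
  `Φ(y ; x) = 0` ⟹ `y` integral over `R`).
* `P0_transport`   : `P0 r` transported to `K((q))` and shifted by `q ↦ q^d` (both relations).
* `isIntegral_qExpand_jqModC` : GENERIC: `R → K((q))` any algebra with `j̃` integral over `R`;
  then all `x̃_d`, `d ∣ N`, are integral over `R`.
* `xdIntegral`     : `(∀ r prime, r ∣ N → P0 r) → ValInterface8.XdIntegral N`.
* `xdC_isIntegral_adjoin` : `x̃_d` integral over `K[j̃] = Algebra.adjoin K {j̃}`.
* `xdC_isIntegral_kj`, `xdC_isAlgebraic_kj` : `x̃_d` integral / algebraic over `k(j̃) = kj ℓ`;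
  `xdC_isIntegral_adjoinField` : same over `IntermediateField.adjoin K {j̃}` for any field `K`.
* `xd_isIntegral_Ov` : `x_d ∈ FF N` is integral over `O_v = ValInterface8.Ov ℓ N`.
* `xd_isIntegral_Qj` : `x_d` integral (algebraic) over `ℚ(j) = Qj`.
-/
import Mathlib
import Fermat.Prelude.Def_ModularCurve_IgusaScheme
import Fermat.Prelude.Def_ModularCurve_X0ModL
import Fermat.Agent.IG.PR.Interface20
import Fermat.Agent.IG.VAL.ValInterface8

set_option autoImplicit false

noncomputable section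

namespace Fermat.Agent.IG.VAL.XdIntegral15

open ModularCurve ModularCurve.IgusaScheme Polynomial
open Fermat.Agent.IG Fermat.Agent.IG.PR Fermat.Agent.IG.VAL.ValInterface8

/-! ### The abstract step -/

/-- If `x` is integral over `R` and `y` is a root of a monic polynomial with coefficients in
`ℤ[x]`, then `y` is integral over `R`. -/
theorem isIntegral_of_eval₂_eq_zero {R A : Type*} [CommRing R] [CommRing A] [Algebra R A]
    {x y : A} (hx : IsIntegral R x) (Φ : Polynomial (Polynomial ℤ)) (hΦ : Φ.Monic)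
    (h0 : Φ.eval₂ (Polynomial.eval₂RingHom (Int.castRingHom A) x) y = 0) : IsIntegral R y := by
  let g : Polynomial ℤ →+* ↥(integralClosure R A) :=
    Polynomial.eval₂RingHom (Int.castRingHom ↥(integralClosure R A)) ⟨x, hx⟩
  have hg : (algebraMap ↥(integralClosure R A) A).comp g =
      Polynomial.eval₂RingHom (Int.castRingHom A) x := by
    apply Polynomial.ringHom_ext
    · intro a
      simp [g]
    · simp [g]
  have hy : IsIntegral ↥(integralClosure R A) y :=
    ⟨Φ.map g, hΦ.map g, by rw [Polynomial.eval₂_map, hg]; exact h0⟩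
  exact isIntegral_trans y hy

/-! ### Transport of `P0` -/

section Transport

variable (K : Type*) [CommRing K]

/-- The ring hom `ℤ((q)) → K((q))`, `f(q) ↦ f̃(q^d)`. -/
def shiftHom (d : ℕ) [NeZero d] : LaurentSeries ℤ →+* LaurentSeries K :=
  (qExpand K d).comp (coeffMap (Int.castRingHom K))

theorem shiftHom_jqModC (d : ℕ) [NeZero d] :
    shiftHom K d (jqModC ℤ) = qExpand K d (jqModC K) := by
  rw [shiftHom, RingHom.comp_apply, coeffMap_jqModC]

theorem shiftHom_qExpand_jqModC (d r : ℕ) [NeZero d] [NeZero r] [NeZero (d * r)] :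
    shiftHom K d (qExpand ℤ r (jqModC ℤ)) = qExpand K (d * r) (jqModC K) := by
  rw [shiftHom, RingHom.comp_apply, coeffMap_qExpand, coeffMap_jqModC, qExpand_qExpand]

theorem shiftHom_comp_evalAt (d : ℕ) [NeZero d] (y : LaurentSeries ℤ) :
    (shiftHom K d).comp (Interface20.evalAt ℤ y) = Interface20.evalAt K (shiftHom K d y) := by
  apply Polynomial.ringHom_ext
  · intro a
    simp [Interface20.evalAt]
  · simp [Interface20.evalAt]

/-- `P0 r` transported to `K((q))` and shifted by `q ↦ q^d`: a monic `Φ ∈ ℤ[Y][X]` of `X`-degree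
`r + 1` with `Φ(x̃_{dr} ; x̃_d) = 0 = Φ(x̃_d ; x̃_{dr})`. -/
theorem P0_transport (d r : ℕ) [NeZero d] [NeZero r] [NeZero (d * r)] (h : Interface20.P0 r) :
    ∃ Φ : Polynomial (Polynomial ℤ), Φ.Monic ∧ Φ.natDegree = r + 1 ∧
      Φ.eval₂ (Interface20.evalAt K (qExpand K d (jqModC K))) (qExpand K (d * r) (jqModC K)) = 0 ∧
      Φ.eval₂ (Interface20.evalAt K (qExpand K (d * r) (jqModC K))) (qExpand K d (jqModC K)) = 0 := by
  obtain ⟨Φ, hm, hdeg, h1, h2⟩ := h
  refine ⟨Φ, hm, hdeg, ?_, ?_⟩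
  · have := congrArg (shiftHom K d) h1
    rwa [Polynomial.hom_eval₂, shiftHom_comp_evalAt, shiftHom_jqModC, shiftHom_qExpand_jqModC,
      map_zero] at this
  · have := congrArg (shiftHom K d) h2
    rwa [Polynomial.hom_eval₂, shiftHom_comp_evalAt, shiftHom_jqModC, shiftHom_qExpand_jqModC,
      map_zero] at this

end Transport

/-! ### The generic integrality theorem -/

/-- GENERIC: let `R → K((q))` be any algebra over which `j̃` is integral.  If the modular equation
`P0 r` holds for every prime `r ∣ N`, then every `x̃_d = j̃(q^d)`, `d ∣ N`, is integral over `R`. -/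
theorem isIntegral_qExpand_jqModC (K : Type*) [CommRing K] {R : Type*} [CommRing R]
    [Algebra R (LaurentSeries K)] (hj : IsIntegral R (jqModC K)) (N : ℕ)
    (hP0 : ∀ r : ℕ, r.Prime → r ∣ N → ∀ _ : NeZero r, Interface20.P0 r) :
    ∀ (d : ℕ) (_ : NeZero d), d ∣ N → IsIntegral R (qExpand K d (jqModC K)) := by
  intro d
  induction d using Nat.strong_induction_on with
  | _ d ih =>
    intro hd0 hdN
    rcases eq_or_ne d 1 with rfl | hd1
    · rwa [qExpand_one_apply]
    · -- `d = r * e` with `r` prime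
      have hr : (d.minFac).Prime := Nat.minFac_prime hd1
      obtain ⟨e, he⟩ := Nat.minFac_dvd d
      have hd0' : d ≠ 0 := NeZero.ne d
      have he0 : e ≠ 0 := by
        rintro rfl
        exact hd0' (by rw [he, mul_zero])
      have hed : e < d := by
        calc e = 1 * e := (one_mul e).symm
          _ < d.minFac * e := Nat.mul_lt_mul_of_pos_right hr.one_lt (Nat.pos_of_ne_zero he0)
          _ = d := he.symm
      have : NeZero e := ⟨he0⟩
      have : NeZero d.minFac := ⟨hr.ne_zero⟩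
      have : NeZero (e * d.minFac) := ⟨mul_ne_zero he0 hr.ne_zero⟩
      have heN : e ∣ N := (Dvd.intro_left _ he.symm).trans hdN
      have hrN : d.minFac ∣ N := (Nat.minFac_dvd d).trans hdN
      have hxe : IsIntegral R (qExpand K e (jqModC K)) := ih e hed ‹_› heN
      obtain ⟨Φ, hm, -, h1, -⟩ := P0_transport K e d.minFac (hP0 _ hr hrN ‹_›)
      have hxd : IsIntegral R (qExpand K (e * d.minFac) (jqModC K)) :=
        isIntegral_of_eval₂_eq_zero hxe Φ hm h1
      have hde : e * d.minFac = d := by rw [mul_comm]; exact he.symm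
      rwa [qExpand_congr (R := K) hde] at hxd

/-! ### Instantiations -/

/-- `j ∈ O_v`. -/
theorem jFull_mem_Ov (N : ℕ) [NeZero N] (ℓ : ℕ) [Fact ℓ.Prime] : jFull N ∈ Ov ℓ N :=
  ⟨Polynomial.X, 1, by simp, by simp⟩

section Instances

variable (N : ℕ)
  (hP0 : ∀ r : ℕ, r.Prime → r ∣ N → ∀ _ : NeZero r, Interface20.P0 r)

include hP0

/-- **V5**: `x_d` is integral over `ℤ[j] ⊂ ℚ((q))` for every `d ∣ N`. -/
theorem xdIntegral : XdIntegral N := by
  intro d hd0 hdN
  refine isIntegral_qExpand_jqModC ℚ ?_ N hP0 d hd0 hdN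
  exact isIntegral_algebraMap
    (x := (⟨jq, Algebra.subset_adjoin rfl⟩ : ↥(Algebra.adjoin ℤ ({jq} : Set (LaurentSeries ℚ)))))

/-- The twin over any commutative coefficient ring `K`: `x̃_d` is integral over `K[j̃]`. -/
theorem xdC_isIntegral_adjoin (K : Type) [CommRing K] (d : ℕ) [NeZero d] (hdN : d ∣ N) :
    IsIntegral ↥(Algebra.adjoin K ({jqModC K} : Set (LaurentSeries K))) (xdC K d) := by
  refine isIntegral_qExpand_jqModC K ?_ N hP0 d ‹_› hdN
  exact isIntegral_algebraMap
    (x := (⟨jqModC K, Algebra.subset_adjoin rfl⟩ :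
      ↥(Algebra.adjoin K ({jqModC K} : Set (LaurentSeries K)))))

/-- The twin over any coefficient field `K`: `x̃_d` is integral over `K(j̃)`. -/
theorem xdC_isIntegral_adjoinField (K : Type) [Field K] (d : ℕ) [NeZero d] (hdN : d ∣ N) :
    IsIntegral ↥(IntermediateField.adjoin K ({jqModC K} : Set (LaurentSeries K))) (xdC K d) := by
  refine isIntegral_qExpand_jqModC K ?_ N hP0 d ‹_› hdN
  exact isIntegral_algebraMap
    (x := (⟨jqModC K, IntermediateField.subset_adjoin K _ rfl⟩ :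
      ↥(IntermediateField.adjoin K ({jqModC K} : Set (LaurentSeries K)))))

/-- `x̃_d` is integral over `k(j̃)`, `k = ZMod ℓ`. -/
theorem xdC_isIntegral_kj (ℓ : ℕ) [Fact ℓ.Prime] (d : ℕ) [NeZero d] (hdN : d ∣ N) :
    IsIntegral ↥(kj ℓ) (xdC (ZMod ℓ) d) :=
  xdC_isIntegral_adjoinField N hP0 (ZMod ℓ) d hdN

/-- `x̃_d` is algebraic over `k(j̃)`, `k = ZMod ℓ`. -/
theorem xdC_isAlgebraic_kj (ℓ : ℕ) [Fact ℓ.Prime] (d : ℕ) [NeZero d] (hdN : d ∣ N) :
    IsAlgebraic ↥(kj ℓ) (xdC (ZMod ℓ) d) :=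
  (xdC_isIntegral_kj N hP0 ℓ d hdN).isAlgebraic

/-- `x_d` is integral over `ℚ(j)`. -/
theorem xd_isIntegral_Qj (d : ℕ) [NeZero d] (hdN : d ∣ N) :
    IsIntegral ↥Qj (qExpand ℚ d jq) :=
  xdC_isIntegral_adjoinField N hP0 ℚ d hdN

/-- `x_d ∈ FF N` is integral over `O_v = ℤℓ[j]_(ℓ)`. -/
theorem xd_isIntegral_Ov (ℓ : ℕ) [Fact ℓ.Prime] [NeZero N] (d : ℕ) [NeZero d] (hdN : d ∣ N) :
    IsIntegral ↥(Ov ℓ N) (xd N d hdN) := by
  let _ : Algebra ↥(Ov ℓ N) (LaurentSeries ℚ) :=
    ((algebraMap (FF N) (LaurentSeries ℚ)).comp (algebraMap ↥(Ov ℓ N) (FF N))).toAlgebra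
  have : IsScalarTower ↥(Ov ℓ N) (FF N) (LaurentSeries ℚ) :=
    IsScalarTower.of_algebraMap_eq (fun _ => rfl)
  have hj : IsIntegral ↥(Ov ℓ N) (jqModC ℚ) :=
    isIntegral_algebraMap (x := (⟨jFull N, jFull_mem_Ov N ℓ⟩ : ↥(Ov ℓ N)))
  have h := isIntegral_qExpand_jqModC ℚ hj N hP0 d ‹_› hdN
  exact IsIntegral.tower_bot (A := FF N) (B := LaurentSeries ℚ) Subtype.val_injective h

end Instances

end Fermat.Agent.IG.VAL.XdIntegral15
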