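import Mathlib
import Fermat.Prelude.Def_GaloisRep_Flat

/-!
# Program G (S28), shared base file: algebra of `ℤ_(ℓ) := ↥(GaloisRep.ratLocalizedAt ℓ)`

`GaloisRep.ratLocalizedAt ℓ` is the subring `{q : ℚ | q.den.Coprime ℓ}` of `ℚ`.  For `ℓ` prime:

* `isLocalization_atPrime` : it is the localization of `ℤ` at the prime `(ℓ)`;
* `isFractionRing` : `ℚ` is its fraction field;
* instances: `IsDiscreteValuationRing`, hence PID, local, noetherian, integrally closed, UFD;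
* `maximalIdeal_eq` : the maximal ideal is `span {ℓ}`; `prime_ell`;
* `resZl : ℤ_(ℓ) →+* ZMod ℓ`, surjective with kernel `span {ℓ}`;
* `ringHom_subsingleton` : ring homs out of `ℤ_(ℓ)` are unique;
* `algebraMap_eq_castHom_comp_resZl` : for a `ℤ_(ℓ)`-algebra `K` of characteristic `ℓ`, the structure map
  factors through `resZl`.
-/

set_option autoImplicit false

open IsLocalRing

namespace Fermat.Agent.IG.VAL.Zl13

variable (ℓ : ℕ)

theorem mem_iff {q : ℚ} : q ∈ GaloisRep.ratLocalizedAt ℓ ↔ q.den.Coprime ℓ := Iff.rfl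

theorem intCast_mem (n : ℤ) : (n : ℚ) ∈ GaloisRep.ratLocalizedAt ℓ := by
  rw [mem_iff]; simp

theorem coe_algebraMap_int (n : ℤ) :
    ((algebraMap ℤ ↥(GaloisRep.ratLocalizedAt ℓ) n : ↥(GaloisRep.ratLocalizedAt ℓ)) : ℚ) = n := by
  simp

theorem coe_natCast (n : ℕ) : (((n : ↥(GaloisRep.ratLocalizedAt ℓ))) : ℚ) = n := by
  simp

theorem algebraMap_rat_injective :
    Function.Injective (algebraMap ↥(GaloisRep.ratLocalizedAt ℓ) ℚ) :=
  Subtype.val_injective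

variable [hℓ : Fact ℓ.Prime]

/-- The prime ideal `(ℓ)` of `ℤ`. -/
abbrev pZ : Ideal ℤ := Ideal.span {(ℓ : ℤ)}

instance pZ_isPrime : (pZ ℓ).IsPrime :=
  (Ideal.span_singleton_prime (by exact_mod_cast hℓ.out.ne_zero)).mpr
    (Nat.prime_iff_prime_int.mp hℓ.out)

instance pZ_isMaximal : (pZ ℓ).IsMaximal :=
  Ideal.IsPrime.isMaximal (pZ_isPrime ℓ)
    (by
      rw [Ne, Ideal.span_singleton_eq_bot]
      exact_mod_cast hℓ.out.ne_zero)

theorem mem_primeCompl_iff {n : ℤ} : n ∈ (pZ ℓ).primeCompl ↔ ¬ (ℓ : ℤ) ∣ n := by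
  rw [Ideal.mem_primeCompl_iff, Ideal.mem_span_singleton]

theorem coprime_of_not_dvd {n : ℤ} (h : ¬ (ℓ : ℤ) ∣ n) : n.natAbs.Coprime ℓ := by
  rw [Nat.coprime_comm, Nat.Prime.coprime_iff_not_dvd hℓ.out]
  intro h'
  exact h (Int.natCast_dvd.mpr h')

/-- The inverse of an integer prime to `ℓ` lies in `ℤ_(ℓ)`. -/
theorem inv_intCast_mem {n : ℤ} (h : ¬ (ℓ : ℤ) ∣ n) :
    ((n : ℚ)⁻¹) ∈ GaloisRep.ratLocalizedAt ℓ := by
  rw [mem_iff]
  have hn : n ≠ 0 := by rintro rfl; exact h (dvd_zero _)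
  have h1 : ((n : ℚ)⁻¹).den = n.natAbs := by
    rw [Rat.inv_intCast_den, if_neg hn]
  rw [h1]
  exact coprime_of_not_dvd ℓ h

/-- `ℤ_(ℓ)` is the localization of `ℤ` at the prime `(ℓ)`. -/
instance isLocalization_atPrime :
    IsLocalization.AtPrime ↥(GaloisRep.ratLocalizedAt ℓ) (pZ ℓ) := by
  refine (isLocalization_iff _ _).mpr ⟨?_, ?_, ?_⟩
  · rintro ⟨y, hy⟩
    rw [mem_primeCompl_iff] at hy
    have hy0 : (y : ℚ) ≠ 0 := by
      have : y ≠ 0 := by rintro rfl; exact hy (dvd_zero _)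
      exact_mod_cast this
    refine IsUnit.of_mul_eq_one ⟨(y : ℚ)⁻¹, inv_intCast_mem ℓ hy⟩ (Subtype.ext ?_)
    simp [hy0]
  · intro z
    have hz : (z : ℚ).den.Coprime ℓ := z.2
    have hden : ((z : ℚ).den : ℤ) ∈ (pZ ℓ).primeCompl := by
      rw [mem_primeCompl_iff]
      intro h
      have h' : ℓ ∣ (z : ℚ).den := by exact_mod_cast h
      have := Nat.eq_one_of_dvd_coprimes hz.symm (dvd_refl ℓ) h'
      exact hℓ.out.one_lt.ne' this
    refine ⟨((z : ℚ).num, ⟨((z : ℚ).den : ℤ), hden⟩), Subtype.ext ?_⟩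
    simp [Rat.mul_den_eq_num]
  · intro x y h
    refine ⟨1, ?_⟩
    have : ((algebraMap ℤ ↥(GaloisRep.ratLocalizedAt ℓ) x : ↥(GaloisRep.ratLocalizedAt ℓ)) : ℚ)
        = algebraMap ℤ ↥(GaloisRep.ratLocalizedAt ℓ) y := congrArg Subtype.val h
    rw [coe_algebraMap_int, coe_algebraMap_int] at this
    have : x = y := by exact_mod_cast this
    simp [this]

/-- `ℚ` is the fraction field of `ℤ_(ℓ)`. -/
instance isFractionRing : IsFractionRing ↥(GaloisRep.ratLocalizedAt ℓ) ℚ := by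
  have : FaithfulSMul ↥(GaloisRep.ratLocalizedAt ℓ) ℚ :=
    (faithfulSMul_iff_algebraMap_injective _ _).mpr (algebraMap_rat_injective ℓ)
  refine IsFractionRing.of_field _ _ (fun z => ?_)
  refine ⟨⟨(z.num : ℚ), intCast_mem ℓ _⟩, ⟨(z.den : ℚ), by
    simp⟩, ?_⟩
  show z = (z.num : ℚ) / (z.den : ℚ)
  exact (Rat.num_div_den z).symm

instance isDiscreteValuationRing : IsDiscreteValuationRing ↥(GaloisRep.ratLocalizedAt ℓ) :=
  IsLocalization.AtPrime.isDiscreteValuationRing_of_dedekind_domain ℤ (P := pZ ℓ)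
    (by
      rw [Ne, Ideal.span_singleton_eq_bot]
      exact_mod_cast hℓ.out.ne_zero) _


theorem ell_ne_zero : (ℓ : ↥(GaloisRep.ratLocalizedAt ℓ)) ≠ 0 := by
  intro h
  have := congrArg Subtype.val h
  rw [coe_natCast] at this
  have h0 : (ℓ : ℚ) ≠ 0 := by exact_mod_cast hℓ.out.ne_zero
  exact h0 (by simpa using this)

/-- The maximal ideal of `ℤ_(ℓ)` is generated by `ℓ`. -/
theorem maximalIdeal_eq :
    maximalIdeal ↥(GaloisRep.ratLocalizedAt ℓ) =
      Ideal.span {(ℓ : ↥(GaloisRep.ratLocalizedAt ℓ))} := by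
  rw [← IsLocalization.AtPrime.map_eq_maximalIdeal (pZ ℓ) ↥(GaloisRep.ratLocalizedAt ℓ),
    Ideal.map_span, Set.image_singleton]
  simp

instance span_ell_isMaximal :
    (Ideal.span {(ℓ : ↥(GaloisRep.ratLocalizedAt ℓ))}).IsMaximal := by
  rw [← maximalIdeal_eq]
  exact maximalIdeal.isMaximal _

theorem prime_ell : Prime (ℓ : ↥(GaloisRep.ratLocalizedAt ℓ)) :=
  (Ideal.span_singleton_prime (ell_ne_zero ℓ)).mp (span_ell_isMaximal ℓ).isPrime

theorem irreducible_ell : Irreducible (ℓ : ↥(GaloisRep.ratLocalizedAt ℓ)) :=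
  (prime_ell ℓ).irreducible

theorem not_isUnit_ell : ¬ IsUnit (ℓ : ↥(GaloisRep.ratLocalizedAt ℓ)) :=
  (prime_ell ℓ).not_isUnit

/-- An element of `ℤ_(ℓ)` is a unit iff it is not divisible by `ℓ`. -/
theorem isUnit_iff_not_dvd {x : ↥(GaloisRep.ratLocalizedAt ℓ)} :
    IsUnit x ↔ ¬ (ℓ : ↥(GaloisRep.ratLocalizedAt ℓ)) ∣ x := by
  rw [← Ideal.mem_span_singleton, ← maximalIdeal_eq, mem_maximalIdeal, mem_nonunits_iff, not_not]

/-- Every nonzero element of `ℤ_(ℓ)` is a unit times a power of `ℓ`. -/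
theorem exists_eq_pow_mul_unit {x : ↥(GaloisRep.ratLocalizedAt ℓ)} (hx : x ≠ 0) :
    ∃ (n : ℕ) (u : (↥(GaloisRep.ratLocalizedAt ℓ))ˣ),
      x = (ℓ : ↥(GaloisRep.ratLocalizedAt ℓ)) ^ n * u := by
  obtain ⟨n, u, h⟩ := IsDiscreteValuationRing.eq_unit_mul_pow_irreducible hx (irreducible_ell ℓ)
  exact ⟨n, u, by rw [h, mul_comm]⟩

/-- Ring homomorphisms out of `ℤ_(ℓ)` are unique. -/
instance ringHom_subsingleton {T : Type*} [Semiring T] :
    Subsingleton (↥(GaloisRep.ratLocalizedAt ℓ) →+* T) := by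
  refine ⟨fun f g => ?_⟩
  exact IsLocalization.ringHom_ext (pZ ℓ).primeCompl (RingHom.ext_int _ _)

/-- The residue homomorphism `ℤ_(ℓ) →+* ZMod ℓ`. -/
noncomputable def resZl : ↥(GaloisRep.ratLocalizedAt ℓ) →+* ZMod ℓ :=
  IsLocalization.lift (M := (pZ ℓ).primeCompl) (g := Int.castRingHom (ZMod ℓ)) (by
    rintro ⟨y, hy⟩
    rw [mem_primeCompl_iff] at hy
    have : ((y : ℤ) : ZMod ℓ) ≠ 0 := by
      rwa [Ne, ZMod.intCast_zmod_eq_zero_iff_dvd]
    exact isUnit_iff_ne_zero.mpr this)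

theorem resZl_algebraMap_int (n : ℤ) :
    resZl ℓ (algebraMap ℤ ↥(GaloisRep.ratLocalizedAt ℓ) n) = (n : ZMod ℓ) := by
  rw [resZl, IsLocalization.lift_eq]; rfl

theorem resZl_intCast (n : ℤ) : resZl ℓ (n : ↥(GaloisRep.ratLocalizedAt ℓ)) = (n : ZMod ℓ) :=
  map_intCast _ n

theorem resZl_natCast (n : ℕ) : resZl ℓ (n : ↥(GaloisRep.ratLocalizedAt ℓ)) = (n : ZMod ℓ) :=
  map_natCast _ n

theorem resZl_surjective : Function.Surjective (resZl ℓ) := by
  intro a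
  obtain ⟨n, rfl⟩ := ZMod.intCast_surjective a
  exact ⟨(n : ↥(GaloisRep.ratLocalizedAt ℓ)), resZl_intCast ℓ n⟩

theorem resZl_ell : resZl ℓ (ℓ : ↥(GaloisRep.ratLocalizedAt ℓ)) = 0 := by
  rw [resZl_natCast, ZMod.natCast_self]

/-- The kernel of the residue homomorphism is `(ℓ)`. -/
theorem ker_resZl :
    RingHom.ker (resZl ℓ) = Ideal.span {(ℓ : ↥(GaloisRep.ratLocalizedAt ℓ))} := by
  symm
  refine (span_ell_isMaximal ℓ).eq_of_le (RingHom.ker_ne_top _) ?_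
  rw [Ideal.span_singleton_le_iff_mem, RingHom.mem_ker]
  exact resZl_ell ℓ

theorem resZl_eq_zero_iff {x : ↥(GaloisRep.ratLocalizedAt ℓ)} :
    resZl ℓ x = 0 ↔ (ℓ : ↥(GaloisRep.ratLocalizedAt ℓ)) ∣ x := by
  rw [← RingHom.mem_ker, ker_resZl, Ideal.mem_span_singleton]

/-- For a `ℤ_(ℓ)`-algebra `K` of characteristic `ℓ`, the structure map factors through the residue
homomorphism. -/
theorem algebraMap_eq_castHom_comp_resZl (K : Type*) [CommRing K] [CharP K ℓ]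
    [Algebra ↥(GaloisRep.ratLocalizedAt ℓ) K] :
    algebraMap ↥(GaloisRep.ratLocalizedAt ℓ) K =
      (ZMod.castHom (dvd_refl ℓ) K).comp (resZl ℓ) :=
  Subsingleton.elim _ _

omit hℓ in
theorem algebraMap_ell_eq_zero (K : Type*) [CommRing K] [CharP K ℓ]
    [Algebra ↥(GaloisRep.ratLocalizedAt ℓ) K] :
    algebraMap ↥(GaloisRep.ratLocalizedAt ℓ) K (ℓ : ↥(GaloisRep.ratLocalizedAt ℓ)) = 0 := by
  rw [map_natCast]; exact CharP.cast_eq_zero K ℓ

/-- `ℤ_(ℓ)[X]` is integrally closed (it is a UFD). -/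
instance polynomial_isIntegrallyClosed :
    IsIntegrallyClosed (Polynomial ↥(GaloisRep.ratLocalizedAt ℓ)) := inferInstance

/-- `ℓ` is prime in `ℤ_(ℓ)[X]`. -/
theorem prime_C_ell :
    Prime (Polynomial.C (ℓ : ↥(GaloisRep.ratLocalizedAt ℓ))) :=
  Polynomial.prime_C_iff.mpr (prime_ell ℓ)


/-- `ℤ_(ℓ) ⧸ (ℓ) ≃+* ZMod ℓ`. -/
noncomputable def quotEquivZMod :
    (↥(GaloisRep.ratLocalizedAt ℓ) ⧸ Ideal.span {(ℓ : ↥(GaloisRep.ratLocalizedAt ℓ))}) ≃+* ZMod ℓ :=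
  (Ideal.quotEquivOfEq (ker_resZl ℓ).symm).trans
    (RingHom.quotientKerEquivOfSurjective (resZl_surjective ℓ))

theorem quotEquivZMod_mk (x : ↥(GaloisRep.ratLocalizedAt ℓ)) :
    quotEquivZMod ℓ (Ideal.Quotient.mk _ x) = resZl ℓ x := rfl

/-- The kernel of reduction mod `ℓ` on polynomials is `(ℓ)`. -/
theorem ker_mapRingHom_resZl :
    RingHom.ker (Polynomial.mapRingHom (resZl ℓ)) =
      Ideal.span {Polynomial.C (ℓ : ↥(GaloisRep.ratLocalizedAt ℓ))} := by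
  rw [Polynomial.ker_mapRingHom, ker_resZl, Ideal.map_span, Set.image_singleton]

theorem map_resZl_eq_zero_iff {f : Polynomial ↥(GaloisRep.ratLocalizedAt ℓ)} :
    f.map (resZl ℓ) = 0 ↔ Polynomial.C (ℓ : ↥(GaloisRep.ratLocalizedAt ℓ)) ∣ f := by
  rw [← Ideal.mem_span_singleton, ← ker_mapRingHom_resZl, RingHom.mem_ker,
    Polynomial.coe_mapRingHom]

theorem map_resZl_surjective :
    Function.Surjective (Polynomial.map (resZl ℓ)) :=
  Polynomial.map_surjective _ (resZl_surjective ℓ)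

section Checks

example : IsLocalRing ↥(GaloisRep.ratLocalizedAt ℓ) := inferInstance
example : IsPrincipalIdealRing ↥(GaloisRep.ratLocalizedAt ℓ) := inferInstance
example : IsNoetherianRing ↥(GaloisRep.ratLocalizedAt ℓ) := inferInstance
example : IsIntegrallyClosed ↥(GaloisRep.ratLocalizedAt ℓ) := inferInstance
example : UniqueFactorizationMonoid ↥(GaloisRep.ratLocalizedAt ℓ) := inferInstance
example : IsDedekindDomain ↥(GaloisRep.ratLocalizedAt ℓ) := inferInstance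
example : UniqueFactorizationMonoid (Polynomial ↥(GaloisRep.ratLocalizedAt ℓ)) := inferInstance
example : IsNoetherianRing (Polynomial ↥(GaloisRep.ratLocalizedAt ℓ)) := inferInstance
example : IsDomain (Polynomial ↥(GaloisRep.ratLocalizedAt ℓ)) := inferInstance
example : CharZero ↥(GaloisRep.ratLocalizedAt ℓ) := inferInstance

end Checks

end Fermat.Agent.IG.VAL.Zl13
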