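/-
Program G (S28, Igusa), chapter IG/VAL, block V1 (helper22): the base DVR `O_v = ℤ_(ℓ)[j]_(ℓ)`.

Everything is stated against helper18's Gauss ring (`GaussRing18.gaussRing ℓ ⊂ ℚ((q))`, residue map
`gaussRed ℓ`): `O_v = ℚ(j) ∩ gaussRing ℓ`.

* `polyAt x : R[X] →+* R((q))` (evaluation at a Laurent series, no algebra-instance diamonds),
  `coeffMap_polyAt`, `aeval_eq_polyAt`;
* `polyAt_jqModC_injective`, `transcendental_jqModC` (OV3): `j̃` is transcendental over any field;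
* `gaussRed_aeval` (OV2): `gaussRed (P(j)) = P̃(j̃)` for `P ∈ ℤ_(ℓ)[X]`;
* `exists_content`: `ℓ`-content extraction in `ℚ[X]`;
* `gaussRed_mem_kj` (OV1): the residue of an element of `ℚ(j) ∩ gaussRing` lies in `k(j̃)`;
  `exists_gaussRed_eq` (surjectivity onto `k(j̃)`);
* `mem_Ov_iff_mem_gaussRing` (bridge to `ValInterface8.Ov ℓ N`);
* `exists_scaling` (family scaling lemma).
-/
import Fermat.Agent.IG.VAL.GaussRing18
import Fermat.Agent.IG.VAL.ValInterface8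
import Fermat.Agent.IG.VAL.Zl13

set_option autoImplicit false

noncomputable section

open HahnSeries ModularCurve Polynomial

namespace Fermat.Agent.IG.VAL.OvBasics22

open Fermat.Agent.IG.VAL.ZlRed18 Fermat.Agent.IG.VAL.GaussRing18

/-! ### Evaluation of polynomials at a Laurent series -/

section PolyAt

variable {R S : Type*} [CommRing R] [CommRing S]

/-- `P ↦ P(x)`, `x ∈ R((q))`, constants embedded by `HahnSeries.C`. -/
def polyAt (x : LaurentSeries R) : R[X] →+* LaurentSeries R :=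
  Polynomial.eval₂RingHom (HahnSeries.C : R →+* LaurentSeries R) x

theorem polyAt_apply (x : LaurentSeries R) (P : R[X]) :
    polyAt x P = P.eval₂ (HahnSeries.C : R →+* LaurentSeries R) x := rfl

theorem coeffMap_comp_C (f : R →+* S) :
    (coeffMap f).comp (HahnSeries.C : R →+* LaurentSeries R)
      = (HahnSeries.C : S →+* LaurentSeries S).comp f :=
  RingHom.ext fun r => ZlRed18.coeffMap_C f r

theorem coeffMap_polyAt (f : R →+* S) (x : LaurentSeries R) (P : R[X]) :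
    coeffMap f (polyAt x P) = polyAt (coeffMap f x) (P.map f) := by
  rw [polyAt_apply, polyAt_apply, Polynomial.hom_eval₂, Polynomial.eval₂_map, coeffMap_comp_C]

theorem algebraMap_eq_C (K : Type*) [Field K] :
    algebraMap K (LaurentSeries K) = (HahnSeries.C : K →+* LaurentSeries K) :=
  RingHom.ext fun c => by rw [algebraMap_laurentSeries_eq_single, HahnSeries.C_apply]

theorem aeval_eq_polyAt {K : Type*} [Field K] (x : LaurentSeries K) (P : K[X]) :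
    aeval x P = polyAt x P := by
  rw [Polynomial.aeval_def, algebraMap_eq_C, polyAt_apply]

/-- The coefficient of `q^{-deg P}` in `P(j)` is the leading coefficient of `P`. -/
theorem polyAt_jqModC_coeff (P : R[X]) :
    (polyAt (jqModC R) P).coeff (-(P.natDegree : ℤ)) = P.leadingCoeff := by
  rw [polyAt_apply, Polynomial.eval₂_eq_sum_range, ← HahnSeries.coeff.addMonoidHom_apply, map_sum,
    Finset.sum_eq_single_of_mem P.natDegree (Finset.mem_range.mpr (Nat.lt_succ_self _))]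
  · rw [HahnSeries.coeff.addMonoidHom_apply, HahnSeries.C_mul_eq_smul, HahnSeries.coeff_smul,
      coeff_jqModC_pow_self, smul_eq_mul, mul_one, Polynomial.leadingCoeff]
  · intro i hi hne
    have hlt : i < P.natDegree := lt_of_le_of_ne (Nat.lt_succ_iff.mp (Finset.mem_range.mp hi)) hne
    rw [HahnSeries.coeff.addMonoidHom_apply, HahnSeries.C_mul_eq_smul, HahnSeries.coeff_smul,
      coeff_jqModC_pow_of_lt R (by exact_mod_cast (neg_lt_neg (by exact_mod_cast hlt))), smul_zero]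

theorem polyAt_jqModC_eq_zero_iff (P : R[X]) : polyAt (jqModC R) P = 0 ↔ P = 0 := by
  constructor
  · intro h
    have := polyAt_jqModC_coeff P
    rw [h, HahnSeries.coeff_zero] at this
    exact Polynomial.leadingCoeff_eq_zero.mp this.symm
  · rintro rfl
    exact map_zero _

theorem polyAt_jqModC_injective : Function.Injective (polyAt (jqModC R)) :=
  (injective_iff_map_eq_zero _).mpr fun P hP => (polyAt_jqModC_eq_zero_iff P).mp hP

/-- **(OV3)** `j̃` is transcendental over any field. -/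
theorem transcendental_jqModC (K : Type*) [Field K] : Transcendental K (jqModC K) := by
  rw [transcendental_iff_injective]
  intro P Q h
  rw [aeval_eq_polyAt, aeval_eq_polyAt] at h
  exact polyAt_jqModC_injective h

theorem aeval_jqModC_ne_zero {K : Type*} [Field K] {P : K[X]} (hP : P ≠ 0) :
    aeval (jqModC K) P ≠ 0 := by
  rw [aeval_eq_polyAt]
  exact fun h => hP ((polyAt_jqModC_eq_zero_iff P).mp h)

end PolyAt

/-! ### Polynomials in `j` with `ℤ_(ℓ)`-coefficients -/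

section ZlPoly

set_option linter.unusedSectionVars false

variable (ℓ : ℕ) [hℓ : Fact ℓ.Prime]

/-- the inclusion `ℤ_(ℓ) → ℚ`. -/
abbrev incl : Zl ℓ →+* ℚ := (GaloisRep.ratLocalizedAt ℓ).subtype

theorem incl_injective : Function.Injective (incl ℓ) := Subtype.val_injective

theorem embQ_polyAt (P : (Zl ℓ)[X]) :
    embQ ℓ (polyAt (jqModC (Zl ℓ)) P) = aeval (jqModC ℚ) (P.map (incl ℓ)) := by
  rw [aeval_eq_polyAt, embQ, coeffMap_polyAt, coeffMap_jqModC]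

theorem redL_polyAt (P : (Zl ℓ)[X]) :
    redL ℓ (polyAt (jqModC (Zl ℓ)) P) = aeval (jqModC (ZMod ℓ)) (P.map (redZl ℓ)) := by
  rw [aeval_eq_polyAt, redL, coeffMap_polyAt, coeffMap_jqModC]

theorem aeval_mem_gaussRing (P : (Zl ℓ)[X]) :
    aeval (jqModC ℚ) (P.map (incl ℓ)) ∈ gaussRing ℓ := by
  rw [← embQ_polyAt]; exact embQ_mem ℓ _

/-- **(OV2)** `gaussRed (P(j)) = P̃(j̃)` for `P ∈ ℤ_(ℓ)[X]`. -/
theorem gaussRed_aeval (P : (Zl ℓ)[X]) (h : aeval (jqModC ℚ) (P.map (incl ℓ)) ∈ gaussRing ℓ) :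
    gaussRed ℓ ⟨aeval (jqModC ℚ) (P.map (incl ℓ)), h⟩
      = aeval (jqModC (ZMod ℓ)) (P.map (redZl ℓ)) := by
  have e : (⟨aeval (jqModC ℚ) (P.map (incl ℓ)), h⟩ : gaussRing ℓ)
      = ⟨embQ ℓ (polyAt (jqModC (Zl ℓ)) P), embQ_mem ℓ _⟩ := Subtype.ext (embQ_polyAt ℓ P).symm
  rw [e, gaussRed_embQ, redL_polyAt]

theorem gaussRed_aeval_ne_zero {P : (Zl ℓ)[X]} (hP : P.map (redZl ℓ) ≠ 0)
    (h : aeval (jqModC ℚ) (P.map (incl ℓ)) ∈ gaussRing ℓ) :
    gaussRed ℓ ⟨aeval (jqModC ℚ) (P.map (incl ℓ)), h⟩ ≠ 0 := by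
  rw [gaussRed_aeval]; exact aeval_jqModC_ne_zero hP

theorem redZl_eq_resZl : redZl ℓ = Zl13.resZl ℓ := Subsingleton.elim _ _

/-- `ℓ`-content of a nonzero polynomial over `ℤ_(ℓ)`. -/
theorem exists_content_Zl (g : (Zl ℓ)[X]) (hg : g ≠ 0) :
    ∃ (i : ℕ) (g₀ : (Zl ℓ)[X]), g₀.map (redZl ℓ) ≠ 0 ∧ g = C (ℓ : Zl ℓ) ^ i * g₀ := by
  obtain ⟨i, g₀, hnd, rfl⟩ := WfDvdMonoid.max_power_factor hg (Zl13.prime_C_ell ℓ).irreducible
  refine ⟨i, g₀, ?_, rfl⟩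
  rw [redZl_eq_resZl, Ne, Zl13.map_resZl_eq_zero_iff]
  exact hnd

/-- **`ℓ`-content extraction in `ℚ[X]`**: a nonzero `f ∈ ℚ[X]` is `ℓ^(i-j) f₀` with `f₀ ∈ ℤ_(ℓ)[X]`
of nonzero reduction. -/
theorem exists_content (f : ℚ[X]) (hf : f ≠ 0) :
    ∃ (i j : ℕ) (f₀ : (Zl ℓ)[X]), f₀.map (redZl ℓ) ≠ 0 ∧
      C ((ℓ : ℚ) ^ j) * f = C ((ℓ : ℚ) ^ i) * f₀.map (incl ℓ) := by
  obtain ⟨b, hbM, hb⟩ := IsLocalization.integerNormalization_spec
    (nonZeroDivisors (Zl ℓ)) f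
  have hb0 : (b : Zl ℓ) ≠ 0 := nonZeroDivisors.ne_zero hbM
  obtain ⟨j, u, hu⟩ := Zl13.exists_eq_pow_mul_unit ℓ hb0
  set g : (Zl ℓ)[X] := C ((u⁻¹ : (Zl ℓ)ˣ) : Zl ℓ) *
    IsLocalization.integerNormalization (nonZeroDivisors (Zl ℓ)) f with hgdef
  have halg : algebraMap (Zl ℓ) ℚ = incl ℓ := rfl
  have hgmap : g.map (incl ℓ) = C ((ℓ : ℚ) ^ j) * f := by
    rw [hgdef, Polynomial.map_mul, Polynomial.map_C, ← halg, hb, Algebra.smul_def,
      Polynomial.algebraMap_apply, ← mul_assoc, ← C_mul, halg, ← map_mul, hu]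
    congr 2
    rw [mul_left_comm, Units.inv_mul, mul_one, map_pow, map_natCast]
  have hl0 : ((ℓ : ℚ) ^ j) ≠ 0 := pow_ne_zero _ (Nat.cast_ne_zero.mpr hℓ.out.ne_zero)
  have hg0 : g ≠ 0 := by
    intro h0
    rw [h0, Polynomial.map_zero] at hgmap
    exact (mul_ne_zero (C_ne_zero.mpr hl0) hf) hgmap.symm
  obtain ⟨i, g₀, hg₀, hgi⟩ := exists_content_Zl ℓ g hg0
  refine ⟨i, j, g₀, hg₀, ?_⟩
  rw [← hgmap, hgi, Polynomial.map_mul, Polynomial.map_pow, Polynomial.map_C, C_pow]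
  simp

end ZlPoly

/-! ### Elements of `ℚ(j)` and the Gauss ring -/

section Qj

set_option linter.unusedSectionVars false

variable (ℓ : ℕ) [hℓ : Fact ℓ.Prime]

theorem algebraMap_ell_pow (j : ℕ) :
    algebraMap ℚ (LaurentSeries ℚ) ((ℓ : ℚ) ^ j) = (ℓ : LaurentSeries ℚ) ^ j := by
  rw [map_pow, map_natCast]

theorem aeval_mem_Qj (P : ℚ[X]) : aeval (jqModC ℚ) P ∈ ValInterface8.Qj :=
  IntermediateField.algebra_adjoin_le_adjoin ℚ _ (Polynomial.aeval_mem_adjoin_singleton ℚ _)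

theorem aeval_mem_kj (P : (ZMod ℓ)[X]) : aeval (jqModC (ZMod ℓ)) P ∈ ValInterface8.kj ℓ :=
  IntermediateField.algebra_adjoin_le_adjoin (ZMod ℓ) _
    (Polynomial.aeval_mem_adjoin_singleton (ZMod ℓ) _)

/-- `P(j)` as an element of the Gauss ring. -/
def polyG (P : (Zl ℓ)[X]) : gaussRing ℓ :=
  ⟨aeval (jqModC ℚ) (P.map (incl ℓ)), aeval_mem_gaussRing ℓ P⟩

theorem gaussRed_polyG (P : (Zl ℓ)[X]) :
    gaussRed ℓ (polyG ℓ P) = aeval (jqModC (ZMod ℓ)) (P.map (redZl ℓ)) :=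
  gaussRed_aeval ℓ P _

theorem gaussRed_polyG_ne_zero {P : (Zl ℓ)[X]} (hP : P.map (redZl ℓ) ≠ 0) :
    gaussRed ℓ (polyG ℓ P) ≠ 0 :=
  gaussRed_aeval_ne_zero ℓ hP _

/-- Every nonzero element of `ℚ(j)` is `ℓ^(i-j) f₀(j)/h₀(j)` with `f₀, h₀ ∈ ℤ_(ℓ)[X]` of nonzero
reduction. -/
theorem exists_rep {c : LaurentSeries ℚ} (hc : c ∈ ValInterface8.Qj) (hc0 : c ≠ 0) :
    ∃ (i j : ℕ) (f₀ h₀ : (Zl ℓ)[X]), f₀.map (redZl ℓ) ≠ 0 ∧ h₀.map (redZl ℓ) ≠ 0 ∧
      c * ((ℓ : LaurentSeries ℚ) ^ j * aeval (jqModC ℚ) (h₀.map (incl ℓ)))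
        = (ℓ : LaurentSeries ℚ) ^ i * aeval (jqModC ℚ) (f₀.map (incl ℓ)) := by
  obtain ⟨r, s, rfl⟩ := (IntermediateField.mem_adjoin_simple_iff ℚ c).mp hc
  have hs : s ≠ 0 := by
    rintro rfl
    apply hc0
    rw [map_zero, div_zero]
  have hr : r ≠ 0 := by
    rintro rfl
    apply hc0
    rw [map_zero, zero_div]
  have hsj : aeval jq s ≠ 0 := aeval_jqModC_ne_zero (K := ℚ) hs
  obtain ⟨i1, j1, r₀, hr₀, hr1⟩ := exists_content ℓ r hr
  obtain ⟨i2, j2, s₀, hs₀, hs1⟩ := exists_content ℓ s hs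
  have hr2 := congrArg (aeval (jqModC ℚ)) hr1
  have hs2 := congrArg (aeval (jqModC ℚ)) hs1
  rw [map_mul, map_mul, aeval_C, aeval_C, algebraMap_ell_pow, algebraMap_ell_pow] at hr2 hs2
  refine ⟨j2 + i1, i2 + j1, r₀, s₀, hr₀, hs₀, ?_⟩
  have hjq : jqModC ℚ = jq := rfl
  rw [hjq] at hr2 hs2 ⊢
  rw [_root_.pow_add, _root_.pow_add]
  calc aeval jq r / aeval jq s * ((ℓ : LaurentSeries ℚ) ^ i2 * (ℓ : LaurentSeries ℚ) ^ j1
          * aeval jq (s₀.map (incl ℓ)))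
      = aeval jq r / aeval jq s * ((ℓ : LaurentSeries ℚ) ^ j1 *
          ((ℓ : LaurentSeries ℚ) ^ i2 * aeval jq (s₀.map (incl ℓ)))) := by ring
    _ = aeval jq r / aeval jq s * ((ℓ : LaurentSeries ℚ) ^ j1 *
          ((ℓ : LaurentSeries ℚ) ^ j2 * aeval jq s)) := by rw [hs2]
    _ = (ℓ : LaurentSeries ℚ) ^ j2 * ((ℓ : LaurentSeries ℚ) ^ j1 * aeval jq r) := by
        field_simp
    _ = (ℓ : LaurentSeries ℚ) ^ j2 * ((ℓ : LaurentSeries ℚ) ^ i1 * aeval jq (r₀.map (incl ℓ))) := by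
        rw [hr2]
    _ = (ℓ : LaurentSeries ℚ) ^ j2 * (ℓ : LaurentSeries ℚ) ^ i1 * aeval jq (r₀.map (incl ℓ)) := by
        ring

/-- integral form: an element of `ℚ(j) ∩ gaussRing` is `f(j)/h(j)` with `f, h ∈ ℤ_(ℓ)[X]`,
`h̃ ≠ 0`; moreover its residue is `f̃(j̃)/h̃(j̃)`. -/
theorem exists_rep_of_mem_gaussRing {c : LaurentSeries ℚ} (hc : c ∈ ValInterface8.Qj)
    (hg : c ∈ gaussRing ℓ) :
    ∃ (f h : (Zl ℓ)[X]), h.map (redZl ℓ) ≠ 0 ∧
      c * aeval (jqModC ℚ) (h.map (incl ℓ)) = aeval (jqModC ℚ) (f.map (incl ℓ)) ∧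
      gaussRed ℓ ⟨c, hg⟩ = aeval (jqModC (ZMod ℓ)) (f.map (redZl ℓ)) /
        aeval (jqModC (ZMod ℓ)) (h.map (redZl ℓ)) := by
  by_cases hc0 : c = 0
  · subst hc0
    refine ⟨0, 1, by simp, by simp, ?_⟩
    have : (⟨0, hg⟩ : gaussRing ℓ) = 0 := rfl
    rw [this, map_zero, Polynomial.map_zero, map_zero, zero_div]
  obtain ⟨i, j, f₀, h₀, hf₀, hh₀, hrel⟩ := exists_rep ℓ hc hc0
  have hl := GaussRing18.ell_ne_zero ℓ
  have hH := gaussRed_polyG_ne_zero ℓ hh₀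
  have hF := gaussRed_polyG_ne_zero ℓ hf₀
  rcases le_or_gt j i with hji | hij
  · obtain ⟨m, rfl⟩ := Nat.exists_eq_add_of_le hji
    have hrel' : c * aeval (jqModC ℚ) (h₀.map (incl ℓ))
        = (ℓ : LaurentSeries ℚ) ^ m * aeval (jqModC ℚ) (f₀.map (incl ℓ)) := by
      apply mul_left_cancel₀ (pow_ne_zero j hl)
      rw [_root_.pow_add] at hrel
      rw [← mul_assoc, mul_comm _ c, mul_assoc, hrel]; ring
    have hG : (⟨c, hg⟩ : gaussRing ℓ) * polyG ℓ h₀ = ellG ℓ ^ m * polyG ℓ f₀ :=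
      Subtype.ext hrel'
    refine ⟨Polynomial.C (ℓ : Zl ℓ) ^ m * f₀, h₀, hh₀, ?_, ?_⟩
    · rw [hrel', Polynomial.map_mul, Polynomial.map_pow, Polynomial.map_C, map_mul, map_pow,
        aeval_C]
      congr 2
      simp
    · have := congrArg (gaussRed ℓ) hG
      rw [map_mul, map_mul, map_pow, gaussRed_polyG, gaussRed_polyG] at this
      rw [eq_div_iff (by rw [← gaussRed_polyG]; exact hH), this, Polynomial.map_mul,
        Polynomial.map_pow, Polynomial.map_C, map_mul, map_pow, aeval_C, gaussRed_ellG]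
      congr 2
      rw [map_natCast, ZMod.natCast_self, map_zero]
  · exfalso
    obtain ⟨m, rfl⟩ := Nat.exists_eq_add_of_lt hij
    have hrel' : c * ((ℓ : LaurentSeries ℚ) ^ (m + 1) * aeval (jqModC ℚ) (h₀.map (incl ℓ)))
        = aeval (jqModC ℚ) (f₀.map (incl ℓ)) := by
      apply mul_left_cancel₀ (pow_ne_zero i hl)
      rw [← hrel]; ring
    have hG : (⟨c, hg⟩ : gaussRing ℓ) * (ellG ℓ ^ (m + 1) * polyG ℓ h₀) = polyG ℓ f₀ :=
      Subtype.ext hrel'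
    have := congrArg (gaussRed ℓ) hG
    rw [map_mul, map_mul, map_pow, gaussRed_ellG, zero_pow (Nat.succ_ne_zero m), zero_mul,
      mul_zero] at this
    exact hF this.symm

/-- **(OV1)** the residue field of the Gauss ring on `ℚ(j)` is `k(j̃)`: residues of elements of
`ℚ(j) ∩ gaussRing` lie in `k(j̃)`. -/
theorem gaussRed_mem_kj {c : LaurentSeries ℚ} (hc : c ∈ ValInterface8.Qj) (hg : c ∈ gaussRing ℓ) :
    gaussRed ℓ ⟨c, hg⟩ ∈ ValInterface8.kj ℓ := by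
  obtain ⟨f, h, -, -, hred⟩ := exists_rep_of_mem_gaussRing ℓ hc hg
  rw [hred]
  exact div_mem (aeval_mem_kj ℓ _) (aeval_mem_kj ℓ _)

/-- Conversely `f(j)/h(j)`, `h̃ ≠ 0`, lies in `ℚ(j) ∩ gaussRing`. -/
theorem mem_of_rep {c : LaurentSeries ℚ} (f h : (Zl ℓ)[X]) (hh : h.map (redZl ℓ) ≠ 0)
    (hrel : c * aeval (jqModC ℚ) (h.map (incl ℓ)) = aeval (jqModC ℚ) (f.map (incl ℓ))) :
    c ∈ ValInterface8.Qj ∧ c ∈ gaussRing ℓ := by
  have hH := gaussRed_polyG_ne_zero ℓ hh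
  have hH0 : aeval (jqModC ℚ) (h.map (incl ℓ)) ≠ 0 := by
    intro h0
    apply hH
    have : polyG ℓ h = 0 := Subtype.ext h0
    rw [this, map_zero]
  have hc : c = aeval (jqModC ℚ) (f.map (incl ℓ)) * (aeval (jqModC ℚ) (h.map (incl ℓ)))⁻¹ := by
    rw [← hrel, mul_assoc, mul_inv_cancel₀ hH0, mul_one]
  constructor
  · rw [hc]
    exact mul_mem (aeval_mem_Qj _) (inv_mem (aeval_mem_Qj _))
  · rw [hc]
    exact mul_mem (aeval_mem_gaussRing ℓ f) (inv_mem_of_gaussRed_ne_zero ℓ (polyG ℓ h) hH)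

/-- surjectivity of the residue map `ℚ(j) ∩ gaussRing → k(j̃)`. -/
theorem exists_gaussRed_eq {y : LaurentSeries (ZMod ℓ)} (hy : y ∈ ValInterface8.kj ℓ) :
    ∃ (c : LaurentSeries ℚ) (_ : c ∈ ValInterface8.Qj) (hg : c ∈ gaussRing ℓ),
      gaussRed ℓ ⟨c, hg⟩ = y := by
  obtain ⟨r, s, rfl⟩ := (IntermediateField.mem_adjoin_simple_iff (ZMod ℓ) y).mp hy
  by_cases hs : s = 0
  · subst hs
    refine ⟨0, zero_mem _, zero_mem _, ?_⟩
    have : (⟨0, zero_mem _⟩ : gaussRing ℓ) = 0 := rfl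
    rw [this, map_zero, map_zero, div_zero]
  obtain ⟨f, rfl⟩ := Polynomial.map_surjective (redZl ℓ) (redZl_surjective ℓ) r
  obtain ⟨h, rfl⟩ := Polynomial.map_surjective (redZl ℓ) (redZl_surjective ℓ) s
  have hH := gaussRed_polyG_ne_zero ℓ hs
  have hH0 : aeval (jqModC ℚ) (h.map (incl ℓ)) ≠ 0 := by
    intro h0
    apply hH
    have : polyG ℓ h = 0 := Subtype.ext h0
    rw [this, map_zero]
  have hrel : aeval (jqModC ℚ) (f.map (incl ℓ)) / aeval (jqModC ℚ) (h.map (incl ℓ))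
      * aeval (jqModC ℚ) (h.map (incl ℓ)) = aeval (jqModC ℚ) (f.map (incl ℓ)) :=
    div_mul_cancel₀ _ hH0
  obtain ⟨h1, h2⟩ := mem_of_rep ℓ f h hs hrel
  refine ⟨_, h1, h2, ?_⟩
  have hG : (⟨_, h2⟩ : gaussRing ℓ) * polyG ℓ h = polyG ℓ f := Subtype.ext hrel
  have := congrArg (gaussRed ℓ) hG
  rw [map_mul, gaussRed_polyG, gaussRed_polyG] at this
  rw [eq_div_iff (by rw [← gaussRed_polyG]; exact hH), this]

end Qj

end Fermat.Agent.IG.VAL.OvBasics22
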