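/-
Program G (S28, Igusa), chapter IG/VAL, block (F2) half (a) (helper15).

`L_M = k(x̃_d : d ∣ M)` is generated AS A RING by `k(j̃)` and the `x̃_d` (they are algebraic over
`k(j̃)` by `XdIntegral15`).  Hence any subring of `k((q))` containing `k(j̃)` and the `x̃_d`, `d ∣ M`,
contains `L_M`.

MAIN RESULTS
* `le_subring_of_isAlgebraic` : abstract (field `F`, intermediate field `K₀`, algebraic generators).
* `lcC_le_subring` : any coefficient field `K`.
* `lc_le_subring`  : `K = ZMod ℓ`, in the notation of `ValInterface8` (`LC ℓ M`, `kj ℓ`, `xdC`).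
-/
import Mathlib
import Fermat.Agent.IG.VAL.XdIntegral15

set_option autoImplicit false

noncomputable section

namespace Fermat.Agent.IG.VAL.LCAdjoin15

open ModularCurve Polynomial IntermediateField
open Fermat.Agent.IG Fermat.Agent.IG.PR Fermat.Agent.IG.VAL.ValInterface8

/-- Abstract form: `K₀ ⊂ E` an intermediate field of `E/F`, `S ⊂ E` a set of elements algebraic over
`K₀`.  A subring `T` of `E` containing `K₀` and `S` contains the field `F(S)`. -/
theorem le_subring_of_isAlgebraic {F E : Type*} [Field F] [Field E] [Algebra F E]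
    (K₀ : IntermediateField F E) (S : Set E) (hS : ∀ x ∈ S, IsAlgebraic ↥K₀ x)
    (T : Subring E) (hK₀ : ∀ y ∈ K₀, y ∈ T) (hST : S ⊆ (T : Set E)) :
    ∀ y ∈ IntermediateField.adjoin F S, y ∈ T := by
  -- `T` as a `K₀`-subalgebra
  let T' : Subalgebra ↥K₀ E :=
    { T.toSubsemiring with
      algebraMap_mem' := fun c => hK₀ (c : E) c.2 }
  have h1 : (IntermediateField.adjoin ↥K₀ S).toSubalgebra = Algebra.adjoin ↥K₀ S :=
    IntermediateField.adjoin_toSubalgebra_of_isAlgebraic hS
  have h2 : Algebra.adjoin ↥K₀ S ≤ T' := Algebra.adjoin_le hST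
  have h3 : IntermediateField.adjoin F S ≤
      (IntermediateField.adjoin ↥K₀ S).restrictScalars F := by
    rw [IntermediateField.adjoin_le_iff]
    intro x hx
    exact IntermediateField.subset_adjoin ↥K₀ S hx
  intro y hy
  have hy' : y ∈ (IntermediateField.adjoin ↥K₀ S).toSubalgebra := h3 hy
  rw [h1] at hy'
  exact h2 hy'

section Level

variable (M : ℕ)
  (hP0 : ∀ r : ℕ, r.Prime → r ∣ M → ∀ _ : NeZero r, Interface20.P0 r)

include hP0

/-- Any coefficient field `K`: a subring of `K((q))` containing `K(j̃)` and the `x̃_d`, `d ∣ M`,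
contains `L_M = modularFunctionFieldFullC K M`. -/
theorem lcC_le_subring (K : Type) [Field K] (T : Subring (LaurentSeries K))
    (hkj : ∀ y ∈ IntermediateField.adjoin K ({jqModC K} : Set (LaurentSeries K)), y ∈ T)
    (hxd : ∀ (d : ℕ) (_ : NeZero d), d ∣ M → xdC K d ∈ T) :
    ∀ y ∈ modularFunctionFieldFullC K M, y ∈ T := by
  refine le_subring_of_isAlgebraic
    (IntermediateField.adjoin K ({jqModC K} : Set (LaurentSeries K)))
    (divisorExpansionsC K M) ?_ T hkj ?_
  · rintro x ⟨d, hd0, hdM, rfl⟩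
    exact (XdIntegral15.xdC_isIntegral_adjoinField M hP0 K d hdM).isAlgebraic
  · rintro x ⟨d, hd0, hdM, rfl⟩
    exact hxd d hd0 hdM

/-- `K = ZMod ℓ`: a subring of `k((q))` containing `k(j̃) = kj ℓ` and the `x̃_d`, `d ∣ M`, contains
`L_M = LC ℓ M`. -/
theorem lc_le_subring (ℓ : ℕ) [Fact ℓ.Prime] (T : Subring (LaurentSeries (ZMod ℓ)))
    (hkj : ∀ y ∈ kj ℓ, y ∈ T)
    (hxd : ∀ (d : ℕ) (_ : NeZero d), d ∣ M → xdC (ZMod ℓ) d ∈ T) :
    ∀ y ∈ LC ℓ M, y ∈ T :=
  lcC_le_subring M hP0 (ZMod ℓ) T hkj hxd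

end Level

end Fermat.Agent.IG.VAL.LCAdjoin15
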