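/-
Program G (S28, Igusa), chapter IG/VAL, block (F2) (helper15).

The residues of `B_M = G ∩ FF M` (`G` = helper18's Gauss ring `gaussRing ℓ ⊂ ℚ((q))`, residue map
`gaussRed ℓ`) contain `L_M = LC ℓ M = k(x̃_d : d ∣ M)`:

  **(F2)**  `∀ y ∈ LC ℓ M, ∃ f ∈ G ∩ FF M, gaussRed f = y`.

Proof: the residues of `G ∩ E` (`E` an intermediate field of `ℚ((q))/ℚ`) form a subring `resRing ℓ E`
of `k((q))`; `resRing ℓ (FF M)` contains `kj ℓ = k(j̃)` (hypothesis `KjSurj ℓ` = (OV1') of block (OV),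
helper22: residues of `ℚ(j) ∩ G` cover `k(j̃)`) and the `x̃_d`, `d ∣ M` (`GaussRing18.gaussRed_xd`),
hence `L_M` by `LCAdjoin15.lc_le_subring` (the `x̃_d` are algebraic over `k(j̃)`, from `P0`).
-/
import Mathlib
import Fermat.Agent.IG.VAL.GaussRing18
import Fermat.Agent.IG.VAL.LCAdjoin15

set_option autoImplicit false

noncomputable section

namespace Fermat.Agent.IG.VAL.ResidueField15

open ModularCurve Polynomial IntermediateField
open Fermat.Agent.IG Fermat.Agent.IG.PR Fermat.Agent.IG.VAL.ValInterface8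
open Fermat.Agent.IG.VAL.ZlRed18 Fermat.Agent.IG.VAL.GaussRing18

variable (ℓ : ℕ) [Fact ℓ.Prime]

/-- The subring of `k((q))` of residues of `G ∩ E`. -/
def resRing (E : IntermediateField ℚ (LaurentSeries ℚ)) : Subring (LaurentSeries (ZMod ℓ)) :=
  (E.toSubring.comap (gaussRing ℓ).subtype).map (gaussRed ℓ)

theorem mem_resRing_iff (E : IntermediateField ℚ (LaurentSeries ℚ))
    (y : LaurentSeries (ZMod ℓ)) :
    y ∈ resRing ℓ E ↔
      ∃ (f : LaurentSeries ℚ) (hf : f ∈ gaussRing ℓ), f ∈ E ∧ gaussRed ℓ ⟨f, hf⟩ = y := by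
  constructor
  · rintro ⟨f, hf, rfl⟩
    exact ⟨f.1, f.2, hf, rfl⟩
  · rintro ⟨f, hf, hfE, rfl⟩
    exact ⟨⟨f, hf⟩, hfE, rfl⟩

theorem resRing_mono {E E' : IntermediateField ℚ (LaurentSeries ℚ)} (h : E ≤ E') :
    resRing ℓ E ≤ resRing ℓ E' := by
  intro y hy
  rw [mem_resRing_iff] at hy ⊢
  obtain ⟨f, hf, hfE, rfl⟩ := hy
  exact ⟨f, hf, h hfE, rfl⟩

/-- **(OV1')** (block (OV)): the residues of `ℚ(j) ∩ G` cover `k(j̃)`. -/
def KjSurj : Prop :=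
  ∀ y ∈ kj ℓ, ∃ (c : LaurentSeries ℚ) (hc : c ∈ gaussRing ℓ), c ∈ Qj ∧ gaussRed ℓ ⟨c, hc⟩ = y

theorem kjSurj_iff : KjSurj ℓ ↔ ∀ y ∈ kj ℓ, y ∈ resRing ℓ Qj := by
  unfold KjSurj
  simp only [mem_resRing_iff]

/-- `ℚ(j) ⊂ FF M`. -/
theorem Qj_le_full (M : ℕ) : Qj ≤ modularFunctionFieldFull M := by
  rw [Qj, IntermediateField.adjoin_le_iff]
  rintro x rfl
  have h := jqd_mem_full M (one_dvd M)
  rwa [qExpand_one_apply] at h

/-- `x̃_d` is a residue of `G ∩ FF M` for `d ∣ M`. -/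
theorem xdC_mem_resRing (M d : ℕ) [NeZero d] (hd : d ∣ M) :
    xdC (ZMod ℓ) d ∈ resRing ℓ (modularFunctionFieldFull M) := by
  rw [mem_resRing_iff]
  exact ⟨qExpand ℚ d (jqModC ℚ), xd_mem_gaussRing ℓ d, jqd_mem_full M hd, gaussRed_xd ℓ d⟩

section F2

variable (M : ℕ)
  (hP0 : ∀ r : ℕ, r.Prime → r ∣ M → ∀ _ : NeZero r, Interface20.P0 r)
  (hOV : KjSurj ℓ)

include hP0 hOV

/-- `L_M ⊂` residues of `G ∩ FF M` (subring form). -/
theorem lc_le_resRing : ∀ y ∈ LC ℓ M, y ∈ resRing ℓ (modularFunctionFieldFull M) := by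
  refine LCAdjoin15.lc_le_subring M hP0 ℓ _ ?_ ?_
  · intro y hy
    exact resRing_mono ℓ (Qj_le_full M) ((kjSurj_iff ℓ).mp hOV y hy)
  · intro d hd0 hdM
    exact xdC_mem_resRing ℓ M d hdM

/-- **(F2)**: every element of `L_M` is the residue of an element of `G ∩ FF M`. -/
theorem f2 : ∀ y ∈ LC ℓ M, ∃ (f : LaurentSeries ℚ) (hf : f ∈ gaussRing ℓ),
    f ∈ modularFunctionFieldFull M ∧ gaussRed ℓ ⟨f, hf⟩ = y := fun y hy =>
  (mem_resRing_iff ℓ _ y).mp (lc_le_resRing ℓ M hP0 hOV y hy)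

/-- **(F2)**, `gaussVS` form: every element of `L_M` is the residue of an element of the Gauss
valuation ring of `FF M`. -/
theorem f2_gaussVS : ∀ y ∈ LC ℓ M,
    ∃ f : ↥(gaussVS ℓ (modularFunctionFieldFull M) (full_le_fracField ℓ M)),
      gaussVSRed ℓ (modularFunctionFieldFull M) (full_le_fracField ℓ M) f = y := by
  intro y hy
  obtain ⟨f, hf, hfM, rfl⟩ := f2 ℓ M hP0 hOV y hy
  exact ⟨⟨⟨f, hfM⟩, (mem_gaussVS_iff ℓ _ _ _).mpr hf⟩, rfl⟩

end F2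

end Fermat.Agent.IG.VAL.ResidueField15
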