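/-
Program G (S28, Igusa), chapter IG/VAL (helper15): UNCONDITIONAL forms of block V5 and block (F2),
plugging `ModPoly3.p0` (helper3: `Interface20.P0 p` for every prime `p`) and
`OvBasics22.exists_gaussRed_eq` (helper22: (OV1')) into `XdIntegral15`, `LCAdjoin15`,
`ResidueField15`.

* `p0_all`           : `∀ r prime, r ∣ N → P0 r` (the hypothesis shape of XdIntegral15 etc.).
* `xdIntegral N`     : `ValInterface8.XdIntegral N`.
* `xd_isIntegral_Ov`, `xd_isIntegral_Qj`, `xdC_isIntegral_kj`, `xdC_isAlgebraic_kj`,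
  `xdC_isIntegral_adjoin`.
* `kjSurj ℓ`         : `ResidueField15.KjSurj ℓ`.
* `lc_le_subring`    : a subring of `k((q))` containing `k(j̃)` and the `x̃_d`, `d ∣ M`, contains `L_M`.
* `f2`, `f2_gaussVS` : **(F2)** every element of `L_M` is the residue of an element of `G ∩ FF M`.
-/
import Mathlib
import Fermat.Agent.IG.AN.ModPoly3
import Fermat.Agent.IG.VAL.OvBasics22
import Fermat.Agent.IG.VAL.ResidueField15

set_option autoImplicit false

noncomputable section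

namespace Fermat.Agent.IG.VAL.F2Final15

open ModularCurve ModularCurve.IgusaScheme Polynomial IntermediateField
open Fermat.Agent.IG Fermat.Agent.IG.PR Fermat.Agent.IG.VAL.ValInterface8
open Fermat.Agent.IG.VAL.ZlRed18 Fermat.Agent.IG.VAL.GaussRing18

/-- `P0 r` for all primes `r ∣ N`, in the hypothesis shape used by `XdIntegral15` & co. -/
theorem p0_all (N : ℕ) : ∀ r : ℕ, r.Prime → r ∣ N → ∀ _ : NeZero r, Interface20.P0 r :=
  fun r hr _ _ => AN.ModPoly3.p0 r hr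

/-- **V5**, unconditional: `x_d` is integral over `ℤ[j]` for all `d ∣ N`. -/
theorem xdIntegral (N : ℕ) : XdIntegral N := XdIntegral15.xdIntegral N (p0_all N)

theorem xd_isIntegral_Ov (N : ℕ) [NeZero N] (ℓ : ℕ) [Fact ℓ.Prime] (d : ℕ) [NeZero d]
    (hdN : d ∣ N) : IsIntegral ↥(Ov ℓ N) (xd N d hdN) :=
  XdIntegral15.xd_isIntegral_Ov N (p0_all N) ℓ d hdN

theorem xd_isIntegral_Qj (d : ℕ) [NeZero d] : IsIntegral ↥Qj (qExpand ℚ d jq) :=
  XdIntegral15.xd_isIntegral_Qj d (p0_all d) d dvd_rfl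

theorem xdC_isIntegral_adjoin (K : Type) [CommRing K] (d : ℕ) [NeZero d] :
    IsIntegral ↥(Algebra.adjoin K ({jqModC K} : Set (LaurentSeries K))) (xdC K d) :=
  XdIntegral15.xdC_isIntegral_adjoin d (p0_all d) K d dvd_rfl

theorem xdC_isIntegral_kj (ℓ : ℕ) [Fact ℓ.Prime] (d : ℕ) [NeZero d] :
    IsIntegral ↥(kj ℓ) (xdC (ZMod ℓ) d) :=
  XdIntegral15.xdC_isIntegral_kj d (p0_all d) ℓ d dvd_rfl

theorem xdC_isAlgebraic_kj (ℓ : ℕ) [Fact ℓ.Prime] (d : ℕ) [NeZero d] :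
    IsAlgebraic ↥(kj ℓ) (xdC (ZMod ℓ) d) :=
  (xdC_isIntegral_kj ℓ d).isAlgebraic

variable (ℓ : ℕ) [Fact ℓ.Prime]

/-- (OV1') in the shape of `ResidueField15`. -/
theorem kjSurj : ResidueField15.KjSurj ℓ := by
  intro y hy
  obtain ⟨c, hc, hg, h⟩ := OvBasics22.exists_gaussRed_eq ℓ hy
  exact ⟨c, hg, hc, h⟩

/-- A subring of `k((q))` containing `k(j̃)` and the `x̃_d`, `d ∣ M`, contains `L_M`. -/
theorem lc_le_subring (M : ℕ) (T : Subring (LaurentSeries (ZMod ℓ)))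
    (hkj : ∀ y ∈ kj ℓ, y ∈ T)
    (hxd : ∀ (d : ℕ) (_ : NeZero d), d ∣ M → xdC (ZMod ℓ) d ∈ T) :
    ∀ y ∈ LC ℓ M, y ∈ T :=
  LCAdjoin15.lc_le_subring M (p0_all M) ℓ T hkj hxd

/-- **(F2)**, unconditional: every element of `L_M` is the residue of an element of `G ∩ FF M`. -/
theorem f2 (M : ℕ) : ∀ y ∈ LC ℓ M, ∃ (f : LaurentSeries ℚ) (hf : f ∈ gaussRing ℓ),
    f ∈ modularFunctionFieldFull M ∧ gaussRed ℓ ⟨f, hf⟩ = y :=
  ResidueField15.f2 ℓ M (p0_all M) (kjSurj ℓ)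

/-- **(F2)**, unconditional, `gaussVS` form. -/
theorem f2_gaussVS (M : ℕ) : ∀ y ∈ LC ℓ M,
    ∃ f : ↥(gaussVS ℓ (modularFunctionFieldFull M) (full_le_fracField ℓ M)),
      gaussVSRed ℓ (modularFunctionFieldFull M) (full_le_fracField ℓ M) f = y :=
  ResidueField15.f2_gaussVS ℓ M (p0_all M) (kjSurj ℓ)

end Fermat.Agent.IG.VAL.F2Final15
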