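/-
Program G (S28, Igusa), chapter IG/VAL, helper8: the ABSTRACT heart of blueprint §1 (b)
(valuation-free form).

Setting: fields `K₀ ⊂ E` (think `ℚ(j) ⊂ FF_N`) and `κ ⊂ Λ` (think `k(j̃) ⊂ k((q))`), a subring
`O ⊂ K₀` (think `O_v`), a subring `C ⊂ E` containing `O` (think `C0 = O_v[x_d]`), ring homs
`ρ₀ : O → κ`, `ρ : C → Λ` compatible on `O` (the reductions), and the FAMILY SCALING property of `O`:
every finite family of `K₀`, not all zero, can be scaled into `O` with some member of nonzero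
reduction (true for a DVR with uniformiser `π`, `ρ₀` its residue map).

* `linearIndependent_lift` : lifts (along `ρ`) of a `κ`-linearly independent family of `Λ` are
  `K₀`-linearly independent in `E`;
* `card_le_of_linearIndependent` (UB): if every `K₀`-independent family of `E` has at most `D` members,
  so has every `κ`-independent family inside `ρ(C)`;
* `exists_eq_mul_of_red_eq_zero` (KER): if moreover `ρ(C)` contains `D` elements independent over `κ`,
  `ker ρ₀ = π O` and elements of `O` with nonzero reduction are units, then `ker ρ = π C`.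
-/
import Mathlib

set_option autoImplicit false

namespace Fermat.Agent.IG.VAL.LiftIndep8

open Function

variable {K₀ E κ Λ : Type*} [Field K₀] [Field E] [Algebra K₀ E] [Field κ] [Field Λ] [Algebra κ Λ]

/-- The family scaling property of `(O, ρ₀)`. -/
def FamilyScaling (O : Subring K₀) (ρ₀ : ↥O →+* κ) : Prop :=
  ∀ (n : ℕ) (f : Fin n → K₀), f ≠ 0 →
    ∃ c : K₀, c ≠ 0 ∧ ∃ hmem : ∀ i, c * f i ∈ O, ∃ i, ρ₀ ⟨c * f i, hmem i⟩ ≠ 0

variable (O : Subring K₀) (C : Subring E) (hOC : ∀ x ∈ O, algebraMap K₀ E x ∈ C)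
  (ρ : ↥C →+* Λ) (ρ₀ : ↥O →+* κ)
  (hρ : ∀ x : ↥O, ρ ⟨algebraMap K₀ E x, hOC x x.2⟩ = algebraMap κ Λ (ρ₀ x))

include hρ in
/-- A relation with coefficients in `O` among elements of `C` reduces to a relation among the
reductions. -/
theorem sum_red_eq_zero {n : ℕ} (a : Fin n → ↥O) (γ : Fin n → ↥C)
    (h : ∑ i, algebraMap K₀ E (a i) * (γ i : E) = 0) :
    ∑ i, ρ₀ (a i) • ρ (γ i) = 0 := by
  have h1 : ∑ i, (⟨algebraMap K₀ E (a i), hOC _ (a i).2⟩ : ↥C) * γ i = 0 := by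
    apply Subtype.ext
    rw [Subring.coe_zero, ← h]
    simp only [AddSubmonoidClass.coe_finsetSum, Subring.coe_mul]
  have h2 := congrArg ρ h1
  rw [map_sum, map_zero] at h2
  rw [← h2]
  refine Finset.sum_congr rfl fun i _ => ?_
  rw [map_mul, hρ, Algebra.smul_def]

include hρ in
/-- **Lifting linear independence.** -/
theorem linearIndependent_lift (hsc : FamilyScaling O ρ₀) {n : ℕ} (γ : Fin n → ↥C)
    (hy : LinearIndependent κ fun i => ρ (γ i)) :
    LinearIndependent K₀ fun i => (γ i : E) := by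
  rw [Fintype.linearIndependent_iff]
  intro g hg
  by_contra hne
  have hg0 : g ≠ 0 := fun h0 => hne fun i => by rw [h0]; rfl
  obtain ⟨c, -, hmem, i₀, hi₀⟩ := hsc n g hg0
  have hrel : ∑ i, algebraMap K₀ E ((⟨c * g i, hmem i⟩ : ↥O) : K₀) * (γ i : E) = 0 := by
    have : ∑ i, algebraMap K₀ E (c * g i) * (γ i : E) = c • ∑ i, g i • (γ i : E) := by
      rw [Finset.smul_sum]
      refine Finset.sum_congr rfl fun i _ => ?_
      rw [map_mul, Algebra.smul_def, Algebra.smul_def, mul_assoc]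
    rw [this, hg, smul_zero]
  have hred := sum_red_eq_zero O C hOC ρ ρ₀ hρ (fun i => ⟨c * g i, hmem i⟩) γ hrel
  exact hi₀ (Fintype.linearIndependent_iff.1 hy _ hred i₀)

include hρ in
/-- **(UB)**: the dimension bound passes from `(K₀, E)` to `(κ, ρ(C))`. -/
theorem card_le_of_linearIndependent (hsc : FamilyScaling O ρ₀) {D : ℕ}
    (hdeg : ∀ (n : ℕ) (c : Fin n → E), LinearIndependent K₀ c → n ≤ D)
    {n : ℕ} (y : Fin n → Λ) (hyρ : ∀ i, ∃ γ : ↥C, ρ γ = y i) (hy : LinearIndependent κ y) :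
    n ≤ D := by
  choose γ hγ using hyρ
  have hy' : LinearIndependent κ fun i => ρ (γ i) := by
    have : (fun i => ρ (γ i)) = y := funext hγ
    rw [this]; exact hy
  exact hdeg n _ (linearIndependent_lift O C hOC ρ ρ₀ hρ hsc γ hy')

include hρ in
/-- **(KER)**: if `ρ(C)` contains `D` elements independent over `κ`, where `D` bounds the size of
`K₀`-independent families of `E`, then `ker ρ = π C`. -/
theorem exists_eq_mul_of_red_eq_zero (hsc : FamilyScaling O ρ₀) {D : ℕ}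
    (hdeg : ∀ (n : ℕ) (c : Fin n → E), LinearIndependent K₀ c → n ≤ D)
    (π : ↥O) (hker₀ : ∀ a : ↥O, ρ₀ a = 0 → ∃ a' : ↥O, a = π * a')
    (hunit₀ : ∀ a : ↥O, ρ₀ a ≠ 0 → IsUnit a)
    (γ : Fin D → ↥C) (hy : LinearIndependent κ fun i => ρ (γ i))
    (δ : ↥C) (hδ : ρ δ = 0) :
    ∃ ε : ↥C, δ = (⟨algebraMap K₀ E π, hOC _ π.2⟩ : ↥C) * ε := by
  classical
  -- the family `(δ, γ₀, …, γ_{D-1})` is dependent over `K₀`
  have hdep : ¬ LinearIndependent K₀ fun i : Fin (D + 1) => ((Fin.cons δ γ : Fin (D + 1) → ↥C) i : E) :=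
    fun h => absurd (hdeg _ _ h) (by omega)
  rw [Fintype.not_linearIndependent_iff] at hdep
  obtain ⟨g, hg, j, hj⟩ := hdep
  have hg0 : g ≠ 0 := fun h0 => hj (by rw [h0]; rfl)
  obtain ⟨c, -, hmem, i₀, hi₀⟩ := hsc _ g hg0
  set a : Fin (D + 1) → ↥O := fun i => ⟨c * g i, hmem i⟩ with ha
  have hrel : ∑ i, algebraMap K₀ E (a i) * ((Fin.cons δ γ : Fin (D + 1) → ↥C) i : E) = 0 := by
    have : ∑ i, algebraMap K₀ E (c * g i) * ((Fin.cons δ γ : Fin (D + 1) → ↥C) i : E) =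
        c • ∑ i, g i • ((Fin.cons δ γ : Fin (D + 1) → ↥C) i : E) := by
      rw [Finset.smul_sum]
      refine Finset.sum_congr rfl fun i _ => ?_
      rw [map_mul, Algebra.smul_def, Algebra.smul_def, mul_assoc]
    rw [show (∑ i, algebraMap K₀ E (a i) * ((Fin.cons δ γ : Fin (D + 1) → ↥C) i : E)) =
      ∑ i, algebraMap K₀ E (c * g i) * ((Fin.cons δ γ : Fin (D + 1) → ↥C) i : E) from rfl,
      this, hg, smul_zero]
  have hred := sum_red_eq_zero O C hOC ρ ρ₀ hρ a (Fin.cons δ γ) hrel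
  rw [Fin.sum_univ_succ] at hred
  simp only [Fin.cons_zero, Fin.cons_succ, hδ, smul_zero, zero_add] at hred
  have hzero : ∀ i : Fin D, ρ₀ (a i.succ) = 0 := Fintype.linearIndependent_iff.1 hy _ hred
  -- so the coefficient of `δ` has nonzero reduction, hence is a unit of `O`
  have h0 : ρ₀ (a 0) ≠ 0 := by
    rcases Fin.eq_zero_or_eq_succ i₀ with rfl | ⟨i, rfl⟩
    · exact hi₀
    · exact absurd (hzero i) hi₀
  obtain ⟨u, hu⟩ := hunit₀ _ h0
  choose a' ha' using fun i : Fin D => hker₀ _ (hzero i)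
  -- solve for `δ`
  rw [Fin.sum_univ_succ] at hrel
  simp only [Fin.cons_zero, Fin.cons_succ] at hrel
  refine ⟨-((⟨algebraMap K₀ E ((↑u⁻¹ : ↥O) : K₀), hOC _ (↑u⁻¹ : ↥O).2⟩ : ↥C) *
    ∑ i, (⟨algebraMap K₀ E (a' i), hOC _ (a' i).2⟩ : ↥C) * γ i), ?_⟩
  apply Subtype.ext
  simp only [Subring.coe_mul, NegMemClass.coe_neg, AddSubmonoidClass.coe_finsetSum]
  have hu' : algebraMap K₀ E ((↑u⁻¹ : ↥O) : K₀) * algebraMap K₀ E (a 0 : K₀) = 1 := by
    rw [← map_mul, ← Subring.coe_mul, ← hu, Units.inv_mul, Subring.coe_one, map_one]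
  have hsum : ∑ i : Fin D, algebraMap K₀ E (a i.succ : K₀) * (γ i : E) =
      algebraMap K₀ E (π : K₀) * ∑ i : Fin D, algebraMap K₀ E (a' i : K₀) * (γ i : E) := by
    rw [Finset.mul_sum]
    refine Finset.sum_congr rfl fun i _ => ?_
    rw [ha' i, Subring.coe_mul, map_mul, mul_assoc]
  rw [hsum] at hrel
  have hδE : (δ : E) = -(algebraMap K₀ E ((↑u⁻¹ : ↥O) : K₀) *
      (algebraMap K₀ E (π : K₀) * ∑ i : Fin D, algebraMap K₀ E (a' i : K₀) * (γ i : E))) := by
    have h3 : algebraMap K₀ E (a 0 : K₀) * (δ : E) =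
        -(algebraMap K₀ E (π : K₀) * ∑ i : Fin D, algebraMap K₀ E (a' i : K₀) * (γ i : E)) :=
      eq_neg_of_add_eq_zero_left hrel
    calc (δ : E) = (algebraMap K₀ E ((↑u⁻¹ : ↥O) : K₀) * algebraMap K₀ E (a 0 : K₀)) * (δ : E) := by
          rw [hu', one_mul]
      _ = algebraMap K₀ E ((↑u⁻¹ : ↥O) : K₀) * (algebraMap K₀ E (a 0 : K₀) * (δ : E)) := by ring
      _ = _ := by rw [h3]; ring
  rw [hδE]
  ring

end Fermat.Agent.IG.VAL.LiftIndep8
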