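/-
Program G (S28, Igusa), chapter IG/VAL, helper8: the IRR-independent UPPER BOUND
`UBDef8.UB ℓ M` (`[L_M : k(j̃)] ≤ ψ(M)`), from
* `DegLe M` (AN: `[FF_M : ℚ(j)] ≤ ψ(M)`, family form),
* `OV1 ℓ` (helper22: the Gauss residue of an element of `ℚ(j)` lies in `k(j̃)`),
* `ResidueContains ℓ M` (F2: every element of `L_M` is the Gauss residue of an element of `FF_M`),
by `LiftIndep8.linearIndependent_lift` applied to helper18's Gauss ring
(`K₀ = ℚ(j)`, `O = gaussVS ℓ ℚ(j)`, `C = gaussRing ℓ`, `ρ = gaussRed ℓ`).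
Also: `familyScaling_valuationSubring` (any valuation subring has the family scaling property) and
the unit criterion for `O_v`.
-/
import Mathlib
import Fermat.Agent.IG.VAL.LiftIndep8
import Fermat.Agent.IG.VAL.UBDef8
import Fermat.Agent.IG.VAL.GaussRing18

set_option autoImplicit false

noncomputable section

namespace Fermat.Agent.IG.VAL.UpperBound8

open ModularCurve Fermat.Agent.IG.VAL.ValInterface8 Fermat.Agent.IG.VAL.LiftIndep8
open Fermat.Agent.IG.VAL.GaussRing18 Fermat.Agent.IG.VAL.ZlRed18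

/-! ### Valuation subrings have the family scaling property -/

section Abstract

variable {K₀ κ : Type*} [Field K₀] [Field κ]

/-- In a valuation subring `A` of `K₀`, a finite family of `K₀`, not all zero, can be divided by one
of its members so that all members land in `A` and one of them becomes `1`. -/
theorem familyScaling_valuationSubring (A : ValuationSubring K₀) (ρ₀ : ↥A.toSubring →+* κ) :
    FamilyScaling A.toSubring ρ₀ := by
  intro n f hf
  classical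
  -- an index of maximal valuation
  have hne : (Finset.univ : Finset (Fin n)).Nonempty := by
    by_contra h
    rw [Finset.not_nonempty_iff_eq_empty, Finset.univ_eq_empty_iff] at h
    exact hf (funext fun i => (h.false i).elim)
  obtain ⟨i₀, -, hi₀⟩ := Finset.exists_max_image Finset.univ (fun i => A.valuation (f i)) hne
  have hfi₀ : f i₀ ≠ 0 := by
    intro h0
    apply hf
    funext i
    have := hi₀ i (Finset.mem_univ i)
    rw [h0, map_zero] at this
    exact (map_eq_zero _).1 (le_antisymm this zero_le)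
  have hmem : ∀ i, (f i₀)⁻¹ * f i ∈ A.toSubring := by
    intro i
    show (f i₀)⁻¹ * f i ∈ A
    rw [← A.valuation_le_one_iff, map_mul, map_inv₀]
    have h1 : A.valuation (f i₀) ≠ 0 := (map_ne_zero _).2 hfi₀
    rw [inv_mul_le_iff₀ (lt_of_le_of_ne zero_le h1.symm), mul_one]
    exact hi₀ i (Finset.mem_univ i)
  refine ⟨(f i₀)⁻¹, inv_ne_zero hfi₀, hmem, i₀, ?_⟩
  have : (⟨(f i₀)⁻¹ * f i₀, hmem i₀⟩ : ↥A.toSubring) = 1 :=
    Subtype.ext (inv_mul_cancel₀ hfi₀)
  rw [this, map_one]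
  exact one_ne_zero

end Abstract

/-! ### The Gauss objects -/

variable (ℓ : ℕ) [hℓ : Fact ℓ.Prime]

/-- `ℚ(j) ⊂ Frac ℤℓ((q))`. -/
theorem Qj_le_fracField : Qj ≤ fracField ℓ := by
  rw [Qj, IntermediateField.adjoin_le_iff]
  rintro x rfl
  have := xd_mem_fracField ℓ 1
  rwa [qExpand_one_apply] at this

/-- `O_v`: the Gauss valuation ring of `ℚ(j)`. -/
abbrev OvG : ValuationSubring ↥Qj := gaussVS ℓ Qj (Qj_le_fracField ℓ)

/-- **(OV1)** (helper22): the Gauss residue of an element of `ℚ(j)` lies in `k(j̃)`. -/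
def OV1 : Prop :=
  ∀ (c : LaurentSeries ℚ) (hc : c ∈ gaussRing ℓ), c ∈ Qj → gaussRed ℓ ⟨c, hc⟩ ∈ kj ℓ

/-- **(F2)**: every element of `L_M` is the Gauss residue of an element of `FF_M`. -/
def ResidueContains (M : ℕ) : Prop :=
  ∀ y ∈ LC ℓ M, ∃ f : gaussRing ℓ,
    (f : LaurentSeries ℚ) ∈ modularFunctionFieldFull M ∧ gaussRed ℓ f = y

variable {ℓ}

theorem coe_mem_gaussRing (x : ↥(OvG ℓ).toSubring) :
    ((x : ↥Qj) : LaurentSeries ℚ) ∈ gaussRing ℓ :=
  (mem_gaussVS_iff ℓ Qj (Qj_le_fracField ℓ) x.1).1 x.2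

/-- The inclusion `O_v → gaussRing`. -/
def inclG : ↥(OvG ℓ).toSubring →+* ↥(gaussRing ℓ) where
  toFun x := ⟨((x : ↥Qj) : LaurentSeries ℚ), coe_mem_gaussRing x⟩
  map_one' := rfl
  map_mul' _ _ := rfl
  map_zero' := rfl
  map_add' _ _ := rfl

theorem coe_inclG (x : ↥(OvG ℓ).toSubring) :
    ((inclG x : ↥(gaussRing ℓ)) : LaurentSeries ℚ) = ((x : ↥Qj) : LaurentSeries ℚ) := rfl

/-- The residue map `O_v → k(j̃)`. -/
def redOv (h1 : OV1 ℓ) : ↥(OvG ℓ).toSubring →+* ↥(kj ℓ) :=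
  RingHom.codRestrict ((gaussRed ℓ).comp inclG) (kj ℓ)
    (fun x => h1 _ (coe_mem_gaussRing x) (x : ↥Qj).2)

theorem coe_redOv (h1 : OV1 ℓ) (x : ↥(OvG ℓ).toSubring) :
    ((redOv h1 x : ↥(kj ℓ)) : LaurentSeries (ZMod ℓ)) = gaussRed ℓ (inclG x) := rfl

theorem hOC (x : ↥Qj) (hx : x ∈ (OvG ℓ).toSubring) :
    algebraMap ↥Qj (LaurentSeries ℚ) x ∈ gaussRing ℓ :=
  (mem_gaussVS_iff ℓ Qj (Qj_le_fracField ℓ) x).1 hx

theorem hρ (h1 : OV1 ℓ) (x : ↥(OvG ℓ).toSubring) :
    gaussRed ℓ ⟨algebraMap ↥Qj (LaurentSeries ℚ) x, hOC x x.2⟩ =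
      algebraMap ↥(kj ℓ) (LaurentSeries (ZMod ℓ)) (redOv h1 x) := rfl

/-- Elements of `O_v` with nonzero residue are units of `O_v`. -/
theorem isUnit_of_redOv_ne_zero (h1 : OV1 ℓ) (a : ↥(OvG ℓ).toSubring) (ha : redOv h1 a ≠ 0) :
    IsUnit a := by
  have ha' : gaussRed ℓ (inclG a) ≠ 0 := by
    intro h0
    apply ha
    apply Subtype.ext
    rw [coe_redOv, h0]; rfl
  have hinv := inv_mem_of_gaussRed_ne_zero ℓ _ ha'
  rw [coe_inclG] at hinv
  have ha0 : (a : ↥Qj) ≠ 0 := by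
    intro h0
    apply ha'
    have : inclG a = 0 := by rw [show a = 0 from Subtype.ext h0, map_zero]
    rw [this, map_zero]
  have hmem : (a : ↥Qj)⁻¹ ∈ (OvG ℓ).toSubring := by
    show (a : ↥Qj)⁻¹ ∈ OvG ℓ
    rw [mem_gaussVS_iff]
    exact hinv
  exact IsUnit.of_mul_eq_one ⟨(a : ↥Qj)⁻¹, hmem⟩ (Subtype.ext (mul_inv_cancel₀ ha0))

/-- **Lifting**: elements of the Gauss ring whose residues are `k(j̃)`-independent are
`ℚ(j)`-independent. -/
theorem linearIndependent_of_gaussRed (h1 : OV1 ℓ) {n : ℕ} (γ : Fin n → gaussRing ℓ)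
    (hy : LinearIndependent ↥(kj ℓ) fun i => gaussRed ℓ (γ i)) :
    LinearIndependent ↥Qj fun i => ((γ i : gaussRing ℓ) : LaurentSeries ℚ) :=
  linearIndependent_lift (OvG ℓ).toSubring (gaussRing ℓ) hOC (gaussRed ℓ) (redOv h1) (hρ h1)
    (familyScaling_valuationSubring (OvG ℓ) (redOv h1)) γ hy

/-- **(UB_M)**. -/
theorem ub (M : ℕ) [NeZero M] (hdeg : DegLe M) (h1 : OV1 ℓ) (h2 : ResidueContains ℓ M) :
    UBDef8.UB ℓ M := by
  intro n y hyL hy
  choose γ hγM hγ using fun i => h2 (y i) (hyL i)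
  have hy' : LinearIndependent ↥(kj ℓ) fun i => gaussRed ℓ (γ i) := by
    have : (fun i => gaussRed ℓ (γ i)) = y := funext hγ
    rw [this]; exact hy
  exact hdeg n _ hγM (linearIndependent_of_gaussRed h1 γ hy')

end Fermat.Agent.IG.VAL.UpperBound8
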