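/-
Program G (S28, Igusa), chapter IG/VAL, block V6 (helper21): the base rings of the three charts and
the consumer-ready form of blueprint §1(c).

`F = FF N = modularFunctionFieldFull N`, `j = jFull N`, `ℤℓ = ratLocalizedAt ℓ`,
`O_v = ValInterface8.Ov ℓ N = { f(j)/h(j) : f, h ∈ ℤℓ[X], h mod ℓ ≠ 0 } ⊂ F`.

* `transcendental_jq`, `transcendental_jFull`, `transcendental_jFull_inv`: `j`, `1/j` are
  transcendental over `ℚ` and over `ℤℓ`;
* for `t` transcendental over `ℤℓ`: `ℤℓ[t] ⊂ F` is an integrally closed domain (UFD) in which `ℓ` is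
  prime (`isIntegrallyClosed_adjoin`, `prime_ell_adjoin`), and `ℓ ∣ g(t)` iff `g mod ℓ = 0`;
* `Ov_inv_rep`: the elements of `O_v` are also fractions in `1/j` with denominator `≢ 0 mod ℓ`;
* **final theorems** `mem_chartAlgFin_of_mul_mem`, `mem_chartAlgInf_of_mul_mem`,
  `mem_chartAlgMid_of_mul_mem`:  `b ∈ F` integral over `O_v` and `ℓ * b ∈ chartAlg… N ℓ`
  ⟹ `b ∈ chartAlg… N ℓ`   (i.e. `A_S ∩ ℓ·C0 = ℓ·A_S` once `C0` is integral over `O_v`).
-/
import Mathlib
import Fermat.Prelude.Def_ModularCurve_IgusaScheme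
import Fermat.Agent.IG.VAL.Zl13
import Fermat.Agent.IG.VAL.ValInterface8
import Fermat.Agent.IG.VAL.IntegralDescentFrac21

set_option autoImplicit false

noncomputable section

namespace Fermat.Agent.IG.VAL.ChartBaseRing21

open ModularCurve ModularCurve.IgusaScheme Polynomial
open Fermat.Agent.IG.VAL Fermat.Agent.IG.VAL.ValInterface8

/-! ### Transcendence of `j` -/

/-- The coefficient of `q^{-n}` of `p(j)` is the leading coefficient of `p`, `n = deg p`. -/
theorem coeff_aeval_jq (p : ℚ[X]) :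
    (aeval jq p).coeff (-(p.natDegree : ℤ)) = p.leadingCoeff := by
  set n := p.natDegree with hn
  rw [aeval_def, eval₂_eq_sum_range, HahnSeries.coeff_sum, Finset.sum_eq_single n]
  · rw [algebraMap_laurentSeries_eq_single, HahnSeries.coeff_single_zero_mul,
      coeff_jq_pow_self, mul_one, leadingCoeff]
  · intro i hi hin
    have hilt : i < n := lt_of_le_of_ne (Nat.lt_succ_iff.mp (Finset.mem_range.mp hi)) hin
    rw [algebraMap_laurentSeries_eq_single, HahnSeries.coeff_single_zero_mul,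
      coeff_jq_pow_of_lt, mul_zero]
    omega
  · intro hn'
    exact absurd (Finset.self_mem_range_succ n) hn'

/-- The formal `j` is transcendental over `ℚ`. -/
theorem transcendental_jq : Transcendental ℚ jq :=
  transcendental_iff.mpr fun p hp => by
    have h := coeff_aeval_jq p
    rw [hp, HahnSeries.coeff_zero] at h
    exact leadingCoeff_eq_zero.mp h.symm

variable (N : ℕ) [NeZero N]

/-- `IsAlgebraic ℚ` does not depend on the `ℚ`-algebra instance. -/
theorem isAlgebraic_rat_congr {A : Type*} [Ring A] (i₁ i₂ : Algebra ℚ A) {x : A}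
    (h : @IsAlgebraic ℚ A _ _ i₁ x) : @IsAlgebraic ℚ A _ _ i₂ x := by
  have e : i₁ = i₂ := Subsingleton.elim _ _
  subst e
  exact h

theorem transcendental_jFull_rat : Transcendental ℚ (jFull N) := by
  intro halg
  apply transcendental_jq
  exact IntermediateField.isAlgebraic_iff.mp (isAlgebraic_rat_congr _ _ halg)

variable (ℓ : ℕ)

theorem transcendental_jFull : Transcendental ↥(GaloisRep.ratLocalizedAt ℓ) (jFull N) := by
  intro halg
  apply transcendental_jFull_rat N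
  exact (IsFractionRing.isAlgebraic_iff ↥(GaloisRep.ratLocalizedAt ℓ) ℚ
    ↥(modularFunctionFieldFull N)).mp halg

theorem transcendental_jFull_inv :
    Transcendental ↥(GaloisRep.ratLocalizedAt ℓ) (jFull N)⁻¹ := by
  intro halg
  apply transcendental_jFull_rat N
  have h1 : IsAlgebraic ℚ (jFull N)⁻¹ :=
    (IsFractionRing.isAlgebraic_iff ↥(GaloisRep.ratLocalizedAt ℓ) ℚ
      ↥(modularFunctionFieldFull N)).mp halg
  simpa using h1.inv

/-! ### The ring `ℤℓ[t] ⊂ F` for `t` transcendental -/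

section Generic

variable {N} {ℓ}
variable [Fact ℓ.Prime] {t : ↥(modularFunctionFieldFull N)}

omit [NeZero N]

theorem resℓ_eq_resZl : resℓ ℓ = Zl13.resZl ℓ := Subsingleton.elim _ _

/-- `ℤℓ[t]` is integrally closed (a UFD) for `t` transcendental. -/
theorem isIntegrallyClosed_adjoin (ht : Transcendental ↥(GaloisRep.ratLocalizedAt ℓ) t) :
    IsIntegrallyClosed ↥(Algebra.adjoin ↥(GaloisRep.ratLocalizedAt ℓ) {t}) := by
  have := ht.uniqueFactorizationMonoid_adjoin
  infer_instance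

/-- `ℓ` is a prime element of `ℤℓ[t]` for `t` transcendental. -/
theorem prime_ell_adjoin (ht : Transcendental ↥(GaloisRep.ratLocalizedAt ℓ) t) :
    Prime ((ℓ : ℕ) : ↥(Algebra.adjoin ↥(GaloisRep.ratLocalizedAt ℓ) {t})) := by
  have h := (MulEquiv.prime_iff
    (Polynomial.algEquivOfTranscendental ↥(GaloisRep.ratLocalizedAt ℓ) t ht)).mpr
      (Zl13.prime_C_ell ℓ)
  have e : (Polynomial.algEquivOfTranscendental ↥(GaloisRep.ratLocalizedAt ℓ) t ht)
      (Polynomial.C (ℓ : ↥(GaloisRep.ratLocalizedAt ℓ))) =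
      ((ℓ : ℕ) : ↥(Algebra.adjoin ↥(GaloisRep.ratLocalizedAt ℓ) {t})) := by
    rw [map_natCast Polynomial.C, map_natCast]
  rwa [e] at h

/-- If `ℓ ∣ g(t)` in `ℤℓ[t]` (`t` transcendental) then `g ≡ 0 mod ℓ`. -/
theorem map_res_eq_zero_of_ell_dvd (ht : Transcendental ↥(GaloisRep.ratLocalizedAt ℓ) t)
    (g : (↥(GaloisRep.ratLocalizedAt ℓ))[X])
    (s : ↥(Algebra.adjoin ↥(GaloisRep.ratLocalizedAt ℓ) {t}))
    (hs : (s : ↥(modularFunctionFieldFull N)) = aeval t g)
    (h : ((ℓ : ℕ) : ↥(Algebra.adjoin ↥(GaloisRep.ratLocalizedAt ℓ) {t})) ∣ s) :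
    g.map (resℓ ℓ) = 0 := by
  rw [resℓ_eq_resZl, Zl13.map_resZl_eq_zero_iff]
  obtain ⟨u, hu⟩ := h
  set e := Polynomial.algEquivOfTranscendental ↥(GaloisRep.ratLocalizedAt ℓ) t ht with he
  have hsg : s = e g := by
    apply Subtype.ext
    rw [hs, he, Polynomial.algEquivOfTranscendental_apply, ← Subalgebra.aeval_coe]
  refine ⟨e.symm u, ?_⟩
  apply e.injective
  rw [map_mul, AlgEquiv.apply_symm_apply, ← hsg, hu, map_natCast Polynomial.C, map_natCast]

/-- **§1(c) for `ℤℓ[t]`**, `t` transcendental: if every element of the subring `O'` is a fraction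
`f(t)/h(t)` with `h ≢ 0 mod ℓ`, then `b` integral over `O'` and `ℓ * b` integral over `ℤℓ[t]`
imply `b` integral over `ℤℓ[t]`. -/
theorem isIntegral_adjoin_of_mul (ht : Transcendental ↥(GaloisRep.ratLocalizedAt ℓ) t)
    (O' : Subring ↥(modularFunctionFieldFull N))
    (hO' : ∀ x ∈ O', ∃ f h : (↥(GaloisRep.ratLocalizedAt ℓ))[X], h.map (resℓ ℓ) ≠ 0 ∧
      x * aeval t h = aeval t f)
    {b : ↥(modularFunctionFieldFull N)} (hb : IsIntegral O' b)
    (hℓb : IsIntegral ↥(Algebra.adjoin ↥(GaloisRep.ratLocalizedAt ℓ) {t})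
      ((ℓ : ↥(modularFunctionFieldFull N)) * b)) :
    IsIntegral ↥(Algebra.adjoin ↥(GaloisRep.ratLocalizedAt ℓ) {t}) b := by
  have := isIntegrallyClosed_adjoin ht
  refine IntegralDescentFrac21.isIntegral_of_isIntegral_fractions
    (R := ↥(Algebra.adjoin ↥(GaloisRep.ratLocalizedAt ℓ) {t})) (prime_ell_adjoin ht) O' ?_ hb ?_
  · intro x hx
    obtain ⟨f, h, hh, hxe⟩ := hO' x hx
    refine ⟨⟨aeval t f, Polynomial.aeval_mem_adjoin_singleton _ _⟩,
      ⟨aeval t h, Polynomial.aeval_mem_adjoin_singleton _ _⟩, ?_, hxe⟩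
    intro hdvd
    exact hh (map_res_eq_zero_of_ell_dvd ht h _ rfl hdvd)
  · have e : ((ℓ : ℕ) : ↥(Algebra.adjoin ↥(GaloisRep.ratLocalizedAt ℓ) {t})) • b =
        (ℓ : ↥(modularFunctionFieldFull N)) * b := by
      rw [Algebra.smul_def, map_natCast]
    rwa [e]

end Generic

/-! ### `O_v` in terms of `1/j` -/

section OvInv

theorem aeval_inv_reflect_mul_pow (f : (↥(GaloisRep.ratLocalizedAt ℓ))[X]) {m : ℕ}
    (hm : f.natDegree ≤ m) :
    aeval (jFull N)⁻¹ (f.reflect m) * (jFull N) ^ m = aeval (jFull N) f := by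
  let : Invertible (jFull N) := invertibleOfNonzero (jFull_ne_zero N)
  have := Polynomial.eval₂_reflect_mul_pow
    (algebraMap ↥(GaloisRep.ratLocalizedAt ℓ) ↥(modularFunctionFieldFull N)) (jFull N) m f hm
  rwa [invOf_eq_inv] at this

variable [Fact ℓ.Prime]

/-- The elements of `O_v` are fractions in `1/j` with denominator `≢ 0 mod ℓ`. -/
theorem Ov_inv_rep (x : ↥(modularFunctionFieldFull N)) (hx : x ∈ Ov ℓ N) :
    ∃ f h : (↥(GaloisRep.ratLocalizedAt ℓ))[X], h.map (resℓ ℓ) ≠ 0 ∧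
      x * aeval (jFull N)⁻¹ h = aeval (jFull N)⁻¹ f := by
  obtain ⟨f, h, hh, hxe⟩ := hx
  set m := max f.natDegree h.natDegree with hm
  refine ⟨f.reflect m, h.reflect m, ?_, ?_⟩
  · rw [← Polynomial.reflect_map, Ne, Polynomial.reflect_eq_zero_iff]
    exact hh
  · have hj : (jFull N) ^ m ≠ 0 := pow_ne_zero _ (jFull_ne_zero N)
    apply mul_right_cancel₀ hj
    rw [mul_assoc, aeval_inv_reflect_mul_pow N ℓ h (le_max_right _ _),
      aeval_inv_reflect_mul_pow N ℓ f (le_max_left _ _), hxe]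

theorem jFull_mem_Ov : jFull N ∈ Ov ℓ N :=
  ⟨Polynomial.X, 1, by simp, by simp⟩

end OvInv

/-! ### Final form of §1(c) for the three charts -/

section Final

variable [Fact ℓ.Prime]

/-- **§1(c), finite chart.** -/
theorem mem_chartAlgFin_of_mul_mem {b : ↥(modularFunctionFieldFull N)}
    (hb : IsIntegral ↥(Ov ℓ N) b)
    (hℓb : (ℓ : ↥(modularFunctionFieldFull N)) * b ∈ chartAlgFin N ℓ) : b ∈ chartAlgFin N ℓ :=
  isIntegral_adjoin_of_mul (transcendental_jFull N ℓ) (Ov ℓ N) (fun _ hx => hx) hb hℓb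

/-- **§1(c), chart at infinity.** -/
theorem mem_chartAlgInf_of_mul_mem {b : ↥(modularFunctionFieldFull N)}
    (hb : IsIntegral ↥(Ov ℓ N) b)
    (hℓb : (ℓ : ↥(modularFunctionFieldFull N)) * b ∈ chartAlgInf N ℓ) : b ∈ chartAlgInf N ℓ :=
  isIntegral_adjoin_of_mul (transcendental_jFull_inv N ℓ) (Ov ℓ N) (Ov_inv_rep N ℓ) hb hℓb

/-- **§1(c), middle chart** (reduced to the finite chart by clearing the powers of `1/j`). -/
theorem mem_chartAlgMid_of_mul_mem {b : ↥(modularFunctionFieldFull N)}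
    (hb : IsIntegral ↥(Ov ℓ N) b)
    (hℓb : (ℓ : ↥(modularFunctionFieldFull N)) * b ∈ chartAlgMid N ℓ) : b ∈ chartAlgMid N ℓ := by
  have hmid : (ℓ : ↥(modularFunctionFieldFull N)) * b ∈
      chartAlg N ℓ (insert (jFull N)⁻¹ {jFull N}) := by
    rw [show insert (jFull N)⁻¹ ({jFull N} : Set ↥(modularFunctionFieldFull N)) =
      {jFull N, (jFull N)⁻¹} from Set.pair_comm _ _]
    exact hℓb
  obtain ⟨n, hn⟩ := exists_pow_mul_mem_chartAlg (Set.mem_singleton _) (jFull_ne_zero N) hmid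
  -- `j ^ n * b` is integral over `O_v`
  have hjn : IsIntegral ↥(Ov ℓ N) ((jFull N) ^ n * b) := by
    have h1 : IsIntegral ↥(Ov ℓ N) ((jFull N) ^ n) :=
      (isIntegral_algebraMap (R := ↥(Ov ℓ N)) (A := ↥(modularFunctionFieldFull N))
        (x := ⟨jFull N, jFull_mem_Ov N ℓ⟩)).pow n
    exact h1.mul hb
  have hfin : (jFull N) ^ n * b ∈ chartAlgFin N ℓ := by
    apply mem_chartAlgFin_of_mul_mem N ℓ hjn
    have : (ℓ : ↥(modularFunctionFieldFull N)) * ((jFull N) ^ n * b) =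
        (jFull N) ^ n * ((ℓ : ↥(modularFunctionFieldFull N)) * b) := by ring
    rw [this]; exact hn
  have h2 : (jFull N) ^ n * b ∈ chartAlgMid N ℓ := chartAlg_mono N ℓ (sFin_subset N) hfin
  have h3 : (jFull N)⁻¹ ∈ chartAlgMid N ℓ := subset_chartAlg N ℓ _ (by simp)
  have h4 : b = ((jFull N)⁻¹) ^ n * ((jFull N) ^ n * b) := by
    rw [← mul_assoc, ← mul_pow, inv_mul_cancel₀ (jFull_ne_zero N), one_pow, one_mul]
  rw [h4]
  exact mul_mem (pow_mem h3 n) h2

/-- Integrality over a subring of `O_v` gives integrality over `O_v`. -/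
theorem isIntegral_Ov_of_le {O' : Subring ↥(modularFunctionFieldFull N)} (hO' : O' ≤ Ov ℓ N)
    {b : ↥(modularFunctionFieldFull N)} (hb : IsIntegral ↥O' b) : IsIntegral ↥(Ov ℓ N) b := by
  have := hb.map_of_comp_eq (Subring.inclusion hO') (RingHom.id ↥(modularFunctionFieldFull N))
    (by ext; rfl)
  simpa using this

/-- **§1(c) for the three charts, general form**: `O'` any subring of `F` contained in `O_v`
(i.e. all of whose elements are fractions `f(j)/h(j)`, `h ≢ 0 mod ℓ`). -/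
theorem mem_chartAlg_of_mul_mem {O' : Subring ↥(modularFunctionFieldFull N)} (hO' : O' ≤ Ov ℓ N)
    {b : ↥(modularFunctionFieldFull N)} (hb : IsIntegral ↥O' b) :
    ((ℓ : ↥(modularFunctionFieldFull N)) * b ∈ chartAlgFin N ℓ → b ∈ chartAlgFin N ℓ) ∧
    ((ℓ : ↥(modularFunctionFieldFull N)) * b ∈ chartAlgInf N ℓ → b ∈ chartAlgInf N ℓ) ∧
    ((ℓ : ↥(modularFunctionFieldFull N)) * b ∈ chartAlgMid N ℓ → b ∈ chartAlgMid N ℓ) :=
  ⟨mem_chartAlgFin_of_mul_mem N ℓ (isIntegral_Ov_of_le N ℓ hO' hb),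
    mem_chartAlgInf_of_mul_mem N ℓ (isIntegral_Ov_of_le N ℓ hO' hb),
    mem_chartAlgMid_of_mul_mem N ℓ (isIntegral_Ov_of_le N ℓ hO' hb)⟩

end Final

end Fermat.Agent.IG.VAL.ChartBaseRing21
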