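/-
Program G (S28, Igusa), chapter VAL — blueprint §1(d) (helper22).

For a `ℤ_(ℓ)`-algebra `A` (`ℤ_(ℓ) := GaloisRep.ratLocalizedAt ℓ`) together with ANY ring hom
`φ : A →+* k((q))`, `k = ZMod ℓ`, whose kernel is contained in `ℓ A`, and any field `K` of
characteristic `ℓ`, the ring `A ⊗[ℤ_(ℓ)] K` is a domain: it embeds into the field `K((q))` by
`a ⊗ c ↦ c · (φ a with coefficients pushed to K)`; injectivity is checked on a `k`-basis of `K`.

Also: ring homs out of `ℤ_(ℓ)` are unique, and the residue hom `ℤ_(ℓ) →+* ZMod ℓ`.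
-/
import Mathlib
import Fermat.Prelude.Def_ModularCurve_LaurentCoeff
import Fermat.Prelude.Def_GaloisRep_Flat

set_option autoImplicit false

open scoped TensorProduct
open HahnSeries ModularCurve

namespace Fermat.Agent.IG.VAL.TensorDomain22

noncomputable section

/-! ### General base ring -/

section General

variable {R : Type*} [CommRing R] {k : Type*} [Field k] (π : R →+* k)
  {A : Type*} [CommRing A] [Algebra R A]
  {K : Type*} [Field K] [Algebra R K] [Algebra k K]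

theorem algebraMap_laurent_eq_C (r : R) :
    algebraMap R (LaurentSeries K) r = HahnSeries.C (algebraMap R K r) := by
  rw [HahnSeries.algebraMap_apply', PowerSeries.algebraMap_apply, HahnSeries.ofPowerSeries_C]

theorem coeffMap_C {S T : Type*} [CommRing S] [CommRing T] (f : S →+* T) (s : S) :
    coeffMap f (HahnSeries.C s : LaurentSeries S) = HahnSeries.C (f s) := by
  rw [HahnSeries.C_apply, coeffMap_single, HahnSeries.C_apply]

/-- `a ↦ φ a` with coefficients pushed to `K`, as an `R`-algebra hom. -/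
def toLaurentAlg (φ : A →+* LaurentSeries k)
    (hRK : ∀ r : R, algebraMap R K r = algebraMap k K (π r))
    (hφR : ∀ r : R, φ (algebraMap R A r) = HahnSeries.C (π r)) :
    A →ₐ[R] LaurentSeries K where
  __ := (coeffMap (algebraMap k K)).comp φ
  commutes' r := by
    show coeffMap (algebraMap k K) (φ (algebraMap R A r)) = algebraMap R (LaurentSeries K) r
    rw [hφR, algebraMap_laurent_eq_C, hRK, coeffMap_C]

theorem toLaurentAlg_apply (φ : A →+* LaurentSeries k)
    (hRK : ∀ r : R, algebraMap R K r = algebraMap k K (π r))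
    (hφR : ∀ r : R, φ (algebraMap R A r) = HahnSeries.C (π r)) (a : A) :
    toLaurentAlg π φ hRK hφR a = coeffMap (algebraMap k K) (φ a) := rfl

/-- constants, as an `R`-algebra hom `K → K((q))`. -/
def constAlg : K →ₐ[R] LaurentSeries K where
  __ := (HahnSeries.C : K →+* LaurentSeries K)
  commutes' r := (algebraMap_laurent_eq_C r).symm

theorem constAlg_apply (c : K) : (constAlg (R := R) : K →ₐ[R] LaurentSeries K) c
    = HahnSeries.C c := rfl

/-- The comparison map `A ⊗[R] K → K((q))`, `a ⊗ c ↦ φ(a) · c`. -/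
def tensorToLaurent (φ : A →+* LaurentSeries k)
    (hRK : ∀ r : R, algebraMap R K r = algebraMap k K (π r))
    (hφR : ∀ r : R, φ (algebraMap R A r) = HahnSeries.C (π r)) :
    A ⊗[R] K →ₐ[R] LaurentSeries K :=
  Algebra.TensorProduct.productMap (toLaurentAlg π φ hRK hφR) constAlg

theorem tensorToLaurent_tmul (φ : A →+* LaurentSeries k)
    (hRK : ∀ r : R, algebraMap R K r = algebraMap k K (π r))
    (hφR : ∀ r : R, φ (algebraMap R A r) = HahnSeries.C (π r)) (a : A) (c : K) :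
    tensorToLaurent π φ hRK hφR (a ⊗ₜ[R] c)
      = coeffMap (algebraMap k K) (φ a) * HahnSeries.C c := by
  rw [tensorToLaurent, Algebra.TensorProduct.productMap_apply_tmul]
  rfl

theorem smul_eq_residue_smul (hRK : ∀ r : R, algebraMap R K r = algebraMap k K (π r))
    (r : R) (x : K) : r • x = (π r) • x := by
  rw [Algebra.smul_def, Algebra.smul_def, hRK]

variable {ι : Type*} (b : Module.Basis ι k K)

/-- `(a_j)_j ↦ ∑ a_j ⊗ b_j`. -/
def basisSum : (ι →₀ A) →ₗ[R] A ⊗[R] K :=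
  Finsupp.lsum ℕ (fun j => (TensorProduct.mk R A K).flip (b j))

theorem basisSum_apply (f : ι →₀ A) :
    basisSum (R := R) b f = f.sum (fun j a => a ⊗ₜ[R] b j) := by
  rw [basisSum, Finsupp.lsum_apply]
  rfl

theorem basisSum_single (j : ι) (a : A) :
    basisSum (R := R) b (Finsupp.single j a) = a ⊗ₜ[R] b j := by
  rw [basisSum, Finsupp.lsum_single]
  rfl

theorem basisSum_surjective (hπ : Function.Surjective π)
    (hRK : ∀ r : R, algebraMap R K r = algebraMap k K (π r)) :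
    Function.Surjective (basisSum (R := R) (A := A) b) := by
  intro t
  rw [← LinearMap.mem_range]
  induction t using TensorProduct.induction_on with
  | zero => exact Submodule.zero_mem _
  | add x y hx hy => exact Submodule.add_mem _ hx hy
  | tmul a c =>
    have hc : c = ∑ j ∈ (b.repr c).support, (b.repr c j) • b j := by
      conv_lhs => rw [← b.linearCombination_repr c, Finsupp.linearCombination_apply, Finsupp.sum]
    rw [hc, TensorProduct.tmul_sum]
    refine Submodule.sum_mem _ fun j _ => ?_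
    obtain ⟨r, hr⟩ := hπ (b.repr c j)
    rw [← hr, ← smul_eq_residue_smul π hRK, TensorProduct.tmul_smul, TensorProduct.smul_tmul',
      ← basisSum_single]
    exact LinearMap.mem_range_self _ _

/-- The key injectivity statement. -/
theorem tensorToLaurent_injective (hπ : Function.Surjective π)
    (hRK : ∀ r : R, algebraMap R K r = algebraMap k K (π r))
    (ϖ : R) (hϖ : π ϖ = 0)
    (φ : A →+* LaurentSeries k)
    (hφR : ∀ r : R, φ (algebraMap R A r) = HahnSeries.C (π r))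
    (hker : ∀ a : A, φ a = 0 → ∃ a' : A, a = ϖ • a') :
    Function.Injective (tensorToLaurent π φ hRK hφR) := by
  classical
  rw [injective_iff_map_eq_zero]
  intro t ht
  let b := Module.Basis.ofVectorSpace k K
  obtain ⟨f, rfl⟩ := basisSum_surjective π b hπ hRK t
  -- coefficientwise: all `φ (f j)` vanish
  have hcoef : ∀ n : ℤ, ∑ j ∈ f.support, ((φ (f j)).coeff n) • b j = 0 := by
    intro n
    have h1 := congrArg (fun x : LaurentSeries K => x.coeff n) ht
    simp only [HahnSeries.coeff_zero] at h1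
    rw [basisSum_apply, Finsupp.sum, map_sum] at h1
    rw [← h1, ← HahnSeries.coeff.addMonoidHom_apply, map_sum]
    refine Finset.sum_congr rfl fun j _ => ?_
    rw [HahnSeries.coeff.addMonoidHom_apply, tensorToLaurent_tmul, mul_comm,
      HahnSeries.C_mul_eq_smul, HahnSeries.coeff_smul, coeffMap_coeff, Algebra.smul_def,
      smul_eq_mul, mul_comm]
  have hzero : ∀ j, φ (f j) = 0 := by
    intro j
    by_cases hj : j ∈ f.support
    · ext n
      have := linearIndependent_iff'.mp b.linearIndependent f.support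
        (fun j => (φ (f j)).coeff n) (hcoef n) j hj
      simpa using this
    · rw [Finsupp.notMem_support_iff.mp hj, map_zero]
  rw [basisSum_apply, Finsupp.sum]
  refine Finset.sum_eq_zero fun j _ => ?_
  obtain ⟨a', ha'⟩ := hker (f j) (hzero j)
  rw [ha', TensorProduct.smul_tmul, smul_eq_residue_smul π hRK, hϖ, zero_smul,
    TensorProduct.tmul_zero]

/-- **Blueprint §1(d), general base ring.** -/
theorem isDomain_tensor (hπ : Function.Surjective π)
    (hRK : ∀ r : R, algebraMap R K r = algebraMap k K (π r))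
    (ϖ : R) (hϖ : π ϖ = 0)
    (φ : A →+* LaurentSeries k)
    (hφR : ∀ r : R, φ (algebraMap R A r) = HahnSeries.C (π r))
    (hker : ∀ a : A, φ a = 0 → ∃ a' : A, a = ϖ • a') :
    IsDomain (A ⊗[R] K) :=
  Function.Injective.isDomain (tensorToLaurent π φ hRK hφR).toRingHom
    (tensorToLaurent_injective π hπ hRK ϖ hϖ φ hφR hker)

end General

/-! ### The base ring `ℤ_(ℓ) = GaloisRep.ratLocalizedAt ℓ` -/

section Localized

variable (ℓ : ℕ)

theorem natCast_den_mem (z : ↥(GaloisRep.ratLocalizedAt ℓ)) : ((z : ℚ).den : ℚ) ∈ GaloisRep.ratLocalizedAt ℓ := by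
  show ((z : ℚ).den : ℚ).den.Coprime ℓ
  rw [Rat.den_natCast]
  exact Nat.coprime_one_left ℓ

theorem inv_den_mem (z : ↥(GaloisRep.ratLocalizedAt ℓ)) : (((z : ℚ).den : ℚ))⁻¹ ∈ GaloisRep.ratLocalizedAt ℓ := by
  show ((((z : ℚ).den : ℚ))⁻¹).den.Coprime ℓ
  have h : (((z : ℚ).den : ℚ))⁻¹.den = (z : ℚ).den := by
    rw [show (((z : ℚ).den : ℚ)) = (((z : ℚ).den : ℤ) : ℚ) by norm_cast, Rat.inv_intCast_den]
    simp [(z : ℚ).den_ne_zero]
  rw [h]
  exact z.2

/-- every `z ∈ ℤ_(ℓ)` is `num · den⁻¹` with `den` a unit of `ℤ_(ℓ)`. -/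
theorem exists_den_inv (z : ↥(GaloisRep.ratLocalizedAt ℓ)) :
    ∃ d e : ↥(GaloisRep.ratLocalizedAt ℓ), d * e = 1 ∧
      z * d = (((z : ℚ).num : ℤ) : ↥(GaloisRep.ratLocalizedAt ℓ)) ∧
      d = (((z : ℚ).den : ℤ) : ↥(GaloisRep.ratLocalizedAt ℓ)) := by
  refine ⟨⟨((z : ℚ).den : ℚ), natCast_den_mem ℓ z⟩, ⟨(((z : ℚ).den : ℚ))⁻¹, inv_den_mem ℓ z⟩,
    ?_, ?_, ?_⟩
  · apply Subtype.ext
    show ((z : ℚ).den : ℚ) * (((z : ℚ).den : ℚ))⁻¹ = 1
    exact mul_inv_cancel₀ (by exact_mod_cast (z : ℚ).den_ne_zero)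
  · apply Subtype.ext
    show (z : ℚ) * ((z : ℚ).den : ℚ) = (((z : ℚ).num : ℤ) : ℚ)
    exact Rat.mul_den_eq_num (z : ℚ)
  · apply Subtype.ext
    show ((z : ℚ).den : ℚ) = ((((z : ℚ).den : ℤ) : ↥(GaloisRep.ratLocalizedAt ℓ)) : ℚ)
    push_cast
    rfl

/-- Ring homs out of `ℤ_(ℓ)` are unique. -/
theorem ringHom_ext {S : Type*} [Semiring S] (f g : ↥(GaloisRep.ratLocalizedAt ℓ) →+* S) :
    f = g := by
  have hint : ∀ n : ℤ, f (n : ↥(GaloisRep.ratLocalizedAt ℓ)) = g (n : ↥(GaloisRep.ratLocalizedAt ℓ)) :=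
    fun n => congrArg (fun h : ℤ →+* S => h n)
      (RingHom.ext_int (f.comp (Int.castRingHom ↥(GaloisRep.ratLocalizedAt ℓ)))
        (g.comp (Int.castRingHom ↥(GaloisRep.ratLocalizedAt ℓ))))
  ext z
  obtain ⟨d, e, hde, hzd, hdcast⟩ := exists_den_inv ℓ z
  have hfd : f d = g d := by rw [hdcast]; exact hint _
  have hunit : IsUnit (f d) := (IsUnit.of_mul_eq_one e hde).map f
  have h1 : f z * f d = g z * f d := by
    rw [← map_mul, hzd, hint, ← hzd, map_mul, hfd]
  exact hunit.mul_left_injective h1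

instance subsingleton_ringHom {S : Type*} [Semiring S] : Subsingleton (↥(GaloisRep.ratLocalizedAt ℓ) →+* S) :=
  ⟨ringHom_ext ℓ⟩

variable [hℓ : Fact ℓ.Prime]

theorem norm_le_one (z : ↥(GaloisRep.ratLocalizedAt ℓ)) : ‖((z : ℚ) : ℚ_[ℓ])‖ ≤ 1 := by
  refine Padic.norm_rat_le_one ?_
  intro hdvd
  have h1 : ℓ ∣ Nat.gcd (z : ℚ).den ℓ := Nat.dvd_gcd hdvd dvd_rfl
  rw [Nat.Coprime.gcd_eq_one z.2] at h1
  exact hℓ.out.one_lt.ne' (Nat.dvd_one.mp h1)

/-- `ℤ_(ℓ) → ℤ_ℓ`. -/
def toPadicInt : ↥(GaloisRep.ratLocalizedAt ℓ) →+* ℤ_[ℓ] :=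
  ((algebraMap ℚ ℚ_[ℓ]).comp (GaloisRep.ratLocalizedAt ℓ).subtype).codRestrict
    (PadicInt.subring ℓ) (fun z => norm_le_one ℓ z)

/-- The residue hom `ℤ_(ℓ) → 𝔽_ℓ`. -/
def residueHom : ↥(GaloisRep.ratLocalizedAt ℓ) →+* ZMod ℓ := (PadicInt.toZMod).comp (toPadicInt ℓ)

theorem residueHom_surjective : Function.Surjective (residueHom ℓ) := by
  intro m
  refine ⟨((m.val : ℕ) : ↥(GaloisRep.ratLocalizedAt ℓ)), ?_⟩
  rw [map_natCast, ZMod.natCast_zmod_val]

theorem residueHom_prime : residueHom ℓ (ℓ : ↥(GaloisRep.ratLocalizedAt ℓ)) = 0 := by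
  rw [map_natCast, ZMod.natCast_self]

/-- The kernel of the residue hom is `ℓ ℤ_(ℓ)`. -/
theorem residueHom_eq_zero_iff (z : ↥(GaloisRep.ratLocalizedAt ℓ)) :
    residueHom ℓ z = 0 ↔ ∃ w : ↥(GaloisRep.ratLocalizedAt ℓ), z = (ℓ : ↥(GaloisRep.ratLocalizedAt ℓ)) * w := by
  constructor
  · intro hz
    obtain ⟨d, e, hde, hzd, -⟩ := exists_den_inv ℓ z
    have h1 : residueHom ℓ (z * d) = 0 := by rw [map_mul, hz, zero_mul]
    rw [hzd, map_intCast, ZMod.intCast_zmod_eq_zero_iff_dvd] at h1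
    obtain ⟨m, hm⟩ := h1
    refine ⟨(m : ↥(GaloisRep.ratLocalizedAt ℓ)) * e, ?_⟩
    have h2 : z = (((z : ℚ).num : ℤ) : ↥(GaloisRep.ratLocalizedAt ℓ)) * e := by
      rw [← hzd, mul_assoc, hde, mul_one]
    rw [h2, hm]
    push_cast
    ring
  · rintro ⟨w, rfl⟩
    rw [map_mul, residueHom_prime, zero_mul]

/-- **Blueprint §1(d)** for the charts of the Igusa model: if a `ℤ_(ℓ)`-algebra `A` has a ring hom
to `𝔽_ℓ((q))` whose kernel is contained in `ℓ A`, then `A ⊗[ℤ_(ℓ)] K` is a domain for every field `K`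
of characteristic `ℓ`. -/
theorem isDomain_tensor_ratLocalizedAt {A : Type*} [CommRing A] [Algebra ↥(GaloisRep.ratLocalizedAt ℓ) A]
    (K : Type*) [Field K] [CharP K ℓ] [Algebra ↥(GaloisRep.ratLocalizedAt ℓ) K]
    (φ : A →+* LaurentSeries (ZMod ℓ))
    (hker : ∀ a : A, φ a = 0 → ∃ a' : A, a = (ℓ : A) * a') :
    IsDomain (A ⊗[↥(GaloisRep.ratLocalizedAt ℓ)] K) := by
  let _ : Algebra (ZMod ℓ) K := ZMod.algebra K ℓ
  refine isDomain_tensor (residueHom ℓ) (residueHom_surjective ℓ) ?_ (ℓ : ↥(GaloisRep.ratLocalizedAt ℓ)) (residueHom_prime ℓ)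
    φ ?_ ?_
  · intro r
    exact congrArg (fun h : ↥(GaloisRep.ratLocalizedAt ℓ) →+* K => h r)
      (ringHom_ext ℓ (algebraMap ↥(GaloisRep.ratLocalizedAt ℓ) K) ((algebraMap (ZMod ℓ) K).comp (residueHom ℓ)))
  · intro r
    exact congrArg (fun h : ↥(GaloisRep.ratLocalizedAt ℓ) →+* LaurentSeries (ZMod ℓ) => h r)
      (ringHom_ext ℓ (φ.comp (algebraMap ↥(GaloisRep.ratLocalizedAt ℓ) A)) ((HahnSeries.C).comp (residueHom ℓ)))
  · intro a ha
    obtain ⟨a', ha'⟩ := hker a ha
    refine ⟨a', ?_⟩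
    rw [ha', Algebra.smul_def, map_natCast]

end Localized

end

end Fermat.Agent.IG.VAL.TensorDomain22
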