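/-
Program G (S28, Igusa), chapter IG/VAL, helper8: FINAL ASSEMBLY of the chapter.

From the single remaining statement
  `IntegralOv ℓ N : ∀ γ ∈ C0 ℓ N, IsIntegral (Ov ℓ N) γ`   (every element of `FF N ∩ (Gauss ring)` is
  integral over `O_v`; this is where (DEG) + (IRR_N) enter — helper18, part II)
to helper4's top-level deliverable `Interface4.ChartDomain N ℓ`:

* `chartAlg_le_C0` : the three chart algebras lie in `C0 ℓ N` (integral over `ℤℓ[S] ⊂ C0`, and `C0` is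
  integrally closed in `FF N`: `C0Package18.integrallyClosed`);
* `chartRed S hS` : the restriction of `C0Package18.red` to `chartAlg N ℓ S`;
* `chartRed_ker_*` : its kernel is `ℓ · chartAlg` (`C0Package18.ker_red` + `ChartBaseRing21`
  `mem_chartAlg{Fin,Inf,Mid}_of_mul_mem`);
* `chartDomain` : `TensorDomain22.isDomain_tensor_ratLocalizedAt` on the three charts.
-/
import Mathlib
import Fermat.Agent.IG.Interface4
import Fermat.Agent.IG.VAL.ValInterface8
import Fermat.Agent.IG.VAL.C0Package18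
import Fermat.Agent.IG.VAL.ChartBaseRing21
import Fermat.Agent.IG.VAL.TensorDomain22

set_option autoImplicit false

noncomputable section

namespace Fermat.Agent.IG.VAL.ValFinal8

open ModularCurve ModularCurve.IgusaScheme
open Fermat.Agent.IG.VAL.ValInterface8 Fermat.Agent.IG.VAL.C0Package18
open Fermat.Agent.IG.VAL.ChartBaseRing21

variable (ℓ : ℕ) [hℓ : Fact ℓ.Prime] (N : ℕ) [NeZero N]

/-- **The remaining input** (helper18, part II: from `DegLe N` and `Irr ℓ N`): every element of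
`C0 ℓ N = FF N ∩ (Gauss ring)` is integral over `O_v`. -/
def IntegralOv : Prop :=
  ∀ γ : ↥(C0 ℓ N), IsIntegral ↥(Ov ℓ N) (γ : FF N)

/-! ### The charts lie in `C0` -/

theorem jFull_eq_xd : jFull N = xd N 1 (one_dvd N) := by
  apply Subtype.ext
  show jq = qExpand ℚ 1 jq
  rw [qExpand_one_apply]

theorem jFull_mem_C0 : jFull N ∈ C0 ℓ N := by
  rw [jFull_eq_xd]
  exact xd_mem ℓ N 1 (one_dvd N)

theorem red_jFull : red ℓ N ⟨jFull N, jFull_mem_C0 ℓ N⟩ = jqModC (ZMod ℓ) := by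
  have h := red_xd ℓ N 1 (one_dvd N)
  rw [xdC, qExpand_one_apply] at h
  rw [← h]
  congr 1
  exact Subtype.ext (jFull_eq_xd N)

theorem jFull_inv_mem_C0 : (jFull N)⁻¹ ∈ C0 ℓ N := by
  have h : red ℓ N ⟨jFull N, jFull_mem_C0 ℓ N⟩ ≠ 0 := by
    rw [red_jFull]
    exact jqModC_ne_zero_of_nontrivial (ZMod ℓ)
  exact inv_mem_of_red_ne_zero ℓ N ⟨jFull N, jFull_mem_C0 ℓ N⟩ h

/-- A chart algebra whose generators lie in `C0` lies in `C0`. -/
theorem chartAlg_le_C0 (S : Set (FF N)) (hS : S ⊆ (C0 ℓ N : Set (FF N))) :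
    chartAlg N ℓ S ≤ C0 ℓ N := by
  intro x hx
  rw [mem_chartAlg_iff] at hx
  apply integrallyClosed ℓ N x
  have hle : Algebra.adjoin ↥(GaloisRep.ratLocalizedAt ℓ) S ≤ C0 ℓ N := Algebra.adjoin_le hS
  exact hx.map_of_comp_eq (Subalgebra.inclusion hle).toRingHom (RingHom.id (FF N)) (by ext; rfl)

theorem sFin_sub : ({jFull N} : Set (FF N)) ⊆ (C0 ℓ N : Set (FF N)) := by
  rintro x rfl
  exact jFull_mem_C0 ℓ N

theorem sInf_sub : ({(jFull N)⁻¹} : Set (FF N)) ⊆ (C0 ℓ N : Set (FF N)) := by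
  rintro x rfl
  exact jFull_inv_mem_C0 ℓ N

theorem sMid_sub : ({jFull N, (jFull N)⁻¹} : Set (FF N)) ⊆ (C0 ℓ N : Set (FF N)) := by
  rintro x (rfl | rfl)
  · exact jFull_mem_C0 ℓ N
  · exact jFull_inv_mem_C0 ℓ N

/-! ### The reduction of a chart -/

/-- The reduction map of a chart algebra. -/
def chartRed (S : Set (FF N)) (hS : S ⊆ (C0 ℓ N : Set (FF N))) :
    ↥(chartAlg N ℓ S) →+* LaurentSeries (ZMod ℓ) :=
  (red ℓ N).comp (Subalgebra.inclusion (chartAlg_le_C0 ℓ N S hS)).toRingHom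

theorem chartRed_apply (S : Set (FF N)) (hS : S ⊆ (C0 ℓ N : Set (FF N))) (a : ↥(chartAlg N ℓ S)) :
    chartRed ℓ N S hS a = red ℓ N ⟨(a : FF N), chartAlg_le_C0 ℓ N S hS a.2⟩ := rfl

/-- The kernel of the reduction of a chart is `ℓ ·` chart, provided the chart satisfies §1 (c). -/
theorem chartRed_ker (hint : IntegralOv ℓ N) (S : Set (FF N))
    (hS : S ⊆ (C0 ℓ N : Set (FF N)))
    (hc : ∀ b : FF N, IsIntegral ↥(Ov ℓ N) b → (ℓ : FF N) * b ∈ chartAlg N ℓ S →
      b ∈ chartAlg N ℓ S)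
    (a : ↥(chartAlg N ℓ S)) (ha : chartRed ℓ N S hS a = 0) :
    ∃ b : ↥(chartAlg N ℓ S), a = (ℓ : ↥(chartAlg N ℓ S)) * b := by
  rw [chartRed_apply] at ha
  obtain ⟨δ, hδ⟩ := ker_red ℓ N _ ha
  have hδ' : (a : FF N) = (ℓ : FF N) * (δ : FF N) := by
    have := congrArg (fun x : ↥(C0 ℓ N) => (x : FF N)) hδ
    simpa using this
  have hmem : (δ : FF N) ∈ chartAlg N ℓ S := by
    apply hc _ (hint δ)
    rw [← hδ']
    exact a.2
  refine ⟨⟨(δ : FF N), hmem⟩, Subtype.ext ?_⟩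
  rw [hδ']
  simp

/-! ### The final deliverable -/

/-- **IG/VAL, final**: the three chart algebras stay domains after any base change to
characteristic `ℓ`. -/
theorem chartDomain (hint : IntegralOv ℓ N) : Fermat.Agent.IG.Interface4.ChartDomain N ℓ := by
  intro K _ _ _
  refine ⟨?_, ?_, ?_⟩
  · exact TensorDomain22.isDomain_tensor_ratLocalizedAt ℓ K
      (chartRed ℓ N {jFull N} (sFin_sub ℓ N))
      (chartRed_ker ℓ N hint {jFull N} (sFin_sub ℓ N)
        (fun b hb hℓb => mem_chartAlgFin_of_mul_mem N ℓ hb hℓb))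
  · exact TensorDomain22.isDomain_tensor_ratLocalizedAt ℓ K
      (chartRed ℓ N {(jFull N)⁻¹} (sInf_sub ℓ N))
      (chartRed_ker ℓ N hint {(jFull N)⁻¹} (sInf_sub ℓ N)
        (fun b hb hℓb => mem_chartAlgInf_of_mul_mem N ℓ hb hℓb))
  · exact TensorDomain22.isDomain_tensor_ratLocalizedAt ℓ K
      (chartRed ℓ N {jFull N, (jFull N)⁻¹} (sMid_sub ℓ N))
      (chartRed_ker ℓ N hint {jFull N, (jFull N)⁻¹} (sMid_sub ℓ N)
        (fun b hb hℓb => mem_chartAlgMid_of_mul_mem N ℓ hb hℓb))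

end Fermat.Agent.IG.VAL.ValFinal8
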