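/-
Program G (S28, Igusa), chapter IG/VAL, helper18: the C0 package, part II = **(SPAN)**.

From `DegLe N` (AN) and `Irr ℓ N` (PR): there are `ψ(N)` elements `e_i` of `C0 = FF N ∩ gaussRing`
whose residues are `k(j̃)`-independent, and every `b ∈ C0` is a combination `∑ g_i e_i` with
`g_i ∈ ℚ(j) ∩ gaussRing = O_v`.  Consequently every `b ∈ C0` is integral over `O_v`, delivered
* as `IsIntegral ↥(ValInterface8.Ov ℓ N) b` (shape consumed by `ChartBaseRing21`), and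
* unbundled: a monic polynomial over `ℚ((q))` with coefficients in `gaussRing ∩ ℚ(j)` killing `b`.
-/
import Fermat.Agent.IG.VAL.C0Package18
import Fermat.Agent.IG.VAL.OvBasics22
import Fermat.Agent.IG.VAL.UBDef8

set_option autoImplicit false
set_option linter.unusedSectionVars false

noncomputable section

open HahnSeries ModularCurve ModularCurve.IgusaScheme Polynomial

namespace Fermat.Agent.IG.VAL.C0PackageII18

open Fermat.Agent.IG.VAL.ZlRed18 Fermat.Agent.IG.VAL.GaussRing18 Fermat.Agent.IG.VAL.ValInterface8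
open Fermat.Agent.IG.VAL.C0Package18

variable (ℓ : ℕ) [hℓ : Fact ℓ.Prime] (N : ℕ) [NeZero N]

/-- (ResQj) holds (helper22's OV1). -/
theorem resQj : ResQj ℓ := fun _ hc hg => OvBasics22.gaussRed_mem_kj ℓ hc hg

/-- (UB) in the literal `UBDef8` shape. -/
theorem ub' (M : ℕ) [NeZero M] (hdeg : DegLe M) : UBDef8.UB ℓ M :=
  fun n c hc hind => ub ℓ (resQj ℓ) M hdeg n c hc hind

/-! ### Bridge to `ValInterface8.Ov` -/

theorem coe_aeval_jFull (P : (Zl ℓ)[X]) :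
    ((aeval (jFull N) P : FF N) : LaurentSeries ℚ) =
      aeval (jqModC ℚ) (P.map (OvBasics22.incl ℓ)) := by
  induction P using Polynomial.induction_on' with
  | add p q hp hq =>
    rw [map_add, Polynomial.map_add, map_add, ← hp, ← hq]; rfl
  | monomial n a =>
    rw [aeval_monomial, Polynomial.map_monomial, aeval_monomial]
    have h1 : ((algebraMap (Zl ℓ) (FF N) a * jFull N ^ n : FF N) : LaurentSeries ℚ) =
        ((algebraMap (Zl ℓ) (FF N) a : FF N) : LaurentSeries ℚ) * jq ^ n := rfl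
    rw [h1, coe_algebraMap_Zl, embQ_C, jqModC_rat]
    congr 1
    rw [algebraMap_laurentSeries_eq_single]
    rfl

/-- elements of `FF N` lying in `ℚ(j) ∩ gaussRing` are in `O_v`. -/
theorem mem_Ov_of_mem (x : FF N) (hQ : (x : LaurentSeries ℚ) ∈ Qj)
    (hG : (x : LaurentSeries ℚ) ∈ gaussRing ℓ) : x ∈ Ov ℓ N := by
  obtain ⟨f, h, hh, hrel, -⟩ := OvBasics22.exists_rep_of_mem_gaussRing ℓ hQ hG
  refine ⟨f, h, hh, ?_⟩
  apply Subtype.ext
  have : ((x * aeval (jFull N) h : FF N) : LaurentSeries ℚ) =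
      (x : LaurentSeries ℚ) * ((aeval (jFull N) h : FF N) : LaurentSeries ℚ) := rfl
  rw [this, coe_aeval_jFull, coe_aeval_jFull]
  exact hrel

/-! ### `O_v` inside `FF N`, and the basis -/

theorem Qj_le_full : Qj ≤ modularFunctionFieldFull N := by
  rw [Qj, IntermediateField.adjoin_le_iff]
  rintro x hx
  rw [Set.mem_singleton_iff] at hx
  subst hx
  exact (jFull N).2

/-- `O_v` as a subring of `FF N`: the elements of `FF N` lying in `ℚ(j) ∩ gaussRing`. -/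
def OvF : Subring (FF N) where
  carrier := {x | (x : LaurentSeries ℚ) ∈ Qj ∧ (x : LaurentSeries ℚ) ∈ gaussRing ℓ}
  mul_mem' := fun {a b} ha hb => by
    show ((a * b : FF N) : LaurentSeries ℚ) ∈ Qj ∧ ((a * b : FF N) : LaurentSeries ℚ) ∈ gaussRing ℓ
    exact ⟨mul_mem ha.1 hb.1, mul_mem ha.2 hb.2⟩
  one_mem' := ⟨one_mem Qj, one_mem (gaussRing ℓ)⟩
  add_mem' := fun {a b} ha hb => by
    show ((a + b : FF N) : LaurentSeries ℚ) ∈ Qj ∧ ((a + b : FF N) : LaurentSeries ℚ) ∈ gaussRing ℓ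
    exact ⟨add_mem ha.1 hb.1, add_mem ha.2 hb.2⟩
  zero_mem' := ⟨zero_mem Qj, zero_mem (gaussRing ℓ)⟩
  neg_mem' := fun {a} ha => by
    show ((-a : FF N) : LaurentSeries ℚ) ∈ Qj ∧ ((-a : FF N) : LaurentSeries ℚ) ∈ gaussRing ℓ
    exact ⟨neg_mem ha.1, neg_mem ha.2⟩

theorem mem_OvF_iff (x : FF N) : x ∈ OvF ℓ N ↔
    (x : LaurentSeries ℚ) ∈ Qj ∧ (x : LaurentSeries ℚ) ∈ gaussRing ℓ := Iff.rfl

theorem OvF_le_Ov : OvF ℓ N ≤ Ov ℓ N := fun x hx => mem_Ov_of_mem ℓ N x hx.1 hx.2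

theorem OvF_le_C0 : OvF ℓ N ≤ (C0 ℓ N).toSubring := fun _ hx => hx.2

/-- **(SPAN), basis form**: lifts `e_i ∈ C0` of a `k(j̃)`-independent family of `ψ(N)` elements of
`L_N` span `C0` over `O_v`. -/
theorem exists_basis (hdeg : DegLe N) (hirr : Irr ℓ N) :
    ∃ e : Fin (dedekindPsi N) → ↥(C0 ℓ N),
      LinearIndependent ↥(kj ℓ) (fun i => red ℓ N (e i)) ∧
      ∀ b : ↥(C0 ℓ N), ∃ g : Fin (dedekindPsi N) → ↥(OvF ℓ N),
        (b : FF N) = ∑ i, ((g i : ↥(OvF ℓ N)) : FF N) * ((e i : ↥(C0 ℓ N)) : FF N) := by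
  obtain ⟨c, hc, hind⟩ := hirr
  choose γ hγ using fun i => exists_red_eq ℓ N (hc i)
  refine ⟨γ, ?_, ?_⟩
  · have : (fun i => red ℓ N (γ i)) = c := funext hγ
    rw [this]; exact hind
  · intro b
    let e : Fin (dedekindPsi N) → ↥(gaussRing ℓ) := fun i => toGauss ℓ N (γ i)
    have hind' : LinearIndependent ↥(kj ℓ) (fun i => gaussRed ℓ (e i)) := by
      have : (fun i => gaussRed ℓ (e i)) = c := funext hγ
      rw [this]; exact hind
    obtain ⟨g, hgG, hb⟩ := BasisRep18.exists_coeffs (K := ↥Qj) (G := gaussRing ℓ)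
      (ρ := gaussRed ℓ) (inv_mem_of_gaussRed_ne_zero ℓ) (hval_Qj ℓ) (hκ_of_resQj ℓ (resQj ℓ))
      (modularFunctionFieldFull N : Set (LaurentSeries ℚ)) (dedekindPsi N)
      (fun m c hc hl => hdeg m c hc hl) e (fun i => (γ i : FF N).2) hind'
      (toGauss ℓ N b) (b : FF N).2
    refine ⟨fun i => ⟨⟨((g i : ↥Qj) : LaurentSeries ℚ), Qj_le_full N (g i).2⟩, (g i).2, hgG i⟩, ?_⟩
    apply Subtype.ext
    rw [AddSubmonoidClass.coe_finsetSum]
    exact hb.trans (Finset.sum_congr rfl fun i _ => by rw [Algebra.smul_def]; rfl)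

/-- `C0` as an algebra over `O_v`. -/
def C0O : Subalgebra ↥(OvF ℓ N) (FF N) :=
  { (C0 ℓ N).toSubsemiring with
    algebraMap_mem' := fun r => OvF_le_C0 ℓ N r.2 }

theorem mem_C0O_iff (x : FF N) : x ∈ C0O ℓ N ↔ (x : LaurentSeries ℚ) ∈ gaussRing ℓ := Iff.rfl

theorem C0O_fg (hdeg : DegLe N) (hirr : Irr ℓ N) : (C0O ℓ N).toSubmodule.FG := by
  obtain ⟨e, -, he⟩ := exists_basis ℓ N hdeg hirr
  have heq : (C0O ℓ N).toSubmodule =
      Submodule.span ↥(OvF ℓ N) (Set.range fun i => ((e i : ↥(C0 ℓ N)) : FF N)) := by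
    apply le_antisymm
    · intro b hb
      obtain ⟨g, hg⟩ := he ⟨b, hb⟩
      have hb' : b = ∑ i, g i • ((e i : ↥(C0 ℓ N)) : FF N) := hg
      rw [hb']
      exact Submodule.sum_mem _ fun i _ =>
        Submodule.smul_mem _ _ (Submodule.subset_span ⟨i, rfl⟩)
    · rw [Submodule.span_le]
      rintro x ⟨i, rfl⟩
      exact (e i).2
  rw [heq]
  exact Submodule.fg_span (Set.finite_range _)

/-- **(SPAN)** over `OvF`. -/
theorem span_OvF (hdeg : DegLe N) (hirr : Irr ℓ N) (b : FF N)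
    (hb : (b : LaurentSeries ℚ) ∈ gaussRing ℓ) : IsIntegral ↥(OvF ℓ N) b :=
  IsIntegral.of_mem_of_fg (C0O ℓ N) (C0O_fg ℓ N hdeg hirr) b hb

/-- **(SPAN), shape (A)**: every element of `C0 = FF N ∩ gaussRing` is integral over
`ValInterface8.Ov ℓ N` (the hypothesis of `ChartBaseRing21.mem_chartAlg*_of_mul_mem`). -/
theorem span_Ov (hdeg : DegLe N) (hirr : Irr ℓ N) (b : FF N)
    (hb : (b : LaurentSeries ℚ) ∈ gaussRing ℓ) : IsIntegral ↥(Ov ℓ N) b := by
  have := (span_OvF ℓ N hdeg hirr b hb).map_of_comp_eq (Subring.inclusion (OvF_le_Ov ℓ N))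
    (RingHom.id (FF N)) (by ext; rfl)
  simpa using this

/-- **(SPAN), shape (B)**, unbundled: a monic polynomial over `ℚ((q))` with coefficients in
`gaussRing ∩ ℚ(j)` killing `b`. -/
theorem span_unbundled (hdeg : DegLe N) (hirr : Irr ℓ N) (b : FF N)
    (hb : (b : LaurentSeries ℚ) ∈ gaussRing ℓ) :
    ∃ p : (LaurentSeries ℚ)[X], p.Monic ∧ (∀ i, p.coeff i ∈ gaussRing ℓ ∧ p.coeff i ∈ Qj) ∧
      p.eval (b : LaurentSeries ℚ) = 0 := by
  obtain ⟨p, hpm, hp⟩ := span_OvF ℓ N hdeg hirr b hb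
  let φ : ↥(OvF ℓ N) →+* LaurentSeries ℚ :=
    ((modularFunctionFieldFull N).toSubfield.subtype).comp (OvF ℓ N).subtype
  refine ⟨p.map φ, hpm.map φ, fun i => ?_, ?_⟩
  · rw [Polynomial.coeff_map]
    exact ⟨(p.coeff i).2.2, (p.coeff i).2.1⟩
  · rw [Polynomial.eval_map]
    have h := Polynomial.hom_eval₂ p (algebraMap ↥(OvF ℓ N) (FF N))
      ((modularFunctionFieldFull N).toSubfield.subtype) b
    rw [hp, map_zero] at h
    exact h.symm

end Fermat.Agent.IG.VAL.C0PackageII18
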