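import Fermat.Agent.IG.VAL.ChartMem13
import Fermat.Agent.IG.VAL.TensorDomain22
import Fermat.Agent.IG.Interface4
import Fermat.Agent.IG.SCH.SchemeStep13

/-!
# Program G (S28), chapter IG/VAL: from the descent property of the three charts to `ChartDomain`

`ChartDescent N ℓ S` : every `g ∈ B_N = G ∩ FF N` with `ℓ g ∈ chartAlg N ℓ S` lies in `chartAlg N ℓ S`
(blueprint §1(c): `A_S ∩ ℓ B_N = ℓ A_S`).

`chartDomain_of_descent` : `ChartDescent` for the three charts ⇒ `Interface4.ChartDomain N ℓ`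
(via `ChartMem13.chartRed` and `TensorDomain22.isDomain_tensor_ratLocalizedAt`), hence with
`SchemeStep13.s28_of_chartDomain` the frozen statement S28.
-/

set_option autoImplicit false
set_option linter.unusedSectionVars false

noncomputable section

open ModularCurve ModularCurve.IgusaScheme AlgebraicGeometry CategoryTheory CategoryTheory.Limits

namespace Fermat.Agent.IG.VAL.ChartDomainOfDescent13

open Fermat.Agent.IG.VAL.ChartMem13

variable (N : ℕ) [NeZero N] (ℓ : ℕ) [hℓ : Fact ℓ.Prime]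

/-- **§1(c) for the chart `S`**: `A_S ∩ ℓ B_N ⊆ ℓ A_S`, in the form
`g ∈ B_N, ℓ g ∈ A_S ⇒ g ∈ A_S`. -/
def ChartDescent (S : Set ↥(modularFunctionFieldFull N)) : Prop :=
  ∀ g : ↥(modularFunctionFieldFull N), g ∈ BN N ℓ →
    (ℓ : ↥(modularFunctionFieldFull N)) * g ∈ chartAlg N ℓ S → g ∈ chartAlg N ℓ S

/-- One chart: descent ⇒ the base change to any field of characteristic `ℓ` is a domain. -/
theorem isDomain_tensor_of_descent {S : Set ↥(modularFunctionFieldFull N)}
    (hS : S ⊆ {jFull N, (jFull N)⁻¹}) (hdesc : ChartDescent N ℓ S)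
    (K : Type) [Field K] [CharP K ℓ] [Algebra ↥(GaloisRep.ratLocalizedAt ℓ) K] :
    IsDomain (TensorProduct ↥(GaloisRep.ratLocalizedAt ℓ) ↥(chartAlg N ℓ S) K) :=
  TensorDomain22.isDomain_tensor_ratLocalizedAt ℓ K (chartRed N ℓ hS)
    (chartRed_ker_of_descent N ℓ hS hdesc)

/-- **(DOM) from (c)**: descent for the three charts ⇒ `Interface4.ChartDomain N ℓ`. -/
theorem chartDomain_of_descent
    (hFin : ChartDescent N ℓ {jFull N})
    (hInf : ChartDescent N ℓ {(jFull N)⁻¹})
    (hMid : ChartDescent N ℓ {jFull N, (jFull N)⁻¹}) :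
    Interface4.ChartDomain N ℓ := by
  intro K _ _ _
  exact ⟨isDomain_tensor_of_descent N ℓ (sFin_subset N) hFin K,
    isDomain_tensor_of_descent N ℓ (sInf_subset N) hInf K,
    isDomain_tensor_of_descent N ℓ (subset_refl _) hMid K⟩

/-- **S28 from (c)**: descent for the three charts ⇒ the frozen statement S28 (verbatim shape). -/
theorem s28_of_descent
    (hFin : ChartDescent N ℓ {jFull N})
    (hInf : ChartDescent N ℓ {(jFull N)⁻¹})
    (hMid : ChartDescent N ℓ {jFull N, (jFull N)⁻¹})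
    (K : Type) [Field K] [CharP K ℓ] [Algebra ↥(GaloisRep.ratLocalizedAt ℓ) K] :
    IsIntegral ↑(pullback (igusaTo N ℓ)
      (Spec.map (CommRingCat.ofHom (algebraMap ↥(GaloisRep.ratLocalizedAt ℓ) K)))) :=
  SCH.SchemeStep13.s28_of_chartDomain N ℓ (chartDomain_of_descent N ℓ hFin hInf hMid) K

end Fermat.Agent.IG.VAL.ChartDomainOfDescent13
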