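/-
Program G (S28, Igusa), chapter IG/VAL, block (c), final per-chart statements (helper21).

`F = modularFunctionFieldFull N`, `G = GaussRing18.gaussRing ℓ ⊂ ℚ((q))`, `gaussRed : G → 𝔽ℓ((q))`.

Hypothesis `HintOv N ℓ` (to be supplied by the (SPAN) block + `OvBridge22`):
every `b ∈ F ∩ G` is integral over `O_v = ValInterface8.Ov ℓ N`.

Conclusion, for each of the three charts `A = chartAlgFin / chartAlgInf / chartAlgMid N ℓ`:
an element of `A` (lying in `G`) whose Gauss reduction vanishes is `ℓ` times an element of `A`;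
i.e. `A ∩ ℓ·(F ∩ G) = ℓ·A`, blueprint §1(c).
-/
import Mathlib
import Fermat.Agent.IG.VAL.ChartBaseRing21
import Fermat.Agent.IG.VAL.GaussRing18

set_option autoImplicit false

noncomputable section

namespace Fermat.Agent.IG.VAL.ChartKer21

open ModularCurve ModularCurve.IgusaScheme
open Fermat.Agent.IG.VAL Fermat.Agent.IG.VAL.ValInterface8 Fermat.Agent.IG.VAL.GaussRing18
open Fermat.Agent.IG.VAL.ChartBaseRing21

variable (N : ℕ) [NeZero N] (ℓ : ℕ) [Fact ℓ.Prime]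

/-- **(hint)** every element of `F ∩ G` is integral over `O_v` (`Ov`-form). -/
def HintOv : Prop :=
  ∀ b : ↥(modularFunctionFieldFull N), ((b : ↥(modularFunctionFieldFull N)) : LaurentSeries ℚ) ∈
    gaussRing ℓ → IsIntegral ↥(Ov ℓ N) b

omit [NeZero N] in
/-- An element of `F ∩ G` with vanishing Gauss reduction is `ℓ * g` with `g ∈ F ∩ G`. -/
theorem exists_eq_ell_mul_of_gaussRed_eq_zero (a : ↥(modularFunctionFieldFull N))
    (hmem : (a : LaurentSeries ℚ) ∈ gaussRing ℓ) (h0 : gaussRed ℓ ⟨a, hmem⟩ = 0) :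
    ∃ g : ↥(modularFunctionFieldFull N), (g : LaurentSeries ℚ) ∈ gaussRing ℓ ∧
      a = (ℓ : ↥(modularFunctionFieldFull N)) * g := by
  obtain ⟨g, hg⟩ := (gaussRed_eq_zero_iff ℓ ⟨a, hmem⟩).mp h0
  have hg' : (a : LaurentSeries ℚ) = (ℓ : LaurentSeries ℚ) * (g : LaurentSeries ℚ) :=
    congrArg Subtype.val hg
  have hℓ : (ℓ : LaurentSeries ℚ) ≠ 0 := ell_ne_zero ℓ
  have hgF : (g : LaurentSeries ℚ) ∈ modularFunctionFieldFull N := by
    have : (g : LaurentSeries ℚ) = (ℓ : LaurentSeries ℚ)⁻¹ * (a : LaurentSeries ℚ) := by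
      rw [hg', ← mul_assoc, inv_mul_cancel₀ hℓ, one_mul]
    rw [this]
    exact mul_mem (inv_mem (natCast_mem _ ℓ)) a.2
  refine ⟨⟨g, hgF⟩, g.2, Subtype.ext ?_⟩
  rw [hg']
  simp

section Charts

variable {N ℓ}

/-- **§1(c), finite chart.** -/
theorem chartKer_fin (hint : HintOv N ℓ) (a : ↥(chartAlgFin N ℓ))
    (hmem : ((a : ↥(modularFunctionFieldFull N)) : LaurentSeries ℚ) ∈ gaussRing ℓ)
    (h0 : gaussRed ℓ ⟨_, hmem⟩ = 0) :
    ∃ b : ↥(chartAlgFin N ℓ), a = (ℓ : ↥(chartAlgFin N ℓ)) * b := by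
  obtain ⟨g, hgG, hag⟩ := exists_eq_ell_mul_of_gaussRed_eq_zero N ℓ a hmem h0
  have hmem' : (ℓ : ↥(modularFunctionFieldFull N)) * g ∈ chartAlgFin N ℓ := by
    rw [← hag]; exact a.2
  refine ⟨⟨g, mem_chartAlgFin_of_mul_mem N ℓ (hint g hgG) hmem'⟩, Subtype.ext ?_⟩
  simp [hag]

/-- **§1(c), chart at infinity.** -/
theorem chartKer_inf (hint : HintOv N ℓ) (a : ↥(chartAlgInf N ℓ))
    (hmem : ((a : ↥(modularFunctionFieldFull N)) : LaurentSeries ℚ) ∈ gaussRing ℓ)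
    (h0 : gaussRed ℓ ⟨_, hmem⟩ = 0) :
    ∃ b : ↥(chartAlgInf N ℓ), a = (ℓ : ↥(chartAlgInf N ℓ)) * b := by
  obtain ⟨g, hgG, hag⟩ := exists_eq_ell_mul_of_gaussRed_eq_zero N ℓ a hmem h0
  have hmem' : (ℓ : ↥(modularFunctionFieldFull N)) * g ∈ chartAlgInf N ℓ := by
    rw [← hag]; exact a.2
  refine ⟨⟨g, mem_chartAlgInf_of_mul_mem N ℓ (hint g hgG) hmem'⟩, Subtype.ext ?_⟩
  simp [hag]

/-- **§1(c), middle chart.** -/
theorem chartKer_mid (hint : HintOv N ℓ) (a : ↥(chartAlgMid N ℓ))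
    (hmem : ((a : ↥(modularFunctionFieldFull N)) : LaurentSeries ℚ) ∈ gaussRing ℓ)
    (h0 : gaussRed ℓ ⟨_, hmem⟩ = 0) :
    ∃ b : ↥(chartAlgMid N ℓ), a = (ℓ : ↥(chartAlgMid N ℓ)) * b := by
  obtain ⟨g, hgG, hag⟩ := exists_eq_ell_mul_of_gaussRed_eq_zero N ℓ a hmem h0
  have hmem' : (ℓ : ↥(modularFunctionFieldFull N)) * g ∈ chartAlgMid N ℓ := by
    rw [← hag]; exact a.2
  refine ⟨⟨g, mem_chartAlgMid_of_mul_mem N ℓ (hint g hgG) hmem'⟩, Subtype.ext ?_⟩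
  simp [hag]

end Charts

end Fermat.Agent.IG.VAL.ChartKer21
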