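/-
Program G (S28, Igusa), chapter IG/VAL, blueprint §1(c) — ABSTRACT integral descent (helper21).

Setting: `R ⊂ O` integrally closed domains with the same fraction field `K0`, `L / K0` a field
extension, `π ∈ R`, `π ≠ 0`, with hypothesis
  (H)  for `x ∈ O`:  `π * x ∈ R → x ∈ R`     (all inside `K0`).
Then for `b ∈ L`:  `b` integral over `O` and `π • b` integral over `R`  ⟹  `b` integral over `R`.

(The coefficients `c_i` of `minpoly K0 b` lie in `O`; `minpoly K0 (π • b)` is the `scaleRoots`
transform with coefficients `c_i * π ^ (d - i)`, which lie in `R`; iterate (H).)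
-/
import Mathlib

set_option autoImplicit false

open Polynomial

namespace Fermat.Agent.IG.VAL.IntegralDescent21

/-- Hypothesis (H), stated inside the common fraction field `K0`:
an element of `O` whose `π`-multiple lies in `R` lies in `R`. -/
def DescentHyp (R O K0 : Type*) [CommRing R] [CommRing O] [Field K0] [Algebra R K0] [Algebra O K0]
    (π : R) : Prop :=
  ∀ x : K0, x ∈ (algebraMap O K0).range → algebraMap R K0 π * x ∈ (algebraMap R K0).range →
    x ∈ (algebraMap R K0).range

section Abstract

variable {R O K0 L : Type*} [CommRing R] [CommRing O] [Field K0] [Field L]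
  [Algebra R K0] [Algebra O K0]

theorem DescentHyp.pow {π : R} (H : DescentHyp R O K0 π)
    (hRO : (algebraMap R K0).range ≤ (algebraMap O K0).range) (n : ℕ) :
    ∀ x : K0, x ∈ (algebraMap O K0).range → x * algebraMap R K0 π ^ n ∈ (algebraMap R K0).range →
      x ∈ (algebraMap R K0).range := by
  induction n with
  | zero => intro x _ hx; simpa using hx
  | succ n ih =>
    intro x hxO hx
    apply ih x hxO
    apply H _ _
    · rw [pow_succ, ← mul_assoc, mul_comm] at hx
      exact hx
    · exact Subring.mul_mem _ hxO (Subring.pow_mem _ (hRO ⟨π, rfl⟩) n)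

variable [IsDomain R] [IsIntegrallyClosed R] [IsDomain O] [IsIntegrallyClosed O]
  [IsFractionRing R K0] [IsFractionRing O K0]
  [Algebra K0 L] [Algebra R L] [Algebra O L] [IsScalarTower R K0 L] [IsScalarTower O K0 L]

/-- **Abstract §1(c).**  `b` integral over `O`, `π • b` integral over `R` ⟹ `b` integral over `R`. -/
theorem isIntegral_of_isIntegral_smul {π : R} (hπ : π ≠ 0) (H : DescentHyp R O K0 π)
    (hRO : (algebraMap R K0).range ≤ (algebraMap O K0).range)
    {b : L} (hO : IsIntegral O b) (hR : IsIntegral R (π • b)) : IsIntegral R b := by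
  have hπ0 : algebraMap R K0 π ≠ 0 := by
    simpa using (IsFractionRing.injective R K0).ne hπ
  -- minimal polynomials over `K0`
  have h1 : minpoly K0 b = (minpoly O b).map (algebraMap O K0) :=
    minpoly.isIntegrallyClosed_eq_field_fractions' K0 hO
  have h2 : minpoly K0 (π • b) = (minpoly R (π • b)).map (algebraMap R K0) :=
    minpoly.isIntegrallyClosed_eq_field_fractions' K0 hR
  have hb : IsIntegral K0 b := hO.tower_top
  have h3 : minpoly K0 (π • b) = (minpoly K0 b).scaleRoots (algebraMap R K0 π) := by
    rw [← IsIntegrallyClosed.minpoly_smul hπ0 hb, algebraMap_smul]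
  -- all coefficients of `minpoly K0 b` lie in `R`
  have hcoeff : ∀ i, (minpoly K0 b).coeff i ∈ (algebraMap R K0).range := by
    intro i
    apply H.pow hRO ((minpoly K0 b).natDegree - i)
    · rw [h1, coeff_map]; exact ⟨_, rfl⟩
    · rw [← coeff_scaleRoots, ← h3, h2, coeff_map]; exact ⟨_, rfl⟩
  have hlifts : minpoly K0 b ∈ Polynomial.lifts (algebraMap R K0) :=
    (Polynomial.lifts_iff_coeff_lifts _).mpr hcoeff
  obtain ⟨q, hq, -, hqmonic⟩ :=
    Polynomial.lifts_and_natDegree_eq_and_monic hlifts (minpoly.monic hb)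
  refine ⟨q, hqmonic, ?_⟩
  have : aeval b (q.map (algebraMap R K0)) = 0 := by rw [hq]; exact minpoly.aeval K0 b
  rwa [aeval_map_algebraMap] at this

end Abstract

section PrimeCase

variable {R O K0 : Type*} [CommRing R] [IsDomain R] [CommRing O] [Field K0]
  [Algebra R K0] [Algebra O K0] [FaithfulSMul R K0]

/-- (H) holds as soon as `π` is a prime element of `R` and every element of `O` is a fraction
`r / s` with `r, s ∈ R`, `π ∤ s`. -/
theorem descentHyp_of_prime {π : R} (hπ : Prime π)
    (hO : ∀ x ∈ (algebraMap O K0).range, ∃ r s : R, ¬ π ∣ s ∧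
      x * algebraMap R K0 s = algebraMap R K0 r) :
    DescentHyp R O K0 π := by
  have hinj : Function.Injective (algebraMap R K0) := FaithfulSMul.algebraMap_injective R K0
  intro x hxO hx
  obtain ⟨r, s, hs, hxs⟩ := hO x hxO
  obtain ⟨t, ht⟩ := hx
  -- `π * r = t * s` in `R`
  have h1 : π * r = t * s := by
    apply hinj
    rw [map_mul, map_mul, ← hxs, ht]; ring
  have h2 : π ∣ t := (hπ.dvd_or_dvd ⟨r, h1.symm⟩).resolve_right hs
  obtain ⟨t', rfl⟩ := h2
  have h3 : r = t' * s := by
    have : π * r = π * (t' * s) := by rw [h1]; ring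
    exact mul_left_cancel₀ hπ.ne_zero this
  have hs0 : algebraMap R K0 s ≠ 0 := by
    intro h0
    apply hs
    have : s = 0 := hinj (by rw [h0, map_zero])
    rw [this]; exact dvd_zero _
  refine ⟨t', ?_⟩
  have : x * algebraMap R K0 s = algebraMap R K0 t' * algebraMap R K0 s := by
    rw [hxs, h3, map_mul]
  exact (mul_right_cancel₀ hs0 this).symm

/-- (H) for `O` = the localisation of `R` at the prime ideal `(π)`. -/
theorem descentHyp_of_isLocalization_atPrime [Algebra R O] [IsScalarTower R O K0] {π : R}
    (hπ : Prime π) [hP : (Ideal.span {π}).IsPrime] [IsLocalization.AtPrime O (Ideal.span {π})] :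
    DescentHyp R O K0 π := by
  apply descentHyp_of_prime hπ
  rintro _ ⟨y, rfl⟩
  obtain ⟨r, s, rfl⟩ := IsLocalization.exists_mk'_eq (Ideal.span {π}).primeCompl y
  refine ⟨r, s, ?_, ?_⟩
  · intro h
    exact s.2 (Ideal.mem_span_singleton.mpr h)
  · rw [IsScalarTower.algebraMap_apply R O K0 s, ← map_mul, IsLocalization.mk'_spec,
      ← IsScalarTower.algebraMap_apply]

end PrimeCase

end Fermat.Agent.IG.VAL.IntegralDescent21
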