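/-
Program G (S28), chapter IG/VAL, block (c) — helper23.

SATURATION of the chart algebras in the Gauss ring:  for the three charts `S = {j}, {1/j}, {j, 1/j}`
  `g ∈ FF N`, `g ∈ G` (Gauss ring), `ℓ * g ∈ chartAlg N ℓ S`  ⟹  `g ∈ chartAlg N ℓ S`,
given that `g` is integral over `O_v = G ∩ ℚ(j)` (hypothesis `HintAt`, unbundled).
Hence `chartAlg ∩ ℓ·G = ℓ·chartAlg`, i.e. `chartAlg/ℓ ↪ 𝔽_ℓ((q))`.

Route: the two polynomial charts `ℤℓ[t]`, `t ∈ {j, 1/j}`, uniformly, by `IntegralDescent21`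
(`DescentHyp` from: `r ∈ ℤℓ[t]`, `red r = 0 ⟹ ℓ ∣ r` in `ℤℓ[t]`); the middle chart from the
first by the prelude lemma `exists_pow_mul_mem_chartAlg`.
-/
import Mathlib
import Fermat.Prelude.Def_ModularCurve_IgusaScheme
import Fermat.Agent.IG.VAL.GaussRing18
import Fermat.Agent.IG.VAL.IntegralDescent21
import Fermat.Agent.IG.VAL.Zl13
import Fermat.Agent.IG.VAL.BasisRep18
import Fermat.Agent.IG.AN.IntDescent16

set_option autoImplicit false
set_option linter.unusedSectionVars false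

noncomputable section

namespace Fermat.Agent.IG.VAL.ChartKer23

open ModularCurve ModularCurve.IgusaScheme Polynomial IntermediateField
open Fermat.Agent.IG.VAL.ZlRed18 Fermat.Agent.IG.VAL.GaussRing18

variable (ℓ : ℕ) [hℓ : Fact ℓ.Prime] (N : ℕ) [NeZero N]

set_option quotPrecheck false in
local notation "F" => ↥(modularFunctionFieldFull N)
set_option quotPrecheck false in
local notation "ℤℓ" => ↥(GaloisRep.ratLocalizedAt ℓ)

/-- The coercion `FF N → ℚ((q))` as a ring hom. -/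
def toQ : F →+* LaurentSeries ℚ := (modularFunctionFieldFull N).toSubfield.subtype

@[simp] theorem toQ_apply (x : F) : toQ N x = (x : LaurentSeries ℚ) := rfl

theorem toQ_injective : Function.Injective (toQ N) := Subtype.val_injective

/-- `B_N = G ∩ FF N`, a valuation subring of `FF N`. -/
abbrev BN : ValuationSubring F :=
  gaussVS ℓ (modularFunctionFieldFull N) (full_le_fracField ℓ N)

theorem mem_BN_iff (x : F) : x ∈ BN ℓ N ↔ (x : LaurentSeries ℚ) ∈ gaussRing ℓ :=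
  mem_gaussVS_iff ℓ _ _ x

/-- The residue map on `B_N`. -/
abbrev redN : BN ℓ N →+* LaurentSeries (ZMod ℓ) :=
  gaussVSRed ℓ (modularFunctionFieldFull N) (full_le_fracField ℓ N)

theorem redN_apply (x : BN ℓ N) :
    redN ℓ N x = gaussRed ℓ ⟨((x : F) : LaurentSeries ℚ), (mem_BN_iff ℓ N x).mp x.2⟩ := rfl

/-- constants: the image of `c ∈ ℤℓ` in `ℚ((q))`. -/
theorem coe_algebraMap_Zl (c : ℤℓ) :
    ((algebraMap ℤℓ F c : F) : LaurentSeries ℚ) = embQ ℓ (HahnSeries.C c) := by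
  rw [embQ_C]
  have h1 : (algebraMap ℤℓ F c : F) = algebraMap ℚ F (c : ℚ) := rfl
  rw [h1]
  have h2 : (modularFunctionFieldFull N).toSubfield.subtype.comp
      (algebraMap ℚ ↥(modularFunctionFieldFull N)) = (HahnSeries.C : ℚ →+* LaurentSeries ℚ) :=
    Subsingleton.elim _ _
  exact congrArg (fun f => f (c : ℚ)) h2

theorem algebraMap_Zl_mem (c : ℤℓ) : algebraMap ℤℓ F c ∈ BN ℓ N := by
  rw [mem_BN_iff, coe_algebraMap_Zl]
  exact embQ_mem ℓ _

theorem redN_algebraMap_Zl (c : ℤℓ) :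
    redN ℓ N ⟨algebraMap ℤℓ F c, algebraMap_Zl_mem ℓ N c⟩ = HahnSeries.C (redZl ℓ c) := by
  rw [redN_apply]
  have : (⟨((algebraMap ℤℓ F c : F) : LaurentSeries ℚ), (mem_BN_iff ℓ N _).mp
      (algebraMap_Zl_mem ℓ N c)⟩ : gaussRing ℓ) = ⟨embQ ℓ (HahnSeries.C c), embQ_mem ℓ _⟩ :=
    Subtype.ext (coe_algebraMap_Zl ℓ N c)
  rw [this, gaussRed_embQ, redL_C]

/-- `ℤℓ → B_N`. -/
def zlToBN : ℤℓ →+* BN ℓ N where
  toFun c := ⟨algebraMap ℤℓ F c, algebraMap_Zl_mem ℓ N c⟩
  map_one' := Subtype.ext (map_one _)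
  map_mul' a b := Subtype.ext (map_mul _ a b)
  map_zero' := Subtype.ext (map_zero _)
  map_add' a b := Subtype.ext (map_add _ a b)

section PolyChart

variable (t : ↥(modularFunctionFieldFull N)) (ht : t ∈ BN ℓ N)

/-- `P ↦ P(t)` as a ring hom `ℤℓ[X] → B_N`. -/
def evalBN : ℤℓ[X] →+* BN ℓ N := Polynomial.eval₂RingHom (zlToBN ℓ N) ⟨t, ht⟩

theorem coe_evalBN (P : ℤℓ[X]) : ((evalBN ℓ N t ht P : BN ℓ N) : F) = aeval t P := by
  have h : (BN ℓ N).subtype.comp (evalBN ℓ N t ht) = (aeval (R := ℤℓ) t).toRingHom := by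
    refine Polynomial.ringHom_ext (fun c => ?_) ?_
    · simp only [RingHom.comp_apply, evalBN, Polynomial.coe_eval₂RingHom, Polynomial.eval₂_C,
        AlgHom.toRingHom_eq_coe, RingHom.coe_coe, Polynomial.aeval_C]
      rfl
    · simp only [RingHom.comp_apply, evalBN, Polynomial.coe_eval₂RingHom, Polynomial.eval₂_X,
        AlgHom.toRingHom_eq_coe, RingHom.coe_coe, Polynomial.aeval_X]
      rfl
  exact congrArg (fun f => f P) h

include ht in
theorem aeval_mem_BN (P : ℤℓ[X]) : aeval t P ∈ BN ℓ N := by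
  rw [← coe_evalBN ℓ N t ht]; exact (evalBN ℓ N t ht P).2

/-- Reduction of `P(t)` is `P̃(t̃)`. -/
theorem redN_evalBN (P : ℤℓ[X]) :
    redN ℓ N (evalBN ℓ N t ht P) = aeval (redN ℓ N ⟨t, ht⟩) (P.map (redZl ℓ)) := by
  have h : (redN ℓ N).comp (evalBN ℓ N t ht) =
      ((aeval (R := ZMod ℓ) (redN ℓ N ⟨t, ht⟩)).toRingHom).comp
        (Polynomial.mapRingHom (redZl ℓ)) := by
    refine Polynomial.ringHom_ext (fun c => ?_) ?_
    · simp only [RingHom.comp_apply, evalBN, Polynomial.coe_eval₂RingHom, Polynomial.eval₂_C,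
        Polynomial.coe_mapRingHom, Polynomial.map_C, AlgHom.toRingHom_eq_coe, RingHom.coe_coe,
        Polynomial.aeval_C]
      rw [algebraMap_laurentSeries_eq_single, ← HahnSeries.C_apply]
      exact redN_algebraMap_Zl ℓ N c
    · simp only [RingHom.comp_apply, evalBN, Polynomial.coe_eval₂RingHom, Polynomial.eval₂_X,
        Polynomial.coe_mapRingHom, Polynomial.map_X, AlgHom.toRingHom_eq_coe, RingHom.coe_coe,
        Polynomial.aeval_X]
  exact congrArg (fun f => f P) h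

variable (htr : Function.Injective (aeval (R := ZMod ℓ) (redN ℓ N ⟨t, ht⟩)))

include htr in
/-- **KEY**: if `P(t)` has zero residue then `ℓ ∣ P` in `ℤℓ[X]`. -/
theorem key (P : ℤℓ[X]) (h0 : redN ℓ N (evalBN ℓ N t ht P) = 0) :
    ∃ P' : ℤℓ[X], P = Polynomial.C (ℓ : ℤℓ) * P' := by
  rw [redN_evalBN, ← map_zero (aeval (R := ZMod ℓ) (redN ℓ N ⟨t, ht⟩))] at h0
  have h1 := htr h0
  have h2 : P.map (Zl13.resZl ℓ) = 0 := by
    rw [Subsingleton.elim (Zl13.resZl ℓ) (redZl ℓ)]; exact h1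
  exact (Zl13.map_resZl_eq_zero_iff ℓ).mp h2

/-- Unbundled integrality of `g` over `O_v = G ∩ ℚ(j)`: a monic polynomial over `ℚ((q))` with
coefficients in `G ∩ ℚ(j)` killing `g`. -/
def HintAt (g : ↥(modularFunctionFieldFull N)) : Prop :=
  ∃ p : (LaurentSeries ℚ)[X], p.Monic ∧ (∀ i, p.coeff i ∈ gaussRing ℓ ∧ p.coeff i ∈ ℚ⟮jq⟯) ∧
    p.eval (g : LaurentSeries ℚ) = 0

end PolyChart

section Abstract

/-- **Saturation, abstract form**: `R₀ → FF N` an injective ring hom from an integrally closed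
domain with image in `B_N`, such that (KEY) elements of `R₀` with zero residue are divisible by `ℓ`
in `R₀`, and such that `j` lies in the fraction field of `R₀`.  Then `g ∈ B_N` integral over `O_v`,
`ℓ g` integral over `R₀` ⟹ `g` integral over `R₀`. -/
theorem saturated_of_key {R₀ : Type*} [CommRing R₀] [IsDomain R₀] [IsIntegrallyClosed R₀]
    [Algebra R₀ ↥(modularFunctionFieldFull N)]
    (hinj : Function.Injective (algebraMap R₀ ↥(modularFunctionFieldFull N)))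
    (hRB : ∀ r : R₀, algebraMap R₀ ↥(modularFunctionFieldFull N) r ∈ BN ℓ N)
    (hkey : ∀ r : R₀, redN ℓ N ⟨algebraMap R₀ ↥(modularFunctionFieldFull N) r, hRB r⟩ = 0 →
      ∃ r' : R₀, r = (ℓ : R₀) * r')
    (hj : ∃ a b : R₀, b ≠ 0 ∧
      jFull N * algebraMap R₀ ↥(modularFunctionFieldFull N) b =
        algebraMap R₀ ↥(modularFunctionFieldFull N) a)
    (g : ↥(modularFunctionFieldFull N)) (hint : HintAt ℓ N g)
    (hℓg : IsIntegral R₀ ((ℓ : ↥(modularFunctionFieldFull N)) * g)) :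
    IsIntegral R₀ g := by
  classical
  letI algK0F : Algebra (FractionRing R₀) F := (IsFractionRing.lift hinj).toAlgebra
  haveI towR : IsScalarTower R₀ (FractionRing R₀) F :=
    IsScalarTower.of_algebraMap_eq fun x => (IsFractionRing.lift_algebraMap hinj x).symm
  have hval : ∀ c : FractionRing R₀, algebraMap (FractionRing R₀) F c ∈ (BN ℓ N).toSubring ∨
      (algebraMap (FractionRing R₀) F c)⁻¹ ∈ (BN ℓ N).toSubring :=
    fun c => (BN ℓ N).mem_or_inv_mem _
  set O : ValuationSubring (FractionRing R₀) := BasisRep18.cutVS (BN ℓ N).toSubring hval with hO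
  have hOmem : ∀ x : FractionRing R₀, x ∈ O ↔ algebraMap (FractionRing R₀) F x ∈ BN ℓ N :=
    fun x => BasisRep18.mem_cutVS_iff _ hval x
  letI algOF : Algebra ↥O F := ((algebraMap (FractionRing R₀) F).comp O.subtype).toAlgebra
  haveI towO : IsScalarTower ↥O (FractionRing R₀) F :=
    IsScalarTower.of_algebraMap_eq fun x => rfl
  have hℓF : (ℓ : F) ≠ 0 := Nat.cast_ne_zero.mpr hℓ.out.ne_zero
  have hπ : ((ℓ : ℕ) : R₀) ≠ 0 := by
    intro h
    apply hℓF
    have := congrArg (algebraMap R₀ F) h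
    simpa using this
  have hιinj : Function.Injective (algebraMap (FractionRing R₀) F) :=
    (algebraMap (FractionRing R₀) F).injective
  have hℓk : ((ℓ : ℕ) : LaurentSeries (ZMod ℓ)) = 0 := by
    rw [← map_natCast (HahnSeries.C : ZMod ℓ →+* LaurentSeries (ZMod ℓ)), ZMod.natCast_self,
      map_zero]
  -- `R₀ ⊂ O`
  have hRO : (algebraMap R₀ (FractionRing R₀)).range ≤
      (algebraMap ↥O (FractionRing R₀)).range := by
    rintro _ ⟨r, rfl⟩
    refine ⟨⟨algebraMap R₀ _ r, (hOmem _).mpr ?_⟩, rfl⟩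
    rw [← IsScalarTower.algebraMap_apply]
    exact hRB r
  -- the descent hypothesis from (KEY)
  have H : IntegralDescent21.DescentHyp R₀ ↥O (FractionRing R₀) ((ℓ : ℕ) : R₀) := by
    rintro x ⟨⟨x', hx'⟩, rfl⟩ ⟨r, hr⟩
    have hx'B : algebraMap (FractionRing R₀) F x' ∈ BN ℓ N := (hOmem x').mp hx'
    have h1 : algebraMap R₀ F r = (ℓ : F) * algebraMap (FractionRing R₀) F x' := by
      have := congrArg (algebraMap (FractionRing R₀) F) hr
      rw [← IsScalarTower.algebraMap_apply, map_mul, ← IsScalarTower.algebraMap_apply,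
        map_natCast] at this
      exact this
    have h2 : redN ℓ N ⟨algebraMap R₀ F r, hRB r⟩ = 0 := by
      have h3 : (⟨algebraMap R₀ F r, hRB r⟩ : BN ℓ N) = ((ℓ : ℕ) : BN ℓ N) * ⟨_, hx'B⟩ :=
        Subtype.ext (by simpa using h1)
      rw [h3, map_mul, map_natCast, hℓk, zero_mul]
    obtain ⟨r', rfl⟩ := hkey r h2
    refine ⟨r', ?_⟩
    apply hιinj
    rw [← IsScalarTower.algebraMap_apply]
    have h4 : (ℓ : F) * algebraMap R₀ F r' = (ℓ : F) * algebraMap (FractionRing R₀) F x' := by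
      rw [← h1, map_mul, map_natCast]
    exact mul_left_cancel₀ hℓF h4
  have hR : IsIntegral R₀ (((ℓ : ℕ) : R₀) • g) := by
    rw [Algebra.smul_def, map_natCast]; exact hℓg
  -- integrality over `O` from the unbundled hint
  have hO : IsIntegral ↥O g := by
    obtain ⟨p, hmonic, hcoef, hroot⟩ := hint
    set φ : FractionRing R₀ →+* LaurentSeries ℚ := (toQ N).comp (algebraMap (FractionRing R₀) F)
      with hφ
    -- `ℚ(j)` lies in the image of `Frac R₀`
    have hjφ : jq ∈ φ.fieldRange := by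
      obtain ⟨a, b, hb, hab⟩ := hj
      have hb' : algebraMap R₀ (FractionRing R₀) b ≠ 0 := by
        intro h0
        exact hb (IsFractionRing.injective R₀ (FractionRing R₀) (by rw [h0, map_zero]))
      refine ⟨algebraMap R₀ _ a / algebraMap R₀ _ b, ?_⟩
      have h5 : algebraMap (FractionRing R₀) F (algebraMap R₀ _ a / algebraMap R₀ _ b) =
          jFull N := by
        rw [map_div₀, ← IsScalarTower.algebraMap_apply, ← IsScalarTower.algebraMap_apply, ← hab]
        have hbF : algebraMap R₀ F b ≠ 0 := fun h0 => hb (hinj (by rw [h0, map_zero]))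
        exact mul_div_cancel_right₀ _ hbF
      show toQ N (algebraMap (FractionRing R₀) F _) = jq
      rw [h5]; rfl
    have hQj : ∀ c ∈ ℚ⟮jq⟯, c ∈ φ.fieldRange := by
      intro c hc
      induction hc using IntermediateField.adjoin_induction with
      | mem x hx =>
        rw [Set.mem_singleton_iff] at hx
        rw [hx]; exact hjφ
      | algebraMap r =>
        rw [eq_ratCast]
        exact ⟨(r : FractionRing R₀), map_ratCast φ r⟩
      | add x y _ _ hx hy => exact add_mem hx hy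
      | inv x _ hx => exact inv_mem hx
      | mul x y _ _ hx hy => exact mul_mem hx hy
    set ψ : ↥O →+* LaurentSeries ℚ := (toQ N).comp (algebraMap ↥O F) with hψ
    have hlifts : p ∈ Polynomial.lifts ψ := by
      refine (Polynomial.lifts_iff_coeff_lifts p).mpr fun i => ?_
      obtain ⟨x, hx⟩ := hQj _ (hcoef i).2
      have hxO : x ∈ O := by
        rw [hOmem, mem_BN_iff]
        have : ((algebraMap (FractionRing R₀) F x : F) : LaurentSeries ℚ) = p.coeff i := hx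
        rw [this]; exact (hcoef i).1
      exact ⟨⟨x, hxO⟩, hx⟩
    obtain ⟨q, hqp, -, hqmonic⟩ := Polynomial.lifts_and_natDegree_eq_and_monic hlifts hmonic
    refine ⟨q, hqmonic, ?_⟩
    apply toQ_injective N
    rw [map_zero, Polynomial.hom_eval₂, ← Polynomial.eval_map, ← hψ, hqp]
    exact hroot
  exact IntegralDescent21.isIntegral_of_isIntegral_smul hπ H hRO hO hR

end Abstract

section PolyChartSat

variable (t : ↥(modularFunctionFieldFull N)) (ht : t ∈ BN ℓ N)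
  (htr : Function.Injective (aeval (R := ZMod ℓ) (redN ℓ N ⟨t, ht⟩)))

include htr in
/-- `t` is transcendental over `ℤℓ` as soon as its residue is transcendental over `𝔽_ℓ`. -/
theorem aeval_injective_of_red : Function.Injective (aeval (R := ℤℓ) t) := by
  rw [injective_iff_map_eq_zero]
  intro P hP
  by_contra hP0
  obtain ⟨n, P₀, hnd, rfl⟩ := WfDvdMonoid.max_power_factor hP0 (Zl13.prime_C_ell ℓ).irreducible
  have hℓF : (ℓ : F) ≠ 0 := Nat.cast_ne_zero.mpr hℓ.out.ne_zero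
  have h1 : aeval t P₀ = 0 := by
    rw [map_mul, map_pow, aeval_C, map_natCast] at hP
    exact (mul_eq_zero.mp hP).resolve_left (pow_ne_zero _ hℓF)
  have h2 : evalBN ℓ N t ht P₀ = 0 := Subtype.ext (by rw [coe_evalBN, h1]; rfl)
  obtain ⟨P', hP'⟩ := key ℓ N t ht htr P₀ (by rw [h2, map_zero])
  exact hnd ⟨P', hP'⟩

include htr in
/-- **Saturation for a polynomial chart `ℤℓ[t]`** (`t = j` or `t = 1/j`). -/
theorem saturated_poly
    (hj : jFull N = t ∨ jFull N = t⁻¹)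
    (g : ↥(modularFunctionFieldFull N)) (hint : HintAt ℓ N g)
    (hℓg : (ℓ : ↥(modularFunctionFieldFull N)) * g ∈ chartAlg N ℓ {t}) :
    g ∈ chartAlg N ℓ {t} := by
  classical
  have htQ := aeval_injective_of_red ℓ N t ht htr
  rw [mem_chartAlg_iff] at hℓg ⊢
  have hRrange : Algebra.adjoin ℤℓ {t} = (aeval (R := ℤℓ) t).range :=
    Algebra.adjoin_singleton_eq_range_aeval ℤℓ t
  have hRmem : ∀ r : Algebra.adjoin ℤℓ {t}, ∃ P : ℤℓ[X], aeval t P = (r : F) := by
    intro r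
    have : (r : F) ∈ (aeval (R := ℤℓ) t).range := by rw [← hRrange]; exact r.2
    exact this
  have hmemR : ∀ P : ℤℓ[X], aeval t P ∈ Algebra.adjoin ℤℓ {t} := by
    intro P; rw [hRrange]; exact ⟨P, rfl⟩
  haveI hIC : IsIntegrallyClosed ↥(Algebra.adjoin ℤℓ {t}) := by
    have e : ℤℓ[X] ≃+* ↥(Algebra.adjoin ℤℓ {t}) :=
      ((AlgEquiv.ofInjective (aeval (R := ℤℓ) t) htQ).trans
        (Subalgebra.equivOfEq _ _ hRrange.symm)).toRingEquiv
    exact IsIntegrallyClosed.of_equiv e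
  have hRB : ∀ r : Algebra.adjoin ℤℓ {t}, algebraMap ↥(Algebra.adjoin ℤℓ {t}) F r ∈ BN ℓ N := by
    intro r
    obtain ⟨P, hP⟩ := hRmem r
    show (r : F) ∈ BN ℓ N
    rw [← hP]; exact aeval_mem_BN ℓ N t ht P
  have ht0 : t ≠ 0 := by
    rintro rfl
    rcases hj with h | h
    · exact jFull_ne_zero N h
    · exact jFull_ne_zero N (by rw [h, inv_zero])
  refine saturated_of_key ℓ N (R₀ := ↥(Algebra.adjoin ℤℓ {t})) Subtype.val_injective hRB ?_ ?_
    g hint hℓg
  · intro r h0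
    obtain ⟨P, hP⟩ := hRmem r
    have h1 : (⟨algebraMap ↥(Algebra.adjoin ℤℓ {t}) F r, hRB r⟩ : BN ℓ N) = evalBN ℓ N t ht P :=
      Subtype.ext (by rw [coe_evalBN]; exact hP.symm)
    rw [h1] at h0
    obtain ⟨P', rfl⟩ := key ℓ N t ht htr P h0
    refine ⟨⟨aeval t P', hmemR P'⟩, Subtype.ext ?_⟩
    rw [← hP, map_mul, aeval_C, map_natCast]
    simp
  · rcases hj with h | h
    · refine ⟨⟨t, Algebra.self_mem_adjoin_singleton ℤℓ t⟩, 1, one_ne_zero, ?_⟩
      rw [map_one, mul_one, h]; rfl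
    · refine ⟨1, ⟨t, Algebra.self_mem_adjoin_singleton ℤℓ t⟩, ?_, ?_⟩
      · intro h0
        exact ht0 (congrArg Subtype.val h0)
      · rw [map_one, h]
        exact inv_mul_cancel₀ ht0

end PolyChartSat

/-! ### The three charts -/

section Charts

theorem coe_jFull_eq : ((jFull N : ↥(modularFunctionFieldFull N)) : LaurentSeries ℚ) =
    qExpand ℚ 1 (jqModC ℚ) := by
  rw [qExpand_one_apply]; rfl

theorem jFull_mem_BN : jFull N ∈ BN ℓ N := by
  rw [mem_BN_iff, coe_jFull_eq]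
  exact xd_mem_gaussRing ℓ 1

theorem redN_jFull : redN ℓ N ⟨jFull N, jFull_mem_BN ℓ N⟩ = jqModC (ZMod ℓ) := by
  rw [redN_apply]
  have h : (⟨((jFull N : ↥(modularFunctionFieldFull N)) : LaurentSeries ℚ),
      (mem_BN_iff ℓ N _).mp (jFull_mem_BN ℓ N)⟩ : gaussRing ℓ) =
      ⟨qExpand ℚ 1 (jqModC ℚ), xd_mem_gaussRing ℓ 1⟩ := Subtype.ext (coe_jFull_eq N)
  rw [h, gaussRed_xd, qExpand_one_apply]

theorem redN_jFull_ne_zero : redN ℓ N ⟨jFull N, jFull_mem_BN ℓ N⟩ ≠ 0 := by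
  rw [redN_jFull]
  exact jqModC_ne_zero_of_nontrivial (ZMod ℓ)

theorem jFull_inv_mem_BN : (jFull N)⁻¹ ∈ BN ℓ N := by
  rw [mem_BN_iff]
  have h := inv_mem_of_gaussRed_ne_zero ℓ
    ⟨((jFull N : ↥(modularFunctionFieldFull N)) : LaurentSeries ℚ),
      (mem_BN_iff ℓ N _).mp (jFull_mem_BN ℓ N)⟩ (redN_jFull_ne_zero ℓ N)
  exact h

theorem redN_jFull_inv :
    redN ℓ N ⟨(jFull N)⁻¹, jFull_inv_mem_BN ℓ N⟩ = (jqModC (ZMod ℓ))⁻¹ := by
  apply eq_inv_of_mul_eq_one_left
  rw [← redN_jFull ℓ N, ← map_mul]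
  have : (⟨(jFull N)⁻¹, jFull_inv_mem_BN ℓ N⟩ : BN ℓ N) * ⟨jFull N, jFull_mem_BN ℓ N⟩ = 1 :=
    Subtype.ext (inv_mul_cancel₀ (jFull_ne_zero N))
  rw [this, map_one]

theorem transcendental_jqModC : Transcendental (ZMod ℓ) (jqModC (ZMod ℓ)) :=
  transcendental_iff_injective.mpr (AN.IntDescent16.aeval_jqModC_injective (L := ZMod ℓ))

/-- every element of `B_N` is integral over `O_v` (unbundled). -/
def Hint : Prop := ∀ g : ↥(modularFunctionFieldFull N), g ∈ BN ℓ N → HintAt ℓ N g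

/-- **Saturation, chart `{j}`.** -/
theorem saturated_fin (g : ↥(modularFunctionFieldFull N)) (hint : HintAt ℓ N g)
    (hℓg : (ℓ : ↥(modularFunctionFieldFull N)) * g ∈ chartAlgFin N ℓ) : g ∈ chartAlgFin N ℓ := by
  refine saturated_poly ℓ N (jFull N) (jFull_mem_BN ℓ N) ?_ (Or.inl rfl) g hint hℓg
  rw [redN_jFull]
  exact AN.IntDescent16.aeval_jqModC_injective (L := ZMod ℓ)

/-- **Saturation, chart `{1/j}`.** -/
theorem saturated_inf (g : ↥(modularFunctionFieldFull N)) (hint : HintAt ℓ N g)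
    (hℓg : (ℓ : ↥(modularFunctionFieldFull N)) * g ∈ chartAlgInf N ℓ) : g ∈ chartAlgInf N ℓ := by
  refine saturated_poly ℓ N (jFull N)⁻¹ (jFull_inv_mem_BN ℓ N) ?_ (Or.inr (inv_inv _).symm) g
    hint hℓg
  rw [redN_jFull_inv, ← transcendental_iff_injective]
  intro halg
  exact transcendental_jqModC ℓ (IsAlgebraic.inv_iff.mp halg)

/-- **Saturation, chart `{j, 1/j}`** (from the chart `{j}`). -/
theorem saturated_mid (hint : Hint ℓ N) (g : ↥(modularFunctionFieldFull N)) (hg : g ∈ BN ℓ N)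
    (hℓg : (ℓ : ↥(modularFunctionFieldFull N)) * g ∈ chartAlgMid N ℓ) : g ∈ chartAlgMid N ℓ := by
  have hx : (ℓ : ↥(modularFunctionFieldFull N)) * g ∈
      chartAlg N ℓ (insert (jFull N)⁻¹ {jFull N}) := by
    rw [show insert (jFull N)⁻¹ ({jFull N} : Set ↥(modularFunctionFieldFull N)) =
      {jFull N, (jFull N)⁻¹} from Set.pair_comm _ _]
    exact hℓg
  obtain ⟨n, hn⟩ := exists_pow_mul_mem_chartAlg (Set.mem_singleton _) (jFull_ne_zero N) hx
  have h1 : (ℓ : ↥(modularFunctionFieldFull N)) * (jFull N ^ n * g) ∈ chartAlgFin N ℓ := by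
    rw [← mul_assoc, mul_comm (ℓ : ↥(modularFunctionFieldFull N)), mul_assoc]; exact hn
  have h2 : jFull N ^ n * g ∈ BN ℓ N := mul_mem (pow_mem (jFull_mem_BN ℓ N) n) hg
  have h3 := saturated_fin ℓ N _ (hint _ h2) h1
  have h4 : jFull N ^ n * g ∈ chartAlgMid N ℓ := chartAlg_mono N ℓ (sFin_subset N) h3
  have h5 : (jFull N)⁻¹ ∈ chartAlgMid N ℓ := subset_chartAlg N ℓ _ (by simp)
  have h6 : g = (jFull N)⁻¹ ^ n * (jFull N ^ n * g) := by
    rw [← mul_assoc, ← mul_pow, inv_mul_cancel₀ (jFull_ne_zero N), one_pow, one_mul]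
  rw [h6]
  exact mul_mem (pow_mem h5 n) h4

/-! ### Membership `chartAlg ⊆ B_N`, the kernel of `redN`, and the final kernel statements -/

/-- `chartAlg N ℓ S ⊆ B_N` as soon as `S ⊆ B_N` (`B_N` is integrally closed in `FF N`). -/
theorem chartAlg_le_BN (S : Set ↥(modularFunctionFieldFull N)) (hS : ∀ s ∈ S, s ∈ BN ℓ N)
    (a : ↥(modularFunctionFieldFull N)) (ha : a ∈ chartAlg N ℓ S) : a ∈ BN ℓ N := by
  rw [mem_chartAlg_iff] at ha
  have hle : ∀ r ∈ Algebra.adjoin ℤℓ S, r ∈ BN ℓ N := by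
    intro r hr
    induction hr using Algebra.adjoin_induction with
    | mem x hx => exact hS x hx
    | algebraMap c => exact algebraMap_Zl_mem ℓ N c
    | add x y _ _ hx hy => exact add_mem hx hy
    | mul x y _ _ hx hy => exact mul_mem hx hy
  let φ : ↥(Algebra.adjoin ℤℓ S) →+* ↥(BN ℓ N) :=
    { toFun := fun r => ⟨r, hle r r.2⟩
      map_one' := rfl
      map_mul' := fun _ _ => rfl
      map_zero' := rfl
      map_add' := fun _ _ => rfl }
  have h1 : IsIntegral ↥(BN ℓ N) a :=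
    IsIntegral.map_of_comp_eq φ (RingHom.id _) (by ext; rfl) ha
  obtain ⟨y, hy⟩ := IsIntegrallyClosed.isIntegral_iff.mp h1
  rw [← hy]; exact y.2

theorem chartAlgFin_le_BN (a : ↥(modularFunctionFieldFull N)) (ha : a ∈ chartAlgFin N ℓ) :
    a ∈ BN ℓ N :=
  chartAlg_le_BN ℓ N _ (fun s hs => by rw [Set.mem_singleton_iff.mp hs]; exact jFull_mem_BN ℓ N)
    a ha

theorem chartAlgInf_le_BN (a : ↥(modularFunctionFieldFull N)) (ha : a ∈ chartAlgInf N ℓ) :
    a ∈ BN ℓ N :=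
  chartAlg_le_BN ℓ N _
    (fun s hs => by rw [Set.mem_singleton_iff.mp hs]; exact jFull_inv_mem_BN ℓ N) a ha

theorem chartAlgMid_le_BN (a : ↥(modularFunctionFieldFull N)) (ha : a ∈ chartAlgMid N ℓ) :
    a ∈ BN ℓ N :=
  chartAlg_le_BN ℓ N _ (fun s hs => by
    rcases hs with rfl | hs
    · exact jFull_mem_BN ℓ N
    · rw [Set.mem_singleton_iff.mp hs]; exact jFull_inv_mem_BN ℓ N) a ha

/-- The kernel of the residue map on `B_N` is `ℓ · B_N`. -/
theorem exists_eq_ell_mul_of_redN_eq_zero (a : BN ℓ N) (h0 : redN ℓ N a = 0) :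
    ∃ b : ↥(modularFunctionFieldFull N), b ∈ BN ℓ N ∧
      (a : ↥(modularFunctionFieldFull N)) = (ℓ : ↥(modularFunctionFieldFull N)) * b := by
  rw [redN_apply, gaussRed_eq_zero_iff] at h0
  obtain ⟨g, hg⟩ := h0
  have hg' : ((a : ↥(modularFunctionFieldFull N)) : LaurentSeries ℚ) =
      (ℓ : LaurentSeries ℚ) * (g : LaurentSeries ℚ) := congrArg Subtype.val hg
  have hℓF : (ℓ : ↥(modularFunctionFieldFull N)) ≠ 0 := Nat.cast_ne_zero.mpr hℓ.out.ne_zero
  have hℓQ : (ℓ : LaurentSeries ℚ) ≠ 0 := ell_ne_zero ℓ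
  refine ⟨(ℓ : ↥(modularFunctionFieldFull N))⁻¹ * a, ?_, ?_⟩
  · rw [mem_BN_iff]
    have : (((ℓ : ↥(modularFunctionFieldFull N))⁻¹ * a : ↥(modularFunctionFieldFull N)) :
        LaurentSeries ℚ) = (g : LaurentSeries ℚ) := by
      push_cast
      rw [hg', ← mul_assoc, inv_mul_cancel₀ hℓQ, one_mul]
    rw [this]; exact g.2
  · rw [← mul_assoc, mul_inv_cancel₀ hℓF, one_mul]

/-- **(c), chart `{j}`**: `a ∈ A_fin` with zero residue is `ℓ · b`, `b ∈ A_fin`. -/
theorem chartKer_fin (hint : Hint ℓ N) (a : ↥(modularFunctionFieldFull N))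
    (ha : a ∈ chartAlgFin N ℓ)
    (h0 : redN ℓ N ⟨a, chartAlgFin_le_BN ℓ N a ha⟩ = 0) :
    ∃ b ∈ chartAlgFin N ℓ, a = (ℓ : ↥(modularFunctionFieldFull N)) * b := by
  obtain ⟨b, hb, hab⟩ := exists_eq_ell_mul_of_redN_eq_zero ℓ N _ h0
  exact ⟨b, saturated_fin ℓ N b (hint b hb) (by rw [← hab]; exact ha), hab⟩

/-- **(c), chart `{1/j}`**. -/
theorem chartKer_inf (hint : Hint ℓ N) (a : ↥(modularFunctionFieldFull N))
    (ha : a ∈ chartAlgInf N ℓ)
    (h0 : redN ℓ N ⟨a, chartAlgInf_le_BN ℓ N a ha⟩ = 0) :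
    ∃ b ∈ chartAlgInf N ℓ, a = (ℓ : ↥(modularFunctionFieldFull N)) * b := by
  obtain ⟨b, hb, hab⟩ := exists_eq_ell_mul_of_redN_eq_zero ℓ N _ h0
  exact ⟨b, saturated_inf ℓ N b (hint b hb) (by rw [← hab]; exact ha), hab⟩

/-- **(c), chart `{j, 1/j}`**. -/
theorem chartKer_mid (hint : Hint ℓ N) (a : ↥(modularFunctionFieldFull N))
    (ha : a ∈ chartAlgMid N ℓ)
    (h0 : redN ℓ N ⟨a, chartAlgMid_le_BN ℓ N a ha⟩ = 0) :
    ∃ b ∈ chartAlgMid N ℓ, a = (ℓ : ↥(modularFunctionFieldFull N)) * b := by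
  obtain ⟨b, hb, hab⟩ := exists_eq_ell_mul_of_redN_eq_zero ℓ N _ h0
  exact ⟨b, saturated_mid ℓ N hint b hb (by rw [← hab]; exact ha), hab⟩

end Charts

end Fermat.Agent.IG.VAL.ChartKer23
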