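/-
Program G (S28, Igusa), chapter IG/VAL, blueprint §1(d) (helper5).

# From a reduction map with kernel `ℓA` to `IsDomain (A ⊗ K)`

Let `(Zl ℓ) := GaloisRep.ratLocalizedAt ℓ`, `A` a commutative `(Zl ℓ)`-algebra and
`φ : A →+* (ZMod ℓ)((q))` a ring homomorphism whose kernel is `ℓA`.  Then for every field `K`
of characteristic `ℓ` (with any `(Zl ℓ)`-algebra structure) the ring `A ⊗[(Zl ℓ)] K` embeds into `K((q))`
(`a ⊗ c ↦ c · φ(a)`), hence is a domain.

Main results:
* `ringHom_ext_ratLocalizedAt` : ring homomorphisms out of `(Zl ℓ)` into a domain in which the integers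
  prime to `ℓ` are nonzero are unique;
* `tensorToLaurent`, `tensorToLaurent_tmul`, `tensorToLaurent_injective`;
* `isDomain_tensor_of_ker`.
-/
import Mathlib
import Fermat.Prelude.Def_ModularCurve_LaurentCoeff
import Fermat.Prelude.Def_GaloisRep_Flat

set_option autoImplicit false
set_option linter.unusedSectionVars false

open scoped TensorProduct

namespace Fermat.Agent.IG.VAL.TensorDomain5

open ModularCurve

noncomputable section

/-- `ℤ_(ℓ)` as a type (reducible). -/
abbrev Zl (ℓ : ℕ) : Type := ↥(GaloisRep.ratLocalizedAt ℓ)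

/-! ### Ring homomorphisms out of `ℤ_(ℓ)` -/

section Uniq

variable (ℓ : ℕ)


/-- The denominator of an element of `ℤ_(ℓ)`, as an element of `ℤ_(ℓ)`. -/
theorem den_mul_eq_num (x : (Zl ℓ)) : ((x : ℚ).den : (Zl ℓ)) * x = ((x : ℚ).num : (Zl ℓ)) := by
  apply Subtype.ext
  push_cast
  exact Rat.den_mul_eq_num (x : ℚ)

/-- Ring homomorphisms from `ℤ_(ℓ)` to a domain where the integers prime to `ℓ` are nonzero are
unique. -/
theorem ringHom_ext_ratLocalizedAt {S : Type*} [CommRing S] [IsDomain S]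
    (hS : ∀ n : ℕ, n.Coprime ℓ → (n : S) ≠ 0) (f g : (Zl ℓ) →+* S) : f = g := by
  ext x
  have hden : ((x : ℚ).den : S) ≠ 0 := hS _ x.2
  have hf : ((x : ℚ).den : S) * f x = ((x : ℚ).num : S) := by
    rw [← map_natCast f, ← map_mul, den_mul_eq_num, map_intCast]
  have hg : ((x : ℚ).den : S) * g x = ((x : ℚ).num : S) := by
    rw [← map_natCast g, ← map_mul, den_mul_eq_num, map_intCast]
  exact mul_left_cancel₀ hden (hf.trans hg.symm)

end Uniq

/-! ### The map `A ⊗ K → K((q))` -/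

section Main

variable (ℓ : ℕ) [hℓ : Fact ℓ.Prime]


variable {A : Type*} [CommRing A] [Algebra (Zl ℓ) A] (φ : A →+* LaurentSeries (ZMod ℓ))
variable (K : Type*) [Field K] [CharP K ℓ] [Algebra (Zl ℓ) K]

/-- The canonical map `ZMod ℓ → K`. -/
def iota : ZMod ℓ →+* K := ZMod.castHom (dvd_refl ℓ) K

theorem natCast_ne_zero_of_coprime (n : ℕ) (hn : n.Coprime ℓ) : (n : K) ≠ 0 := by
  rw [Ne, CharP.cast_eq_zero_iff K ℓ]
  intro h
  have := Nat.Coprime.eq_one_of_dvd hn.symm h
  exact hℓ.out.one_lt.ne' this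

theorem natCast_laurent_ne_zero (n : ℕ) (hn : n.Coprime ℓ) : (n : LaurentSeries K) ≠ 0 := by
  have h : (n : LaurentSeries K) = HahnSeries.C (n : K) := (map_natCast HahnSeries.C n).symm
  rw [h, Ne, ← map_zero (HahnSeries.C : K →+* LaurentSeries K)]
  exact fun h' => natCast_ne_zero_of_coprime ℓ K n hn (HahnSeries.C_injective h')

/-- A type synonym of `K((q))` carrying the `ℤ_(ℓ)`-algebra structure through the constants
(the global module instances on Hahn series do not see it, which avoids instance diamonds). -/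
def LK (_ℓ : ℕ) (K : Type*) [Field K] : Type _ := LaurentSeries K

instance instCommRingLK : CommRing (LK ℓ K) := inferInstanceAs (CommRing (LaurentSeries K))

/-- The constants, as a ring homomorphism `ℤ_(ℓ) → K((q))`. -/
def constHom : (Zl ℓ) →+* LK ℓ K :=
  (HahnSeries.C : K →+* LaurentSeries K).comp (algebraMap (Zl ℓ) K)

instance instAlgebraLK : Algebra (Zl ℓ) (LK ℓ K) := (constHom ℓ K).toAlgebra

/-- `a ↦ φ(a)` with coefficients pushed to `K`, as a `ℤ_(ℓ)`-algebra map. -/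
def fA : A →ₐ[Zl ℓ] LK ℓ K :=
  { (show A →+* LK ℓ K from (coeffMap (iota ℓ K)).comp φ) with
    commutes' := fun r => by
      have h := ringHom_ext_ratLocalizedAt ℓ (natCast_laurent_ne_zero ℓ K)
        (((coeffMap (iota ℓ K)).comp φ).comp (algebraMap (Zl ℓ) A))
        ((HahnSeries.C : K →+* LaurentSeries K).comp (algebraMap (Zl ℓ) K))
      exact congrArg (fun f : (Zl ℓ) →+* LaurentSeries K => f r) h }

/-- The constants `K → K((q))` as a `ℤ_(ℓ)`-algebra map. -/
def fK : K →ₐ[Zl ℓ] LK ℓ K :=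
  { (show K →+* LK ℓ K from (HahnSeries.C : K →+* LaurentSeries K)) with
    commutes' := fun _ => rfl }

/-- The map `A ⊗[ℤ_(ℓ)] K → K((q))`, `a ⊗ c ↦ c · φ(a)`. -/
def tensorToLaurent : A ⊗[Zl ℓ] K →+* LaurentSeries K :=
  show A ⊗[Zl ℓ] K →+* LK ℓ K from
    (Algebra.TensorProduct.lift (fA ℓ φ K) (fK ℓ K) (fun _ _ => Commute.all _ _)).toRingHom

theorem tensorToLaurent_tmul (a : A) (c : K) :
    tensorToLaurent ℓ φ K (a ⊗ₜ[Zl ℓ] c) = coeffMap (iota ℓ K) (φ a) * HahnSeries.C c :=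
  Algebra.TensorProduct.lift_tmul (fA ℓ φ K) (fK ℓ K) (fun _ _ => Commute.all _ _) a c

theorem coeff_tensorToLaurent_tmul (a : A) (c : K) (n : ℤ) :
    (tensorToLaurent ℓ φ K (a ⊗ₜ[(Zl ℓ)] c)).coeff n = iota ℓ K ((φ a).coeff n) * c := by
  rw [tensorToLaurent_tmul, HahnSeries.C_apply, HahnSeries.coeff_mul_single_zero, coeffMap_coeff]

/-- The `ZMod ℓ`-vector space structure of `K`. -/
local instance instModuleZModK : Module (ZMod ℓ) K := Module.compHom K (iota ℓ K)

theorem zmod_smul_def (t : ZMod ℓ) (c : K) : t • c = iota ℓ K t * c := rfl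

theorem natCast_smul_eq (n : ℕ) (c : K) : (n : (Zl ℓ)) • c = ((n : ZMod ℓ)) • c := by
  rw [zmod_smul_def, Algebra.smul_def, map_natCast, map_natCast]

/-- The map `(I →₀ A) → A ⊗ K`, `v ↦ ∑ v i ⊗ b i`, for a family `b : I → K`. -/
def sumMap {I : Type*} (b : I → K) : (I →₀ A) →ₗ[(Zl ℓ)] A ⊗[(Zl ℓ)] K :=
  Finsupp.lsum (Zl ℓ) fun i => (TensorProduct.mk (Zl ℓ) A K).flip (b i)

theorem sumMap_apply {I : Type*} (b : I → K) (v : I →₀ A) :
    sumMap ℓ K b v = v.sum fun i a => a ⊗ₜ[(Zl ℓ)] b i := by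
  rw [sumMap, Finsupp.lsum_apply]
  rfl

theorem sumMap_single {I : Type*} (b : I → K) (i : I) (a : A) :
    sumMap ℓ K b (Finsupp.single i a) = a ⊗ₜ[(Zl ℓ)] b i := by
  rw [sumMap_apply, Finsupp.sum_single_index]
  exact TensorProduct.zero_tmul _ _

/-- Every element of `A ⊗ K` is of the form `∑ aᵢ ⊗ bᵢ` for a `ZMod ℓ`-basis `b` of `K`. -/
theorem sumMap_surjective {I : Type*} (b : Module.Basis I (ZMod ℓ) K) :
    Function.Surjective (sumMap (A := A) ℓ K b) := by
  intro z
  induction z using TensorProduct.induction_on with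
  | zero => exact ⟨0, map_zero _⟩
  | add x y hx hy =>
    obtain ⟨v, rfl⟩ := hx
    obtain ⟨w, rfl⟩ := hy
    exact ⟨v + w, map_add _ _ _⟩
  | tmul a c =>
    refine ⟨(b.repr c).sum fun i t => Finsupp.single i (((t.val : ℕ) : (Zl ℓ)) • a), ?_⟩
    rw [Finsupp.sum, map_sum]
    have h1 : ∀ i ∈ (b.repr c).support,
        sumMap ℓ K b (Finsupp.single i ((((b.repr c i).val : ℕ) : (Zl ℓ)) • a)) =
          a ⊗ₜ[(Zl ℓ)] ((b.repr c i) • b i) := by
      intro i _
      rw [sumMap_single, TensorProduct.smul_tmul, natCast_smul_eq, ZMod.natCast_zmod_val]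
    rw [Finset.sum_congr rfl h1, ← TensorProduct.tmul_sum]
    congr 1
    exact b.linearCombination_repr c

theorem coeff_tensorToLaurent_sumMap {I : Type*} (b : I → K) (v : I →₀ A) (n : ℤ) :
    (tensorToLaurent ℓ φ K (sumMap ℓ K b v)).coeff n =
      v.sum fun i a => ((φ a).coeff n) • b i := by
  rw [sumMap_apply, Finsupp.sum, map_sum, Finsupp.sum]
  rw [HahnSeries.coeff_sum]
  exact Finset.sum_congr rfl fun i _ => coeff_tensorToLaurent_tmul ℓ φ K _ _ n

/-- **Injectivity of `A ⊗ K → K((q))`** when `φ a = 0` forces `a ⊗ c = 0` for all `c`. -/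
theorem tensorToLaurent_injective
    (hker : ∀ a : A, φ a = 0 → ∀ c : K, a ⊗ₜ[(Zl ℓ)] c = (0 : A ⊗[(Zl ℓ)] K)) :
    Function.Injective (tensorToLaurent ℓ φ K) := by
  rw [injective_iff_map_eq_zero]
  intro z hz
  set b := Module.Basis.ofVectorSpace (ZMod ℓ) K with hb
  obtain ⟨v, rfl⟩ := sumMap_surjective (A := A) ℓ K b z
  have hv : ∀ i, φ (v i) = 0 := by
    intro i
    ext n
    have h1 := coeff_tensorToLaurent_sumMap ℓ φ K b v n
    rw [hz, HahnSeries.coeff_zero] at h1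
    -- the finsupp of `n`-th coefficients
    set w : Module.Basis.ofVectorSpaceIndex (ZMod ℓ) K →₀ ZMod ℓ :=
      v.mapRange (fun a => (φ a).coeff n) (by simp) with hw
    have h2 : Finsupp.linearCombination (ZMod ℓ) b w = 0 := by
      rw [Finsupp.linearCombination_apply, hw, Finsupp.sum_mapRange_index (by simp)]
      exact h1.symm
    have h3 : w = 0 := by
      have := b.linearIndependent
      rw [linearIndependent_iff] at this
      exact this w h2
    have h4 : w i = 0 := by rw [h3]; rfl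
    rw [hw, Finsupp.mapRange_apply] at h4
    rw [h4, HahnSeries.coeff_zero]
  rw [sumMap_apply, Finsupp.sum]
  exact Finset.sum_eq_zero fun i _ => hker (v i) (hv i) (b i)

/-- If `φ a = 0` forces `a ∈ ℓA`, then `a ⊗ c = 0` for all `c` in a field of characteristic `ℓ`. -/
theorem tmul_eq_zero_of_ker
    (hφ : ∀ a : A, φ a = 0 → ∃ a' : A, a = (ℓ : A) * a') (a : A) (ha : φ a = 0) (c : K) :
    a ⊗ₜ[(Zl ℓ)] c = (0 : A ⊗[(Zl ℓ)] K) := by
  obtain ⟨a', rfl⟩ := hφ a ha
  have h1 : (ℓ : A) * a' = ((ℓ : ℕ) : (Zl ℓ)) • a' := by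
    rw [Algebra.smul_def, map_natCast]
  rw [h1, TensorProduct.smul_tmul, Algebra.smul_def, map_natCast, CharP.cast_eq_zero K ℓ,
    zero_mul, TensorProduct.tmul_zero]

/-- **(DOM-core)**: a reduction map `φ : A → (ZMod ℓ)((q))` with kernel `ℓA` makes `A ⊗[ℤ_(ℓ)] K`
a domain for every field `K` of characteristic `ℓ`. -/
theorem isDomain_tensor_of_ker
    (hφ : ∀ a : A, φ a = 0 → ∃ a' : A, a = (ℓ : A) * a') : IsDomain (A ⊗[(Zl ℓ)] K) :=
  Function.Injective.isDomain (tensorToLaurent ℓ φ K)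
    (tensorToLaurent_injective ℓ φ K (tmul_eq_zero_of_ker ℓ φ K hφ))

end Main

end

end Fermat.Agent.IG.VAL.TensorDomain5
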