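/-
Program G (S28, Igusa), chapter IG/VAL, block (c)+(d) assembly (helper5).

For a set `S` of elements of `FF N` lying in the Gauss ring `G = GaussRing18.gaussRing ℓ`:
* `adjoin_le_gauss`, `chartAlg_le_gauss` : `ℤℓ[S] ⊆ G` and `chartAlg N ℓ S ⊆ G`
  (`G ∩ FF N` is a valuation ring of `FF N`, hence integrally closed);
* `chartToGauss`, `chartRed` : the reduction map `chartAlg N ℓ S →+* 𝔽ℓ((q))`;
* `chartRed_ker_of_descent` : kernel of `chartRed` is `ℓ · chartAlg` as soon as division by `ℓ`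
  inside `G ∩ FF N` preserves membership in the chart algebra;
* `sFin_gauss`, `sInf_gauss`, `sMid_gauss` : the three charts `{j}`, `{1/j}`, `{j, 1/j}` lie in `G`;
* `HintOv N ℓ` : the (SPAN) hint "every element of `G ∩ FF N` is integral over `O_v`";
* `chartFin_ker`, `chartInf_ker`, `chartMid_ker` : block (c) for the three charts from `HintOv`
  (via `ChartBaseRing21.mem_chartAlg*_of_mul_mem`);
* `chartDomain_of_hintOv : HintOv N ℓ → Interface4.ChartDomain N ℓ` (via `TensorDomain5`).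
-/
import Fermat.Agent.IG.VAL.GaussRing18
import Fermat.Agent.IG.VAL.ChartBaseRing21
import Fermat.Agent.IG.VAL.TensorDomain5
import Fermat.Agent.IG.Interface4

set_option autoImplicit false
set_option linter.unusedSectionVars false

noncomputable section

open HahnSeries ModularCurve ModularCurve.IgusaScheme

namespace Fermat.Agent.IG.VAL.ChartKer5

open Fermat.Agent.IG.VAL.ZlRed18 Fermat.Agent.IG.VAL.GaussRing18

variable (N : ℕ) [NeZero N] (ℓ : ℕ) [hℓ : Fact ℓ.Prime]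

/-- `FF N` as a type. -/
abbrev FF : Type := ↥(modularFunctionFieldFull N)

theorem coe_algebraMap (c : Zl ℓ) :
    ((algebraMap (Zl ℓ) (FF N) c : FF N) : LaurentSeries ℚ) = embQ ℓ (HahnSeries.C c) := by
  rw [embQ_C]
  rfl

theorem algebraMap_mem_gauss (c : Zl ℓ) :
    ((algebraMap (Zl ℓ) (FF N) c : FF N) : LaurentSeries ℚ) ∈ gaussRing ℓ := by
  rw [coe_algebraMap]; exact embQ_mem ℓ _

/-- The Gauss valuation ring of `FF N`: `G ∩ FF N`. -/
abbrev VN : ValuationSubring (FF N) :=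
  gaussVS ℓ (modularFunctionFieldFull N) (full_le_fracField ℓ N)

theorem mem_VN_iff (x : FF N) : x ∈ VN N ℓ ↔ (x : LaurentSeries ℚ) ∈ gaussRing ℓ :=
  mem_gaussVS_iff ℓ _ _ x

variable {N ℓ}

/-- A `ℤℓ`-subalgebra generated by elements of the Gauss ring lies in the Gauss ring. -/
theorem adjoin_le_gauss {S : Set (FF N)}
    (hS : ∀ s ∈ S, ((s : FF N) : LaurentSeries ℚ) ∈ gaussRing ℓ) :
    ∀ x ∈ Algebra.adjoin (Zl ℓ) S, ((x : FF N) : LaurentSeries ℚ) ∈ gaussRing ℓ := by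
  intro x hx
  induction hx using Algebra.adjoin_induction with
  | mem y hy => exact hS y hy
  | algebraMap c => exact algebraMap_mem_gauss N ℓ c
  | add y z _ _ hy hz => exact add_mem hy hz
  | mul y z _ _ hy hz => exact mul_mem hy hz

/-- The inclusion `ℤℓ[S] → G ∩ FF N`. -/
def adjoinToVN {S : Set (FF N)}
    (hS : ∀ s ∈ S, ((s : FF N) : LaurentSeries ℚ) ∈ gaussRing ℓ) :
    ↥(Algebra.adjoin (Zl ℓ) S) →+* ↥(VN N ℓ) where
  toFun x := ⟨(x : FF N), (mem_VN_iff N ℓ _).mpr (adjoin_le_gauss hS x x.2)⟩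
  map_one' := rfl
  map_mul' _ _ := rfl
  map_zero' := rfl
  map_add' _ _ := rfl

/-- **Membership**: the chart algebra (integral closure of `ℤℓ[S]` in `FF N`) lies in the Gauss
ring as soon as `S` does. -/
theorem chartAlg_le_gauss {S : Set (FF N)}
    (hS : ∀ s ∈ S, ((s : FF N) : LaurentSeries ℚ) ∈ gaussRing ℓ) :
    ∀ a ∈ chartAlg N ℓ S, ((a : FF N) : LaurentSeries ℚ) ∈ gaussRing ℓ := by
  intro a ha
  rw [mem_chartAlg_iff] at ha
  have h1 : IsIntegral ↥(VN N ℓ) a :=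
    ha.map_of_comp_eq (adjoinToVN hS) (RingHom.id (FF N)) (by ext; rfl)
  obtain ⟨y, hy⟩ := (IsIntegrallyClosed.isIntegral_iff (R := ↥(VN N ℓ)) (K := FF N)).mp h1
  rw [← hy]
  exact (mem_VN_iff N ℓ _).mp y.2

/-- The inclusion of a chart algebra into the Gauss ring. -/
def chartToGauss {S : Set (FF N)}
    (hS : ∀ s ∈ S, ((s : FF N) : LaurentSeries ℚ) ∈ gaussRing ℓ) :
    ↥(chartAlg N ℓ S) →+* ↥(gaussRing ℓ) where
  toFun a := ⟨((a : FF N) : LaurentSeries ℚ), chartAlg_le_gauss hS a a.2⟩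
  map_one' := rfl
  map_mul' _ _ := rfl
  map_zero' := rfl
  map_add' _ _ := rfl

/-- The reduction map of a chart algebra. -/
def chartRed {S : Set (FF N)}
    (hS : ∀ s ∈ S, ((s : FF N) : LaurentSeries ℚ) ∈ gaussRing ℓ) :
    ↥(chartAlg N ℓ S) →+* LaurentSeries (ZMod ℓ) :=
  (gaussRed ℓ).comp (chartToGauss hS)

theorem chartRed_apply {S : Set (FF N)}
    (hS : ∀ s ∈ S, ((s : FF N) : LaurentSeries ℚ) ∈ gaussRing ℓ) (a : ↥(chartAlg N ℓ S)) :
    chartRed hS a = gaussRed ℓ ⟨((a : FF N) : LaurentSeries ℚ), chartAlg_le_gauss hS a a.2⟩ := rfl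

/-- **Kernel of the chart reduction, abstract form**: if division by `ℓ` inside `G ∩ FF N`
preserves integrality over `ℤℓ[S]`, the kernel of `chartRed` is `ℓ · chartAlg`. -/
theorem chartRed_ker_of_descent {S : Set (FF N)}
    (hS : ∀ s ∈ S, ((s : FF N) : LaurentSeries ℚ) ∈ gaussRing ℓ)
    (hdesc : ∀ g : FF N, (g : LaurentSeries ℚ) ∈ gaussRing ℓ →
      (ℓ : FF N) * g ∈ chartAlg N ℓ S → g ∈ chartAlg N ℓ S)
    (a : ↥(chartAlg N ℓ S)) (ha : chartRed hS a = 0) :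
    ∃ b : ↥(chartAlg N ℓ S), a = (ℓ : ↥(chartAlg N ℓ S)) * b := by
  rw [chartRed_apply, gaussRed_eq_zero_iff] at ha
  obtain ⟨g, hg⟩ := ha
  have hg' : ((a : FF N) : LaurentSeries ℚ) = (ℓ : LaurentSeries ℚ) * (g : LaurentSeries ℚ) :=
    congrArg Subtype.val hg
  have hl : (ℓ : LaurentSeries ℚ) ≠ 0 := ell_ne_zero ℓ
  -- `g = a / ℓ` lies in `FF N`
  have hgF : (g : LaurentSeries ℚ) ∈ modularFunctionFieldFull N := by
    have : (g : LaurentSeries ℚ) = ((a : FF N) : LaurentSeries ℚ) * (ℓ : LaurentSeries ℚ)⁻¹ := by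
      rw [hg', mul_comm (ℓ : LaurentSeries ℚ), mul_assoc, mul_inv_cancel₀ hl, mul_one]
    rw [this]
    exact mul_mem (a : FF N).2 (inv_mem (natCast_mem _ ℓ))
  set g' : FF N := ⟨(g : LaurentSeries ℚ), hgF⟩ with hg'def
  have hag : (a : FF N) = (ℓ : FF N) * g' := by
    apply Subtype.ext
    rw [hg']
    rfl
  have hint : g' ∈ chartAlg N ℓ S := by
    apply hdesc g' g.2
    rw [← hag]
    exact a.2
  refine ⟨⟨g', hint⟩, Subtype.ext ?_⟩
  rw [hag]
  rfl

/-! ### The three charts lie in the Gauss ring -/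

variable (N ℓ)

theorem jFull_mem_gauss : ((jFull N : FF N) : LaurentSeries ℚ) ∈ gaussRing ℓ := by
  have := xd_mem_gaussRing ℓ 1
  rwa [qExpand_one_apply] at this

theorem gaussRed_jFull :
    gaussRed ℓ ⟨((jFull N : FF N) : LaurentSeries ℚ), jFull_mem_gauss N ℓ⟩ = jqModC (ZMod ℓ) := by
  have := gaussRed_xd ℓ 1
  simp only [qExpand_one_apply] at this
  exact this

theorem jFull_inv_mem_gauss : (((jFull N)⁻¹ : FF N) : LaurentSeries ℚ) ∈ gaussRing ℓ := by
  have h := inv_mem_of_gaussRed_ne_zero ℓ ⟨_, jFull_mem_gauss N ℓ⟩ (by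
    rw [gaussRed_jFull]; exact jqModC_ne_zero_of_nontrivial (ZMod ℓ))
  exact h

theorem sFin_gauss : ∀ s ∈ ({jFull N} : Set (FF N)), ((s : FF N) : LaurentSeries ℚ) ∈ gaussRing ℓ := by
  rintro s rfl
  exact jFull_mem_gauss N ℓ

theorem sInf_gauss :
    ∀ s ∈ ({(jFull N)⁻¹} : Set (FF N)), ((s : FF N) : LaurentSeries ℚ) ∈ gaussRing ℓ := by
  rintro s rfl
  exact jFull_inv_mem_gauss N ℓ

theorem sMid_gauss :
    ∀ s ∈ ({jFull N, (jFull N)⁻¹} : Set (FF N)), ((s : FF N) : LaurentSeries ℚ) ∈ gaussRing ℓ := by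
  rintro s (rfl | rfl)
  · exact jFull_mem_gauss N ℓ
  · exact jFull_inv_mem_gauss N ℓ

/-! ### Final form of block (c) and (DOM), from the integrality hint -/

/-- The hint delivered by the (SPAN) block: every element of `G ∩ FF N` is integral over
`O_v = ℤℓ[j]_(ℓ)`. -/
def HintOv : Prop :=
  ∀ b : FF N, ((b : FF N) : LaurentSeries ℚ) ∈ gaussRing ℓ →
    IsIntegral ↥(ValInterface8.Ov ℓ N) b

variable {N ℓ}

theorem chartFin_ker (hint : HintOv N ℓ) (a : ↥(chartAlgFin N ℓ))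
    (ha : chartRed (sFin_gauss N ℓ) a = 0) :
    ∃ b : ↥(chartAlgFin N ℓ), a = (ℓ : ↥(chartAlgFin N ℓ)) * b :=
  chartRed_ker_of_descent (sFin_gauss N ℓ)
    (fun g hg hlg => ChartBaseRing21.mem_chartAlgFin_of_mul_mem N ℓ (hint g hg) hlg) a ha

theorem chartInf_ker (hint : HintOv N ℓ) (a : ↥(chartAlgInf N ℓ))
    (ha : chartRed (sInf_gauss N ℓ) a = 0) :
    ∃ b : ↥(chartAlgInf N ℓ), a = (ℓ : ↥(chartAlgInf N ℓ)) * b :=
  chartRed_ker_of_descent (sInf_gauss N ℓ)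
    (fun g hg hlg => ChartBaseRing21.mem_chartAlgInf_of_mul_mem N ℓ (hint g hg) hlg) a ha

theorem chartMid_ker (hint : HintOv N ℓ) (a : ↥(chartAlgMid N ℓ))
    (ha : chartRed (sMid_gauss N ℓ) a = 0) :
    ∃ b : ↥(chartAlgMid N ℓ), a = (ℓ : ↥(chartAlgMid N ℓ)) * b :=
  chartRed_ker_of_descent (sMid_gauss N ℓ)
    (fun g hg hlg => ChartBaseRing21.mem_chartAlgMid_of_mul_mem N ℓ (hint g hg) hlg) a ha

/-- **(DOM)** for the three charts from the integrality hint: the deliverable of `IG/VAL` in the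
integrator's shape. -/
theorem chartDomain_of_hintOv (hint : HintOv N ℓ) :
    Fermat.Agent.IG.Interface4.ChartDomain N ℓ := by
  intro K _ _ _
  refine ⟨?_, ?_, ?_⟩
  · exact TensorDomain5.isDomain_tensor_of_ker ℓ (chartRed (sFin_gauss N ℓ)) K
      (chartFin_ker hint)
  · exact TensorDomain5.isDomain_tensor_of_ker ℓ (chartRed (sInf_gauss N ℓ)) K
      (chartInf_ker hint)
  · exact TensorDomain5.isDomain_tensor_of_ker ℓ (chartRed (sMid_gauss N ℓ)) K
      (chartMid_ker hint)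

end Fermat.Agent.IG.VAL.ChartKer5
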