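import Fermat.Agent.IG.VAL.GaussRing18
import Fermat.Agent.IG.VAL.Zl13
import Fermat.Prelude.Def_ModularCurve_IgusaScheme

/-!
# Program G (S28), chapter IG/VAL, block (c): the chart algebras lie in the Gauss ring

For `S ⊆ {j, 1/j}` (in particular for the three charts `chartAlgFin/Inf/Mid N ℓ`):

* `BN N ℓ : ValuationSubring (FF N)` := `gaussVS ℓ (modularFunctionFieldFull N) _`  (`B_N = G ∩ FF N`);
* `chartAlg_le_BN` : `chartAlg N ℓ S ⊆ B_N`  (integral over `ℤℓ[S] ⊆ B_N`, valuation rings are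
  integrally closed);
* `chartRed N ℓ S hS : ↥(chartAlg N ℓ S) →+* LaurentSeries (ZMod ℓ)` := `gaussRed` restricted;
* `chartRed_eq_zero_iff` : `chartRed a = 0 ↔ ∃ g ∈ B_N, a = ℓ * g`.
-/

set_option autoImplicit false
set_option linter.unusedSectionVars false

noncomputable section

open ModularCurve ModularCurve.IgusaScheme HahnSeries

namespace Fermat.Agent.IG.VAL.ChartMem13

open Fermat.Agent.IG.VAL.ZlRed18 Fermat.Agent.IG.VAL.GaussRing18

variable (N : ℕ) [NeZero N] (ℓ : ℕ) [hℓ : Fact ℓ.Prime]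

/-- `B_N = G ∩ FF N`, the Gauss valuation ring of `FF N`. -/
abbrev BN : ValuationSubring ↥(modularFunctionFieldFull N) :=
  gaussVS ℓ (modularFunctionFieldFull N) (full_le_fracField ℓ N)

theorem mem_BN_iff (x : ↥(modularFunctionFieldFull N)) :
    x ∈ BN N ℓ ↔ (x : LaurentSeries ℚ) ∈ gaussRing ℓ :=
  mem_gaussVS_iff ℓ _ _ x

/-- The coercion of the structure map `ℤℓ → FF N` to `ℚ((q))`. -/
theorem coe_algebraMap_Zl (c : ↥(GaloisRep.ratLocalizedAt ℓ)) :
    ((algebraMap ↥(GaloisRep.ratLocalizedAt ℓ) ↥(modularFunctionFieldFull N) c :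
      ↥(modularFunctionFieldFull N)) : LaurentSeries ℚ) = embQ ℓ (HahnSeries.C c) := by
  rw [embQ_C]
  have h : ((algebraMap ↥(modularFunctionFieldFull N) (LaurentSeries ℚ)).comp
      (algebraMap ↥(GaloisRep.ratLocalizedAt ℓ) ↥(modularFunctionFieldFull N))) =
      (HahnSeries.C : ℚ →+* LaurentSeries ℚ).comp (GaloisRep.ratLocalizedAt ℓ).subtype :=
    Subsingleton.elim _ _
  exact congrArg (fun f => f c) h

theorem algebraMap_mem_BN (c : ↥(GaloisRep.ratLocalizedAt ℓ)) :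
    algebraMap ↥(GaloisRep.ratLocalizedAt ℓ) ↥(modularFunctionFieldFull N) c ∈ BN N ℓ := by
  rw [mem_BN_iff, coe_algebraMap_Zl]
  exact embQ_mem ℓ _

/-- `B_N` as a `ℤℓ`-subalgebra of `FF N`. -/
def BNalg : Subalgebra ↥(GaloisRep.ratLocalizedAt ℓ) ↥(modularFunctionFieldFull N) :=
  { (BN N ℓ).toSubring with
    algebraMap_mem' := algebraMap_mem_BN N ℓ }

theorem mem_BNalg_iff (x : ↥(modularFunctionFieldFull N)) :
    x ∈ BNalg N ℓ ↔ (x : LaurentSeries ℚ) ∈ gaussRing ℓ :=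
  mem_BN_iff N ℓ x

theorem jFull_mem : jFull N ∈ BNalg N ℓ := by
  rw [mem_BNalg_iff, coe_jFull, ← jqModC_rat, ← embQ_jqModC ℓ]
  exact embQ_mem ℓ _

theorem jFull_inv_mem : (jFull N)⁻¹ ∈ BNalg N ℓ := by
  rw [mem_BNalg_iff]
  have hj : (jq : LaurentSeries ℚ) ∈ gaussRing ℓ := by
    rw [← jqModC_rat, ← embQ_jqModC ℓ]; exact embQ_mem ℓ _
  have hred : gaussRed ℓ ⟨jq, hj⟩ ≠ 0 := by
    have h1 : gaussRed ℓ ⟨jq, hj⟩ = jqModC (ZMod ℓ) := by
      have h2 := gaussRed_embQ ℓ (jqModC (Zl ℓ))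
      rw [redL_jqModC] at h2
      rw [← h2]
      refine congrArg (gaussRed ℓ) (Subtype.ext ?_)
      show jq = embQ ℓ (jqModC (Zl ℓ))
      rw [embQ_jqModC, jqModC_rat]
    rw [h1]
    exact jqModC_ne_zero_of_nontrivial (ZMod ℓ)
  have := inv_mem_of_gaussRed_ne_zero ℓ ⟨jq, hj⟩ hred
  simpa using this

theorem adjoin_le_BNalg {S : Set ↥(modularFunctionFieldFull N)}
    (hS : S ⊆ {jFull N, (jFull N)⁻¹}) :
    Algebra.adjoin ↥(GaloisRep.ratLocalizedAt ℓ) S ≤ BNalg N ℓ := by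
  refine Algebra.adjoin_le fun x hx => ?_
  rcases hS hx with rfl | hx'
  · exact jFull_mem N ℓ
  · rw [Set.mem_singleton_iff] at hx'
    rw [hx']
    exact jFull_inv_mem N ℓ

/-- **Membership**: the chart algebras lie in `B_N`. -/
theorem chartAlg_le_BNalg {S : Set ↥(modularFunctionFieldFull N)}
    (hS : S ⊆ {jFull N, (jFull N)⁻¹}) :
    chartAlg N ℓ S ≤ BNalg N ℓ := by
  intro x hx
  rw [mem_chartAlg_iff] at hx
  -- integral over `B_N`
  have h1 : IsIntegral ↥(BNalg N ℓ) x :=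
    hx.map_of_comp_eq (Subalgebra.inclusion (adjoin_le_BNalg N ℓ hS)).toRingHom
      (RingHom.id _) (by ext; rfl)
  have h2 : IsIntegral ↥(BN N ℓ) x := h1
  obtain ⟨y, hy⟩ := IsIntegrallyClosed.isIntegral_iff.mp h2
  rw [← hy]
  exact y.2

theorem chartAlg_mem_gaussRing {S : Set ↥(modularFunctionFieldFull N)}
    (hS : S ⊆ {jFull N, (jFull N)⁻¹}) (a : ↥(chartAlg N ℓ S)) :
    ((a : ↥(modularFunctionFieldFull N)) : LaurentSeries ℚ) ∈ gaussRing ℓ :=
  (mem_BNalg_iff N ℓ _).mp (chartAlg_le_BNalg N ℓ hS a.2)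

/-- The reduction map on a chart algebra (`gaussRed` restricted). -/
def chartRed {S : Set ↥(modularFunctionFieldFull N)} (hS : S ⊆ {jFull N, (jFull N)⁻¹}) :
    ↥(chartAlg N ℓ S) →+* LaurentSeries (ZMod ℓ) :=
  (gaussRed ℓ).comp
    { toFun := fun a => ⟨((a : ↥(modularFunctionFieldFull N)) : LaurentSeries ℚ),
        chartAlg_mem_gaussRing N ℓ hS a⟩
      map_one' := rfl
      map_mul' := fun _ _ => rfl
      map_zero' := rfl
      map_add' := fun _ _ => rfl }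

theorem chartRed_apply {S : Set ↥(modularFunctionFieldFull N)}
    (hS : S ⊆ {jFull N, (jFull N)⁻¹}) (a : ↥(chartAlg N ℓ S)) :
    chartRed N ℓ hS a = gaussRed ℓ ⟨((a : ↥(modularFunctionFieldFull N)) : LaurentSeries ℚ),
        chartAlg_mem_gaussRing N ℓ hS a⟩ := rfl

/-- The kernel of the reduction on a chart: `a = ℓ * g` with `g ∈ B_N`. -/
theorem chartRed_eq_zero_iff {S : Set ↥(modularFunctionFieldFull N)}
    (hS : S ⊆ {jFull N, (jFull N)⁻¹}) (a : ↥(chartAlg N ℓ S)) :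
    chartRed N ℓ hS a = 0 ↔
      ∃ g : ↥(modularFunctionFieldFull N), g ∈ BN N ℓ ∧
        (a : ↥(modularFunctionFieldFull N)) = (ℓ : ↥(modularFunctionFieldFull N)) * g := by
  rw [chartRed_apply, gaussRed_eq_zero_iff]
  constructor
  · rintro ⟨g, hg⟩
    have hg' : ((a : ↥(modularFunctionFieldFull N)) : LaurentSeries ℚ) =
        (ℓ : LaurentSeries ℚ) * (g : LaurentSeries ℚ) := congrArg Subtype.val hg
    have hℓ0 : (ℓ : ↥(modularFunctionFieldFull N)) ≠ 0 := by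
      exact_mod_cast hℓ.out.ne_zero
    refine ⟨(ℓ : ↥(modularFunctionFieldFull N))⁻¹ * a, ?_, ?_⟩
    · rw [mem_BN_iff]
      have : (((ℓ : ↥(modularFunctionFieldFull N))⁻¹ * a : ↥(modularFunctionFieldFull N)) :
          LaurentSeries ℚ) = (g : LaurentSeries ℚ) := by
        push_cast
        rw [hg', ← mul_assoc, inv_mul_cancel₀ (ell_ne_zero ℓ), one_mul]
      rw [this]
      exact g.2
    · rw [← mul_assoc, mul_inv_cancel₀ hℓ0, one_mul]
  · rintro ⟨g, hg, hag⟩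
    refine ⟨⟨(g : LaurentSeries ℚ), (mem_BN_iff N ℓ g).mp hg⟩, Subtype.ext ?_⟩
    show ((a : ↥(modularFunctionFieldFull N)) : LaurentSeries ℚ) =
      (ℓ : LaurentSeries ℚ) * (g : LaurentSeries ℚ)
    rw [hag]
    push_cast
    rfl

theorem chartRed_algebraMap {S : Set ↥(modularFunctionFieldFull N)}
    (hS : S ⊆ {jFull N, (jFull N)⁻¹}) (c : ↥(GaloisRep.ratLocalizedAt ℓ)) :
    chartRed N ℓ hS (algebraMap ↥(GaloisRep.ratLocalizedAt ℓ) ↥(chartAlg N ℓ S) c) =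
      HahnSeries.C (redZl ℓ c) := by
  rw [chartRed_apply]
  have h := gaussRed_embQ ℓ (HahnSeries.C c)
  rw [redL_C] at h
  rw [← h]
  refine congrArg (gaussRed ℓ) (Subtype.ext ?_)
  exact coe_algebraMap_Zl N ℓ c

/-! ### The three charts -/

/-- Reduction on the finite chart `chartAlgFin N ℓ`. -/
abbrev chartRedFin : ↥(chartAlgFin N ℓ) →+* LaurentSeries (ZMod ℓ) :=
  chartRed N ℓ (sFin_subset N)

/-- Reduction on the infinite chart `chartAlgInf N ℓ`. -/
abbrev chartRedInf : ↥(chartAlgInf N ℓ) →+* LaurentSeries (ZMod ℓ) :=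
  chartRed N ℓ (sInf_subset N)

/-- Reduction on the middle chart `chartAlgMid N ℓ`. -/
abbrev chartRedMid : ↥(chartAlgMid N ℓ) →+* LaurentSeries (ZMod ℓ) :=
  chartRed N ℓ (subset_refl _)

/-- **The kernel statement that remains for block (c)**, uniformly in the chart: if every
element `g ∈ B_N` with `ℓ g ∈ chartAlg N ℓ S` lies in `chartAlg N ℓ S`, then the kernel of the
reduction on the chart is `ℓ · chartAlg N ℓ S` (the hypothesis `hker` of `TensorDomain22`). -/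
theorem chartRed_ker_of_descent {S : Set ↥(modularFunctionFieldFull N)}
    (hS : S ⊆ {jFull N, (jFull N)⁻¹})
    (hdesc : ∀ g : ↥(modularFunctionFieldFull N), g ∈ BN N ℓ →
      (ℓ : ↥(modularFunctionFieldFull N)) * g ∈ chartAlg N ℓ S → g ∈ chartAlg N ℓ S)
    (a : ↥(chartAlg N ℓ S)) (ha : chartRed N ℓ hS a = 0) :
    ∃ b : ↥(chartAlg N ℓ S), a = (ℓ : ↥(chartAlg N ℓ S)) * b := by
  obtain ⟨g, hg, hag⟩ := (chartRed_eq_zero_iff N ℓ hS a).mp ha
  have hmem : g ∈ chartAlg N ℓ S := hdesc g hg (hag ▸ a.2)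
  refine ⟨⟨g, hmem⟩, Subtype.ext ?_⟩
  rw [hag]
  push_cast
  rfl

end Fermat.Agent.IG.VAL.ChartMem13
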