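import Mathlib

/-!
# Program G (S28), chapter IG/VAL: an abstract DVR criterion (Mathlib only)

`O` a local ring whose maximal ideal is generated by `π`; `C` a Noetherian domain which is an
integral `O`-algebra, such that the image of `π` in `C` is nonzero and generates a MAXIMAL ideal of
`C`.  Then `C` is local with maximal ideal `(π)`, a discrete valuation ring, and integrally closed.

* `isLocalRing_of_span_isMaximal`, `maximalIdeal_eq_span`
* `isDiscreteValuationRing_of_span_isMaximal`
* `isIntegrallyClosed_of_span_isMaximal`
* `mem_range_of_isIntegral` : an element of the fraction field `K` of `C` that is integral over `O`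
  (or over `C`) lies in `C`.
* `dvr_of_finite` : the same for `O` a DVR and `C` a domain finite and torsion-free over `O`
  (the shape requested by the integrator).
-/

set_option autoImplicit false

open IsLocalRing

namespace Fermat.Agent.IG.VAL.DvrOfFinite13

section General

variable {O C : Type*} [CommRing O] [IsLocalRing O] [CommRing C] [Algebra O C]
  [Algebra.IsIntegral O C]

/-- Every maximal ideal of `C` contains the image of the maximal ideal of `O`. -/
theorem algebraMap_mem_of_isMaximal {π : O} (hπ : π ∈ maximalIdeal O) (m : Ideal C)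
    [m.IsMaximal] : algebraMap O C π ∈ m := by
  have h1 : (m.comap (algebraMap O C)).IsMaximal :=
    Ideal.isMaximal_comap_of_isIntegral_of_isMaximal (R := O) m
  have h2 : m.comap (algebraMap O C) = maximalIdeal O := eq_maximalIdeal h1
  have : π ∈ m.comap (algebraMap O C) := h2 ▸ hπ
  exact this

/-- If `(π)` is maximal in `C`, it is the only maximal ideal. -/
theorem eq_span_of_isMaximal {π : O} (hπ : π ∈ maximalIdeal O)
    (hmax : (Ideal.span {algebraMap O C π}).IsMaximal) (m : Ideal C) [m.IsMaximal] :
    m = Ideal.span {algebraMap O C π} := by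
  symm
  refine hmax.eq_of_le (Ideal.IsMaximal.ne_top inferInstance) ?_
  rw [Ideal.span_singleton_le_iff_mem]
  exact algebraMap_mem_of_isMaximal hπ m

theorem isLocalRing_of_span_isMaximal {π : O} (hπ : π ∈ maximalIdeal O)
    (hmax : (Ideal.span {algebraMap O C π}).IsMaximal) : IsLocalRing C :=
  IsLocalRing.of_unique_max_ideal
    ⟨_, hmax, fun m hm => by have := hm; exact eq_span_of_isMaximal hπ hmax m⟩

theorem maximalIdeal_eq_span [IsLocalRing C] {π : O} (hπ : π ∈ maximalIdeal O)
    (hmax : (Ideal.span {algebraMap O C π}).IsMaximal) :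
    maximalIdeal C = Ideal.span {algebraMap O C π} :=
  eq_span_of_isMaximal hπ hmax (maximalIdeal C)

variable [IsDomain C] [IsNoetherianRing C]

/-- **DVR criterion.** -/
theorem isDiscreteValuationRing_of_span_isMaximal {π : O} (hπ : π ∈ maximalIdeal O)
    (hπ0 : algebraMap O C π ≠ 0)
    (hmax : (Ideal.span {algebraMap O C π}).IsMaximal) : IsDiscreteValuationRing C := by
  have : IsLocalRing C := isLocalRing_of_span_isMaximal hπ hmax
  have hm : maximalIdeal C = Ideal.span {algebraMap O C π} := maximalIdeal_eq_span hπ hmax
  have hnf : ¬ IsField C := by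
    rw [isField_iff_maximalIdeal_eq, hm, Ideal.span_singleton_eq_bot]
    exact hπ0
  refine ((IsDiscreteValuationRing.TFAE C hnf).out 0 4).mpr ?_
  rw [hm]
  exact ⟨⟨_, rfl⟩⟩

theorem isIntegrallyClosed_of_span_isMaximal {π : O} (hπ : π ∈ maximalIdeal O)
    (hπ0 : algebraMap O C π ≠ 0)
    (hmax : (Ideal.span {algebraMap O C π}).IsMaximal) : IsIntegrallyClosed C := by
  have := isDiscreteValuationRing_of_span_isMaximal hπ hπ0 hmax
  infer_instance

/-- An element of the fraction field of `C` that is integral over `C` lies in `C`. -/
theorem mem_range_of_isIntegral' {π : O} (hπ : π ∈ maximalIdeal O)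
    (hπ0 : algebraMap O C π ≠ 0)
    (hmax : (Ideal.span {algebraMap O C π}).IsMaximal)
    {K : Type*} [Field K] [Algebra C K] [IsFractionRing C K] {x : K} (hx : IsIntegral C x) :
    x ∈ (algebraMap C K).range := by
  have := isIntegrallyClosed_of_span_isMaximal hπ hπ0 hmax
  obtain ⟨y, hy⟩ := IsIntegrallyClosed.isIntegral_iff.mp hx
  exact ⟨y, hy⟩

/-- An element of the fraction field of `C` that is integral over `O` lies in `C`. -/
theorem mem_range_of_isIntegral {π : O} (hπ : π ∈ maximalIdeal O)
    (hπ0 : algebraMap O C π ≠ 0)
    (hmax : (Ideal.span {algebraMap O C π}).IsMaximal)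
    {K : Type*} [Field K] [Algebra C K] [IsFractionRing C K] [Algebra O K] [IsScalarTower O C K]
    {x : K} (hx : IsIntegral O x) :
    x ∈ (algebraMap C K).range :=
  mem_range_of_isIntegral' hπ hπ0 hmax hx.tower_top

end General

section Finite

variable {O C : Type*} [CommRing O] [IsDomain O] [IsDiscreteValuationRing O]
  [CommRing C] [IsDomain C] [Algebra O C] [Module.Finite O C]

/-- **DVR from a finite torsion-free algebra with `(π)` maximal** (integrator's shape):
`O` a DVR with uniformiser `π`, `C` a domain finite over `O` with injective structure map and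
`π C` maximal: then `C` is local, a DVR, integrally closed. -/
theorem dvr_of_finite {π : O} (hπ : Irreducible π)
    (hinj : Function.Injective (algebraMap O C))
    (hmax : (Ideal.span {algebraMap O C π}).IsMaximal) :
    IsLocalRing C ∧ IsDiscreteValuationRing C ∧ IsIntegrallyClosed C ∧
      ∀ [IsLocalRing C], maximalIdeal C = Ideal.span {algebraMap O C π} := by
  have : Algebra.IsIntegral O C := Algebra.IsIntegral.of_finite O C
  have : IsNoetherianRing C := IsNoetherianRing.of_finite O C
  have hπm : π ∈ maximalIdeal O := by
    rw [mem_maximalIdeal, mem_nonunits_iff]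
    exact hπ.not_isUnit
  have hπ0 : algebraMap O C π ≠ 0 := by
    rw [Ne, map_eq_zero_iff _ hinj]
    exact hπ.ne_zero
  exact ⟨isLocalRing_of_span_isMaximal hπm hmax,
    isDiscreteValuationRing_of_span_isMaximal hπm hπ0 hmax,
    isIntegrallyClosed_of_span_isMaximal hπm hπ0 hmax,
    fun {_} => maximalIdeal_eq_span hπm hmax⟩

end Finite

end Fermat.Agent.IG.VAL.DvrOfFinite13
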