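/-
Program G (S28, Igusa), chapter IG/VAL, helper8 (chapter lead): ONE-FILE EXPORT of chapter IG/VAL.

* `irr ℓ N hℓN : ValInterface8.Irr ℓ N`   — (IRR_N), from IG/PR (`Main20.irr_of_ub`), the AN inputs
  (`Main12.p0/p1/p2`) and the upper bounds `UBFinal8.ub_all`;
* `chartDomain N ℓ hℓN : Interface4.ChartDomain N ℓ` — the deliverable of IG/VAL (DOM), UNCONDITIONAL:
  `SpanFinal8.chartDomain_of_irr` on `Main12.degLe N` and `irr`.
-/
import Fermat.Agent.IG.VAL.SpanFinal8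
import Fermat.Agent.IG.PR.Main20
import Fermat.Agent.IG.AN.Main12

set_option autoImplicit false

namespace Fermat.Agent.IG.VAL.Main8

open Fermat.Agent.IG Fermat.Agent.IG.VAL Fermat.Agent.IG.AN Fermat.Agent.IG.PR

/-- **(IRR_N)**, unconditional: `[L_N : k(j̃)] ≥ ψ(N)` in family form, for `ℓ ∤ N`. -/
theorem irr (ℓ N : ℕ) [Fact ℓ.Prime] [NeZero N] (hℓN : ¬ ℓ ∣ N) : ValInterface8.Irr ℓ N :=
  Main20.irr_of_ub ℓ N hℓN Main12.p1 (fun r hr _ _ => Main12.p0 r hr)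
    (fun r _ _ _ => Main12.p2 r) (UBFinal8.ub_all ℓ N)

/-- **(DOM)**, the deliverable of IG/VAL, unconditional: for `ℓ ∤ N` the three chart algebras stay
domains after base change to any field of characteristic `ℓ`. -/
theorem chartDomain (N : ℕ) [NeZero N] (ℓ : ℕ) [Fact ℓ.Prime] (hℓN : ¬ ℓ ∣ N) :
    Interface4.ChartDomain N ℓ :=
  SpanFinal8.chartDomain_of_irr ℓ N (Main12.degLe N) (irr ℓ N hℓN)

end Fermat.Agent.IG.VAL.Main8
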