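import Fermat.Agent.IG.VAL.OvBasics22
import Fermat.Agent.IG.VAL.C0Package18

/-!
# IG/VAL/OvBridge10 (helper10): leaves (L1)/(L2) of the `C0` package

Bridges between helper8's `ValInterface8.Ov ℓ N ⊂ FF N` (polynomials evaluated with `aeval (jFull N)`
inside `FF N`), helper18's Laurent-series vocabulary (`embQ`, `eval₂ HahnSeries.C (jqModC (Zl ℓ))`)
and helper22's `OvBasics22`:

* `coe_aeval_jFull` : `((aeval (jFull N) P : FF N) : ℚ((q))) = embQ ℓ (eval₂ C (jqModC ℤℓ) P)`;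
* `mem_Ov_iff` : `x ∈ Ov ℓ N ↔ ∃ f h, h̃ ≠ 0 ∧ x * embQ (h(j)) = embQ (f(j))` (helper18's (L2) shape);
* `mem_Ov_iff_mem_gaussRing` : `x ∈ Ov ℓ N ↔ x ∈ ℚ(j) ∧ x ∈ gaussRing ℓ`;
* `ovDesc` : helper18's `OvDesc ℓ` (literal shape), `resQj : C0Package18.ResQj ℓ`;
* `eval₂_C_jqModC_ne_zero` : `j̃` is transcendental (the `eval₂ HahnSeries.C` shape).
-/

set_option autoImplicit false
set_option linter.unusedSectionVars false

noncomputable section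

open HahnSeries ModularCurve ModularCurve.IgusaScheme Polynomial

namespace Fermat.Agent.IG.VAL.OvBridge10

open Fermat.Agent.IG.VAL.ZlRed18 Fermat.Agent.IG.VAL.GaussRing18 Fermat.Agent.IG.VAL.ValInterface8
  Fermat.Agent.IG.VAL.OvBasics22

/-- `j̃` is transcendental over any commutative ring (`eval₂ HahnSeries.C` shape). -/
theorem eval₂_C_jqModC_ne_zero {R : Type*} [CommRing R] {P : R[X]} (hP : P ≠ 0) :
    P.eval₂ (HahnSeries.C : R →+* LaurentSeries R) (jqModC R) ≠ 0 := fun h =>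
  hP ((polyAt_jqModC_eq_zero_iff P).mp h)

theorem eval₂_C_jqModC_eq_zero_iff {R : Type*} [CommRing R] (P : R[X]) :
    P.eval₂ (HahnSeries.C : R →+* LaurentSeries R) (jqModC R) = 0 ↔ P = 0 :=
  polyAt_jqModC_eq_zero_iff P

variable (ℓ : ℕ) [hℓ : Fact ℓ.Prime]

/-- `embQ (P(j))` in `aeval` form. -/
theorem embQ_eval₂ (P : (Zl ℓ)[X]) :
    embQ ℓ (P.eval₂ (HahnSeries.C : Zl ℓ →+* LaurentSeries (Zl ℓ)) (jqModC (Zl ℓ))) =
      aeval (jqModC ℚ) (P.map (incl ℓ)) :=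
  embQ_polyAt ℓ P

/-- **(ResQj)**, from `OvBasics22.gaussRed_mem_kj`. -/
theorem resQj : C0Package18.ResQj ℓ := fun _ hc hg => gaussRed_mem_kj ℓ hc hg

/-- **(OvDesc)** (helper18's literal shape): an element of `ℚ(j)` lying in the Gauss ring is
`f(j)/h(j)` with `f, h ∈ ℤ_(ℓ)[X]`, `h̃ ≠ 0`. -/
theorem ovDesc : ∀ c ∈ Qj, c ∈ gaussRing ℓ → ∃ f h : (Zl ℓ)[X], h.map (redZl ℓ) ≠ 0 ∧
    c * embQ ℓ (h.eval₂ (HahnSeries.C : Zl ℓ →+* LaurentSeries (Zl ℓ)) (jqModC (Zl ℓ))) =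
      embQ ℓ (f.eval₂ (HahnSeries.C : Zl ℓ →+* LaurentSeries (Zl ℓ)) (jqModC (Zl ℓ))) := by
  intro c hc hg
  obtain ⟨f, h, hh, hrel, -⟩ := exists_rep_of_mem_gaussRing ℓ hc hg
  exact ⟨f, h, hh, by rw [embQ_eval₂, embQ_eval₂]; exact hrel⟩

variable (N : ℕ) [NeZero N]

/-- The coercion `FF N → ℚ((q))` as a ring homomorphism. -/
def coeFF : FF N →+* LaurentSeries ℚ where
  toFun x := (x : LaurentSeries ℚ)
  map_one' := rfl
  map_mul' _ _ := rfl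
  map_zero' := rfl
  map_add' _ _ := rfl

theorem coeFF_apply (x : FF N) : coeFF N x = (x : LaurentSeries ℚ) := rfl

/-- `P(j)` computed in `FF N` (with the `ℤ_(ℓ)`-algebra structure of the prelude) is `embQ (P(j))`. -/
theorem coe_aeval_jFull (P : (Zl ℓ)[X]) :
    ((aeval (jFull N) P : FF N) : LaurentSeries ℚ) =
      embQ ℓ (P.eval₂ (HahnSeries.C : Zl ℓ →+* LaurentSeries (Zl ℓ)) (jqModC (Zl ℓ))) := by
  have h : (coeFF N).comp (aeval (R := Zl ℓ) (jFull N)).toRingHom =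
      (embQ ℓ).comp (Polynomial.eval₂RingHom (HahnSeries.C : Zl ℓ →+* LaurentSeries (Zl ℓ))
        (jqModC (Zl ℓ))) := by
    refine Polynomial.ringHom_ext (fun c => ?_) ?_
    · simp only [RingHom.comp_apply, AlgHom.toRingHom_eq_coe, RingHom.coe_coe, aeval_C,
        Polynomial.coe_eval₂RingHom, Polynomial.eval₂_C, coeFF_apply]
      exact C0Package18.coe_algebraMap_Zl ℓ N c
    · simp only [RingHom.comp_apply, AlgHom.toRingHom_eq_coe, RingHom.coe_coe, aeval_X,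
        Polynomial.coe_eval₂RingHom, Polynomial.eval₂_X, coeFF_apply, coe_jFull, embQ_jqModC]
      rfl
  exact congrArg (fun φ : (Zl ℓ)[X] →+* LaurentSeries ℚ => φ P) h

/-- **(L2) bridge**: membership in helper8's `Ov ℓ N` in helper18's Laurent-series shape. -/
theorem mem_Ov_iff (x : FF N) : x ∈ Ov ℓ N ↔
    ∃ f h : (Zl ℓ)[X], h.map (redZl ℓ) ≠ 0 ∧
      (x : LaurentSeries ℚ) *
          embQ ℓ (h.eval₂ (HahnSeries.C : Zl ℓ →+* LaurentSeries (Zl ℓ)) (jqModC (Zl ℓ))) =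
        embQ ℓ (f.eval₂ (HahnSeries.C : Zl ℓ →+* LaurentSeries (Zl ℓ)) (jqModC (Zl ℓ))) := by
  rw [ValInterface8.mem_Ov_iff]
  constructor
  · rintro ⟨f, h, hh, hrel⟩
    refine ⟨f, h, hh, ?_⟩
    rw [← coe_aeval_jFull ℓ N h, ← coe_aeval_jFull ℓ N f, ← hrel]
    rfl
  · rintro ⟨f, h, hh, hrel⟩
    refine ⟨f, h, hh, Subtype.ext ?_⟩
    rw [← coe_aeval_jFull ℓ N h, ← coe_aeval_jFull ℓ N f] at hrel
    exact hrel

/-- `O_v = ℚ(j) ∩ gaussRing` (inside `FF N`). -/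
theorem mem_Ov_iff_mem_gaussRing (x : FF N) : x ∈ Ov ℓ N ↔
    (x : LaurentSeries ℚ) ∈ Qj ∧ (x : LaurentSeries ℚ) ∈ gaussRing ℓ := by
  rw [mem_Ov_iff]
  constructor
  · rintro ⟨f, h, hh, hrel⟩
    rw [embQ_eval₂, embQ_eval₂] at hrel
    exact mem_of_rep ℓ f h hh hrel
  · rintro ⟨hc, hg⟩
    exact ovDesc ℓ _ hc hg

/-- `O_v ⊆ C0` (the field `Ov_le` of `ValInterface8.RedPackage` for helper18's `C0`). -/
theorem Ov_le_C0 : Ov ℓ N ≤ (C0Package18.C0 ℓ N).toSubring := fun x hx =>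
  ((mem_Ov_iff_mem_gaussRing ℓ N x).mp hx).2

end Fermat.Agent.IG.VAL.OvBridge10
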