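/-
Program G (S28, Igusa), chapter IG/VAL, block V1 part II (helper22).

* `mem_Ov_iff` : bridge `x ∈ ValInterface8.Ov ℓ N ↔ (x : ℚ((q))) ∈ ℚ(j) ∧ (x : ℚ((q))) ∈ gaussRing ℓ`;
* `exists_zpow_unit` : a nonzero element of `Frac ℤ_(ℓ)((q))` is `ℓ^v · u`, `u` a unit of the Gauss ring;
* `exists_scaling` : FAMILY SCALING — a finite family in `Frac ℤ_(ℓ)((q))`, not all zero, can be scaled
  by a power of `ℓ` into the Gauss ring with at least one nonzero residue;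
* `exists_aeval_of_ell_mul` (OV4 for `ℤ_(ℓ)[j]`).
-/
import Fermat.Agent.IG.VAL.OvBasics22

set_option autoImplicit false

noncomputable section

open HahnSeries ModularCurve ModularCurve.IgusaScheme Polynomial

namespace Fermat.Agent.IG.VAL.OvBridge22

open Fermat.Agent.IG.VAL.ZlRed18 Fermat.Agent.IG.VAL.GaussRing18 Fermat.Agent.IG.VAL.OvBasics22

set_option linter.unusedSectionVars false

variable (ℓ : ℕ) [hℓ : Fact ℓ.Prime]

section Bridge

variable (N : ℕ) [NeZero N]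

/-- the underlying Laurent series of `h(j) ∈ FF N`, `h ∈ ℤ_(ℓ)[X]`. -/
theorem coe_aeval_jFull (h : (Zl ℓ)[X]) :
    ((aeval (jFull N) h : ValInterface8.FF N) : LaurentSeries ℚ)
      = aeval (jqModC ℚ) (h.map (incl ℓ)) := by
  have hval : ∀ y : ValInterface8.FF N, (y : LaurentSeries ℚ)
      = SubringClass.subtype (modularFunctionFieldFull N) y := fun _ => rfl
  have e1 : (SubringClass.subtype (modularFunctionFieldFull N)).comp
      (algebraMap (Zl ℓ) ↥(modularFunctionFieldFull N))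
        = (algebraMap ℚ (LaurentSeries ℚ)).comp (incl ℓ) := Subsingleton.elim _ _
  rw [hval, Polynomial.aeval_def, Polynomial.hom_eval₂, Polynomial.aeval_def, Polynomial.eval₂_map,
    e1]
  rfl

theorem mem_Ov_iff (x : ValInterface8.FF N) :
    x ∈ ValInterface8.Ov ℓ N ↔
      (x : LaurentSeries ℚ) ∈ ValInterface8.Qj ∧ (x : LaurentSeries ℚ) ∈ gaussRing ℓ := by
  constructor
  · rintro ⟨f, h, hh, hrel⟩
    have hrel' := congrArg (fun y : ValInterface8.FF N => (y : LaurentSeries ℚ)) hrel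
    simp only [MulMemClass.coe_mul] at hrel'
    rw [coe_aeval_jFull, coe_aeval_jFull] at hrel'
    exact mem_of_rep ℓ f h hh hrel'
  · rintro ⟨hc, hg⟩
    obtain ⟨f, h, hh, hrel, -⟩ := exists_rep_of_mem_gaussRing ℓ hc hg
    refine ⟨f, h, hh, Subtype.ext ?_⟩
    rw [MulMemClass.coe_mul, coe_aeval_jFull, coe_aeval_jFull]
    exact hrel

end Bridge

section Scaling

/-- A nonzero element of `Frac ℤ_(ℓ)((q))` is `ℓ^v · u` with `u` a unit of the Gauss ring. -/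
theorem exists_zpow_unit {f : LaurentSeries ℚ} (hf : f ∈ fracField ℓ) (h0 : f ≠ 0) :
    ∃ (v : ℤ) (u : gaussRing ℓ), gaussRed ℓ u ≠ 0 ∧
      f = (ℓ : LaurentSeries ℚ) ^ v * (u : LaurentSeries ℚ) := by
  obtain ⟨i, j, u, hu, h⟩ := exists_unit_rep ℓ hf h0
  have hl := GaussRing18.ell_ne_zero ℓ
  refine ⟨(i : ℤ) - j, u, hu, ?_⟩
  rw [zpow_sub₀ hl, zpow_natCast, zpow_natCast, div_mul_eq_mul_div, eq_div_iff (pow_ne_zero j hl), h]

theorem ell_zpow_mem_gaussRing {m : ℤ} (hm : 0 ≤ m) : (ℓ : LaurentSeries ℚ) ^ m ∈ gaussRing ℓ := by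
  lift m to ℕ using hm
  rw [zpow_natCast]
  exact pow_mem (GaussRing18.natCast_mem ℓ ℓ) m

theorem ell_zpow_mem_Qj (m : ℤ) : (ℓ : LaurentSeries ℚ) ^ m ∈ ValInterface8.Qj :=
  zpow_mem (_root_.natCast_mem ValInterface8.Qj ℓ) m

/-- **FAMILY SCALING.**  A finite family in `Frac ℤ_(ℓ)((q))`, not all zero, can be scaled by a power
of `ℓ` into the Gauss ring so that at least one member has nonzero residue. -/
theorem exists_scaling {ι : Type*} [Finite ι] (f : ι → LaurentSeries ℚ)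
    (hf : ∀ i, f i ∈ fracField ℓ) (hne : ∃ i, f i ≠ 0) :
    ∃ (m : ℤ) (hm : ∀ i, (ℓ : LaurentSeries ℚ) ^ m * f i ∈ gaussRing ℓ),
      ∃ i, gaussRed ℓ ⟨(ℓ : LaurentSeries ℚ) ^ m * f i, hm i⟩ ≠ 0 := by
  classical
  have := Fintype.ofFinite ι
  have hl := GaussRing18.ell_ne_zero ℓ
  -- valuations of the nonzero members
  have hex : ∀ i : {i // f i ≠ 0}, ∃ (v : ℤ) (u : gaussRing ℓ), gaussRed ℓ u ≠ 0 ∧
      f i = (ℓ : LaurentSeries ℚ) ^ v * (u : LaurentSeries ℚ) :=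
    fun i => exists_zpow_unit ℓ (hf i) i.2
  choose v u hu hfu using hex
  obtain ⟨i₁, hi₁⟩ := hne
  have : Nonempty {i // f i ≠ 0} := ⟨⟨i₁, hi₁⟩⟩
  obtain ⟨i₀, -, hmin⟩ := Finset.exists_min_image (Finset.univ : Finset {i // f i ≠ 0}) v
    Finset.univ_nonempty
  have hmem : ∀ i, (ℓ : LaurentSeries ℚ) ^ (-(v i₀)) * f i ∈ gaussRing ℓ := by
    intro i
    by_cases hi : f i = 0
    · rw [hi, mul_zero]; exact zero_mem _
    · have := hfu ⟨i, hi⟩
      simp only at this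
      rw [this, ← mul_assoc, ← zpow_add₀ hl]
      refine mul_mem (ell_zpow_mem_gaussRing ℓ ?_) (u ⟨i, hi⟩).2
      have := hmin ⟨i, hi⟩ (Finset.mem_univ _)
      omega
  refine ⟨-(v i₀), hmem, i₀, ?_⟩
  have hval : (ℓ : LaurentSeries ℚ) ^ (-(v i₀)) * f i₀ = (u i₀ : LaurentSeries ℚ) := by
    have := hfu i₀
    rw [this, ← mul_assoc, ← zpow_add₀ hl, neg_add_cancel, zpow_zero, one_mul]
  have : (⟨(ℓ : LaurentSeries ℚ) ^ (-(v i₀)) * f i₀, hmem i₀⟩ : gaussRing ℓ) = u i₀ :=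
    Subtype.ext hval
  rw [this]
  exact hu i₀

/-- FAMILY SCALING inside `ℚ(j)` (the scaled members stay in `ℚ(j)`). -/
theorem exists_scaling_Qj {ι : Type*} [Finite ι] (f : ι → LaurentSeries ℚ)
    (hf : ∀ i, f i ∈ ValInterface8.Qj) (hne : ∃ i, f i ≠ 0) :
    ∃ (c : LaurentSeries ℚ) (_ : c ∈ ValInterface8.Qj) (_ : c ≠ 0)
      (hm : ∀ i, c * f i ∈ gaussRing ℓ), (∀ i, c * f i ∈ ValInterface8.Qj) ∧
      ∃ i, gaussRed ℓ ⟨c * f i, hm i⟩ ≠ 0 := by
  have hQ : ValInterface8.Qj ≤ fracField ℓ := by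
    rw [ValInterface8.Qj, IntermediateField.adjoin_le_iff, Set.singleton_subset_iff]
    have := xd_mem_fracField ℓ 1
    rwa [qExpand_one_apply] at this
  obtain ⟨m, hm, i, hi⟩ := exists_scaling ℓ f (fun i => hQ (hf i)) hne
  exact ⟨_, ell_zpow_mem_Qj ℓ m, zpow_ne_zero m (GaussRing18.ell_ne_zero ℓ), hm,
    fun i => mul_mem (ell_zpow_mem_Qj ℓ m) (hf i), i, hi⟩

end Scaling

section Gauss

/-- **(OV4)** Gauss lemma for `ℤ_(ℓ)[j]`: if `c` is in the Gauss ring and `ℓ c = P(j)` with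
`P ∈ ℤ_(ℓ)[X]`, then `c = P₁(j)` with `P₁ ∈ ℤ_(ℓ)[X]`. -/
theorem exists_aeval_of_ell_mul {c : LaurentSeries ℚ} (hg : c ∈ gaussRing ℓ) (P : (Zl ℓ)[X])
    (hP : (ℓ : LaurentSeries ℚ) * c = aeval (jqModC ℚ) (P.map (incl ℓ))) :
    ∃ P₁ : (Zl ℓ)[X], c = aeval (jqModC ℚ) (P₁.map (incl ℓ)) := by
  have hG : ellG ℓ * ⟨c, hg⟩ = polyG ℓ P := Subtype.ext hP
  have h1 := congrArg (gaussRed ℓ) hG
  rw [map_mul, gaussRed_ellG, zero_mul, gaussRed_polyG] at h1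
  have h2 : P.map (redZl ℓ) = 0 := by
    by_contra hne
    exact aeval_jqModC_ne_zero hne h1.symm
  rw [redZl_eq_resZl, Zl13.map_resZl_eq_zero_iff] at h2
  obtain ⟨P₁, rfl⟩ := h2
  refine ⟨P₁, ?_⟩
  rw [Polynomial.map_mul, Polynomial.map_C, map_mul, aeval_C] at hP
  have hl : algebraMap ℚ (LaurentSeries ℚ) ((incl ℓ) (ℓ : Zl ℓ)) = (ℓ : LaurentSeries ℚ) := by
    rw [map_natCast, map_natCast]
  rw [hl] at hP
  exact mul_left_cancel₀ (GaussRing18.ell_ne_zero ℓ) hP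

end Gauss

end Fermat.Agent.IG.VAL.OvBridge22
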