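/-
Program G (S28, Igusa), chapter IG/VAL, helper8: (SPAN) and the CHAPTER THEOREM.

`integralOv` : from `DegLe N` (AN) and `Irr ℓ N` (PR + UB), every element of
`C0 ℓ N = FF N ∩ (Gauss ring)` is integral over `O_v`:
  lift a `k(j̃)`-independent family of `ψ(N)` elements of `L_N` to `e_i ∈ C0`
  (`C0Package18.exists_red_eq`); by `BasisRep18.exists_coeffs` every `b ∈ C0` is `Σ g_i e_i` with
  `g_i ∈ ℚ(j) ∩ (Gauss ring) = O_v` (`OvBridge22.mem_Ov_iff`); so `C0` is a subalgebra of `FF N` over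
  `O_v` which is finitely generated as a module, hence integral (`IsIntegral.of_mem_of_fg`).
-/
import Mathlib
import Fermat.Agent.IG.VAL.ValFinal8
import Fermat.Agent.IG.VAL.UBFinal8
import Fermat.Agent.IG.VAL.BasisRep18
import Fermat.Agent.IG.VAL.OvBridge22
import Fermat.Agent.IG.VAL.ResidueField15

set_option autoImplicit false

noncomputable section

namespace Fermat.Agent.IG.VAL.SpanFinal8

open ModularCurve ModularCurve.IgusaScheme
open Fermat.Agent.IG.VAL.ValInterface8 Fermat.Agent.IG.VAL.C0Package18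
open Fermat.Agent.IG.VAL.GaussRing18

variable (ℓ : ℕ) [hℓ : Fact ℓ.Prime] (N : ℕ) [NeZero N]

theorem Ov_le_C0 {x : FF N} (hx : x ∈ Ov ℓ N) : x ∈ C0 ℓ N :=
  ((OvBridge22.mem_Ov_iff ℓ N x).mp hx).2

/-- `C0 ℓ N` as a subalgebra of `FF N` over `O_v`. -/
def C0Ov : Subalgebra ↥(Ov ℓ N) (FF N) :=
  { (C0 ℓ N).toSubsemiring with
    algebraMap_mem' := fun r => Ov_le_C0 ℓ N r.2 }

theorem mem_C0Ov_iff (x : FF N) : x ∈ C0Ov ℓ N ↔ x ∈ C0 ℓ N := Iff.rfl

/-- every `b ∈ C0` is an `O_v`-combination of lifts of an independent family of residues. -/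
theorem exists_rep (hdeg : DegLe N) (c : Fin (dedekindPsi N) → LaurentSeries (ZMod ℓ))
    (γ : Fin (dedekindPsi N) → ↥(C0 ℓ N)) (hγ : ∀ i, red ℓ N (γ i) = c i)
    (hind : LinearIndependent ↥(kj ℓ) c) (b : ↥(C0 ℓ N)) :
    ∃ g : Fin (dedekindPsi N) → ↥(Ov ℓ N), (b : FF N) = ∑ i, g i • (γ i : FF N) := by
  let e : Fin (dedekindPsi N) → ↥(gaussRing ℓ) := fun i => toGauss ℓ N (γ i)
  have he : (fun i => gaussRed ℓ (e i)) = c := funext fun i => hγ i
  have hind' : LinearIndependent ↥(kj ℓ) (fun i => gaussRed ℓ (e i)) := by rw [he]; exact hind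
  obtain ⟨g, hgG, hb⟩ := BasisRep18.exists_coeffs (K := ↥Qj) (Ω := LaurentSeries ℚ)
    (G := gaussRing ℓ) (ρ := gaussRed ℓ) (κ := ↥(kj ℓ))
    (fun f hf => inv_mem_of_gaussRed_ne_zero ℓ f hf) (hval_Qj ℓ)
    (hκ_of_resQj ℓ (UBFinal8.resQj ℓ))
    ((modularFunctionFieldFull N : Set (LaurentSeries ℚ))) (dedekindPsi N)
    (fun m c hc hli => hdeg m c hc hli) e (fun i => (γ i : FF N).2) hind'
    (toGauss ℓ N b) ((b : FF N).2)
  have hgF : ∀ i, ((g i : ↥Qj) : LaurentSeries ℚ) ∈ modularFunctionFieldFull N :=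
    fun i => ResidueField15.Qj_le_full N (g i).2
  have hgO : ∀ i, (⟨(g i : LaurentSeries ℚ), hgF i⟩ : FF N) ∈ Ov ℓ N := fun i =>
    (OvBridge22.mem_Ov_iff ℓ N _).mpr ⟨(g i).2, hgG i⟩
  refine ⟨fun i => ⟨⟨(g i : LaurentSeries ℚ), hgF i⟩, hgO i⟩, ?_⟩
  apply Subtype.ext
  rw [AddSubmonoidClass.coe_finsetSum]
  refine hb.trans (Finset.sum_congr rfl fun i _ => ?_)
  rfl

theorem C0Ov_fg (hdeg : DegLe N) (hirr : Irr ℓ N) : (C0Ov ℓ N).toSubmodule.FG := by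
  classical
  obtain ⟨c, hc, hind⟩ := hirr
  choose γ hγ using fun i => exists_red_eq ℓ N (hc i)
  refine ⟨Finset.univ.image fun i => (γ i : FF N), le_antisymm ?_ ?_⟩
  · rw [Submodule.span_le]
    intro x hx
    rw [Finset.coe_image] at hx
    obtain ⟨i, -, rfl⟩ := hx
    exact (γ i).2
  · intro b hb
    obtain ⟨g, hg⟩ := exists_rep ℓ N hdeg c γ hγ hind ⟨b, hb⟩
    rw [show b = ∑ i, g i • (γ i : FF N) from hg]
    refine Submodule.sum_mem _ fun i _ => Submodule.smul_mem _ _ (Submodule.subset_span ?_)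
    rw [Finset.coe_image]
    exact ⟨i, Finset.mem_coe.mpr (Finset.mem_univ i), rfl⟩

/-- **(SPAN)**: `C0 ℓ N` is integral over `O_v`. -/
theorem integralOv (hdeg : DegLe N) (hirr : Irr ℓ N) : ValFinal8.IntegralOv ℓ N :=
  fun γ => IsIntegral.of_mem_of_fg (C0Ov ℓ N) (C0Ov_fg ℓ N hdeg hirr) (γ : FF N) γ.2

/-- **IG/VAL, chapter theorem** (conditional form): `DegLe N` + `Irr ℓ N` ⇒ `ChartDomain N ℓ`. -/
theorem chartDomain_of_irr (hdeg : DegLe N) (hirr : Irr ℓ N) : Interface4.ChartDomain N ℓ :=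
  ValFinal8.chartDomain ℓ N (integralOv ℓ N hdeg hirr)

end Fermat.Agent.IG.VAL.SpanFinal8
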