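/-
Program G (S28, Igusa), chapter IG/VAL, helper18: ONE-FILE EXPORT of chapter IG/VAL.

* `chartDomain_of_irr` : `Irr ℓ N` (PR) ⟹ `Interface4.ChartDomain N ℓ`
  (`ValFinal8.chartDomain` fed with (SPAN) `C0PackageII18.span_Ov` and (DEG) `DegLeVal23.degLe`);
* `irr` : `Irr ℓ N` for `ℓ ∤ N`, unconditional (`Main20.irr_of_ub` fed with AN `Main12` and
  `UBFinal8.ub_all`);
* `chartDomain` : `Interface4.ChartDomain N ℓ` for `ℓ ∤ N`, unconditional.
-/
import Fermat.Agent.IG.VAL.ValFinal8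
import Fermat.Agent.IG.VAL.C0PackageII18
import Fermat.Agent.IG.VAL.UBFinal8
import Fermat.Agent.IG.AN.Main12
import Fermat.Agent.IG.PR.Main20

set_option autoImplicit false

namespace Fermat.Agent.IG.VAL.ValMain18

open Fermat.Agent.IG Fermat.Agent.IG.VAL Fermat.Agent.IG.VAL.ValInterface8

variable (ℓ : ℕ) [Fact ℓ.Prime] (N : ℕ) [NeZero N]

/-- **IG/VAL from (IRR_N)**: the three chart algebras stay domains after base change to
characteristic `ℓ`. -/
theorem chartDomain_of_irr (hirr : Irr ℓ N) : Interface4.ChartDomain N ℓ :=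
  ValFinal8.chartDomain ℓ N
    (fun γ => C0PackageII18.span_Ov ℓ N (AN.DegLeVal23.degLe N) hirr γ γ.2)

/-- **(IRR_N)**, unconditional for `ℓ ∤ N`. -/
theorem irr (hℓN : ¬ ℓ ∣ N) : Irr ℓ N :=
  PR.Main20.irr_of_ub ℓ N hℓN AN.Main12.p1
    (fun r hr _ _ => AN.Main12.p0 r hr) (fun r _ _ _ => AN.Main12.p2 r) (UBFinal8.ub_all ℓ N)

/-- **IG/VAL, unconditional**: (DOM) for `ℓ ∤ N`. -/
theorem chartDomain (hℓN : ¬ ℓ ∣ N) : Interface4.ChartDomain N ℓ :=
  chartDomain_of_irr ℓ N (irr ℓ N hℓN)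

end Fermat.Agent.IG.VAL.ValMain18
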